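import Mathlib
import Fermat.Agent.SS.Germ.MainPlus
import Fermat.Agent.SS.Loc.Ring
import Fermat.Agent.SQ.Germ.Main
import Fermat.Agent.MR.Exact.TermAbs

/-!
# PROGRAM MR (S44), block `mrk` : EXACT NODE COORDINATES from a thickness-one node above (E-level)

Owner: helper25.  Prefix `mrk`.  Namespace `Fermat.Agent.MR`.

Semi-abstract two-level statement in main's vocabulary (`s18tInt`, `SsgaTwo`, `SqgaOn`, `SqgaNode`,
`SsGermCrossPlus`) on top of the architect's abstract algebra `MR/Exact/TermAbs.lean` (`mrxa_*`).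

* lower level : `(F, t, 𝔫, V₁, V₂)` with main's crossing germ `SsGermCrossPlus ϖ t G 𝔫 V₁ V₂`
  (precision `m` only : `u w = κ + ϖ^m ρ`);
* upper level : `(F', t', 𝔫', V₁', V₂')` with a node of thickness one `SqgaNode ϖ t' V₁' V₂' 𝔫'`
  (main : `SQ.sqct1_j` at an auxiliary level), `ι : F →+* F'` compatible with everything.

* `mrk_upper` : the upstairs data in the form of `mrxa_term` / `mrxa_thick` : `ϖ = u' w' ε'`,
  `O' ∩ 𝔪_{V₁'} = u' O'`, `O' ∩ 𝔪_{V₂'} = w' O'`, `V₁'(u') = V₁'(ϖ)`, `V₂'(w') = V₂'(ϖ)`.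
* `MrkGermExact ϖ t G 𝔫 V₁ V₂` : the EXACT crossing germ `u w = ϖ^e c (1 + ϖ ρ)`, `e ≥ 1`,
  `c ∈ Aˣ`, `ρ ∈ P_𝔫`, with all the clauses of `SsGermCrossPlus` for the same `u, w`.
* `mrk_germ_exact` : **lower germ + upper node of thickness one ⟹ `MrkGermExact`**.
* `mrk_germ_thick` : for every exact pair below, `ι u = u'^e h`, `h` a unit of `O'`.
-/

set_option autoImplicit false
set_option linter.unusedSectionVars false
set_option linter.unusedVariables false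

noncomputable section

namespace Fermat.Agent.MR

open Polynomial IntermediateField AlgebraicCurve Fermat.Agent.S18 Fermat.Agent.SS Fermat.Agent.SQ
  Fermat.Agent.G IsLocalRing

universe u u'

variable {A : Type*} [CommRing A] [IsDomain A] [IsDiscreteValuationRing A] [CharZero A]
variable {L : Type*} [Field L] [Algebra A L] [IsFractionRing A L]
variable {F : Type u} [Field F] [Algebra A F] [Algebra L F] [IsScalarTower A L F]
variable {F' : Type u'} [Field F'] [Algebra A F']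
variable {ϖ : A}

/-! ## 0. small valuation lemmas -/

theorem mrk_val_eq_one (V : ValuationSubring F) {x : F} (hx : x ∈ V) (hnu : x ∉ V.nonunits) :
    V.valuation x = 1 := by
  have h1 : V.valuation x ≤ 1 := (V.valuation_le_one_iff x).mpr hx
  have h2 : ¬ V.valuation x < 1 := fun h => hnu (V.mem_nonunits_iff.mpr h)
  exact le_antisymm h1 (not_lt.mp h2)

theorem mrk_inv_mem (V : ValuationSubring F) {x : F} (hx : x ∈ V) (hnu : x ∉ V.nonunits) :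
    x ≠ 0 ∧ x⁻¹ ∈ V := by
  have h1 := mrk_val_eq_one V hx hnu
  refine ⟨fun h0 => ?_, ?_⟩
  · rw [h0, map_zero] at h1; exact zero_ne_one h1
  · rw [← V.valuation_le_one_iff, map_inv₀, h1, inv_one]

/-- a factor of an element outside `𝔪_V` (all in `V`) is outside `𝔪_V`. -/
theorem mrk_not_nu_of_mul (V : ValuationSubring F) {x y : F} (hy : y ∈ V)
    (h : x * y ∉ V.nonunits) : x ∉ V.nonunits := fun hx => h (ssgr_nu_mul_left V hx hy)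

/-! ## 1. the upstairs data -/

section Upper

variable {t' : F'} {𝔫' : Ideal ↥(s18tInt A t')} [h𝔫' : 𝔫'.IsPrime]
variable {V₁' V₂' : ValuationSubring F'}

/-- **the upstairs data** of a node of thickness one, in the form used by `mrxa_term`,
`mrxa_thick`. -/
theorem mrk_upper (hπ0 : algebraMap A F' ϖ ≠ 0) (h2' : SsgaTwo ϖ t' V₁' V₂')
    (hon₁' : SqgaOn t' 𝔫' V₁') (hon₂' : SqgaOn t' 𝔫' V₂')
    (hnode : SqgaNode ϖ t' V₁' V₂' 𝔫') :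
    ∃ u' w' ε' : F', u' ∈ s18tInt A t' ∧ w' ∈ s18tInt A t' ∧
      u' ∈ V₁'.nonunits ∧ w' ∈ V₂'.nonunits ∧ u' ∉ V₂'.nonunits ∧ w' ∉ V₁'.nonunits ∧
      ε' ∈ ssLocRing t' 𝔫' ∧ ε'⁻¹ ∈ ssLocRing t' 𝔫' ∧
      algebraMap A F' ϖ = u' * w' * ε' ∧
      (∀ x ∈ ssLocRing t' 𝔫', x ∈ V₁'.nonunits → ∃ y ∈ ssLocRing t' 𝔫', x = u' * y) ∧
      (∀ x ∈ ssLocRing t' 𝔫', x ∈ V₂'.nonunits → ∃ y ∈ ssLocRing t' 𝔫', x = w' * y) ∧
      V₁'.valuation u' = V₁'.valuation (algebraMap A F' ϖ) ∧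
      V₂'.valuation w' = V₂'.valuation (algebraMap A F' ϖ) := by
  obtain ⟨u', w', r, m, hu', hw', hr, hrel⟩ := hnode
  -- `r` is a unit of both valuation rings
  have hr₁ : (r : F') ∉ V₁'.nonunits := fun h => hr (hon₁' r h)
  have hr₂ : (r : F') ∉ V₂'.nonunits := fun h => hr (hon₂' r h)
  have hr0 : (r : F') ≠ 0 := (mrk_inv_mem V₁' (h2'.le₁ _ r.2) hr₁).1
  -- `u' w' = ϖ y`
  obtain ⟨y, hy, huwy⟩ := h2'.sat ((u' : F') * (w' : F')) (Subring.mul_mem _ u'.2 w'.2)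
    (ssgr_nu_mul_left V₁' hu' (h2'.le₁ _ w'.2)) (ssgr_nu_mul_right V₂' (h2'.le₂ _ u'.2) hw')
  -- `r = y m`
  have hrym : (r : F') = y * (m : F') := by
    have : algebraMap A F' ϖ * (r : F') = algebraMap A F' ϖ * (y * (m : F')) := by
      rw [mul_comm, hrel, huwy]; ring
    exact mul_left_cancel₀ hπ0 this
  have hm : m ∉ 𝔫' := by
    intro hm
    apply hr
    have : r = ⟨y, hy⟩ * m := Subtype.ext (by simpa using hrym)
    rw [this]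
    exact 𝔫'.mul_mem_left _ hm
  have hy' : (⟨y, hy⟩ : ↥(s18tInt A t')) ∉ 𝔫' := by
    intro hyn
    apply hr
    have : r = ⟨y, hy⟩ * m := Subtype.ext (by simpa using hrym)
    rw [this]
    exact 𝔫'.mul_mem_right _ hyn
  have hm0 : (m : F') ≠ 0 := fun h => hr0 (by rw [hrym, h, mul_zero])
  have hy0 : y ≠ 0 := fun h => hr0 (by rw [hrym, h, zero_mul])
  -- `u'`, `w'` are not in the other maximal ideal
  have hw'₁ : (w' : F') ∉ V₁'.nonunits := by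
    intro h
    obtain ⟨z, hz, hwz⟩ := h2'.sat (w' : F') w'.2 h hw'
    apply hr
    have e : (r : F') = (u' : F') * z * (m : F') := by
      have : algebraMap A F' ϖ * (r : F') = algebraMap A F' ϖ * ((u' : F') * z * (m : F')) := by
        rw [mul_comm, hrel, hwz]; ring
      exact mul_left_cancel₀ hπ0 this
    have : r = u' * ⟨z, hz⟩ * m := Subtype.ext (by simpa using e)
    rw [this]
    exact 𝔫'.mul_mem_right _ (𝔫'.mul_mem_right _ (hon₁' u' hu'))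
  have hu'₂ : (u' : F') ∉ V₂'.nonunits := by
    intro h
    obtain ⟨z, hz, huz⟩ := h2'.sat (u' : F') u'.2 hu' h
    apply hr
    have e : (r : F') = z * (w' : F') * (m : F') := by
      have : algebraMap A F' ϖ * (r : F') = algebraMap A F' ϖ * (z * (w' : F') * (m : F')) := by
        rw [mul_comm, hrel, huz]; ring
      exact mul_left_cancel₀ hπ0 this
    have : r = ⟨z, hz⟩ * w' * m := Subtype.ext (by simpa using e)
    rw [this]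
    exact 𝔫'.mul_mem_right _ (𝔫'.mul_mem_left _ (hon₂' w' hw'))
  have hu'0 : (u' : F') ≠ 0 := (mrk_inv_mem V₂' (h2'.le₂ _ u'.2) hu'₂).1
  have hw'0 : (w' : F') ≠ 0 := (mrk_inv_mem V₁' (h2'.le₁ _ w'.2) hw'₁).1
  -- `ε' = m / r`
  have hε' : (m : F') * (r : F')⁻¹ ∈ ssLocRing t' 𝔫' :=
    ⟨r, hr, by
      have : (r : F') * ((m : F') * (r : F')⁻¹) = (m : F') := by field_simp
      rw [this]; exact m.2⟩
  have hε'inv : ((m : F') * (r : F')⁻¹)⁻¹ ∈ ssLocRing t' 𝔫' :=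
    ⟨m, hm, by
      have : (m : F') * ((m : F') * (r : F')⁻¹)⁻¹ = (r : F') := by field_simp
      rw [this]; exact r.2⟩
  have hup : algebraMap A F' ϖ = (u' : F') * (w' : F') * ((m : F') * (r : F')⁻¹) := by
    have : (r : F') * algebraMap A F' ϖ
        = (r : F') * ((u' : F') * (w' : F') * ((m : F') * (r : F')⁻¹)) := by
      rw [hrel]; field_simp
    exact mul_left_cancel₀ hr0 this
  -- valuations
  have hm₁ : (m : F') ∉ V₁'.nonunits := fun h => hm (hon₁' m h)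
  have hm₂ : (m : F') ∉ V₂'.nonunits := fun h => hm (hon₂' m h)
  have hval₁ : V₁'.valuation (u' : F') = V₁'.valuation (algebraMap A F' ϖ) := by
    have h := congrArg V₁'.valuation hrel
    rw [map_mul, map_mul, map_mul, mrk_val_eq_one V₁' (h2'.le₁ _ r.2) hr₁,
      mrk_val_eq_one V₁' (h2'.le₁ _ w'.2) hw'₁, mrk_val_eq_one V₁' (h2'.le₁ _ m.2) hm₁,
      one_mul, mul_one, mul_one] at h
    exact h.symm
  have hval₂ : V₂'.valuation (w' : F') = V₂'.valuation (algebraMap A F' ϖ) := by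
    have h := congrArg V₂'.valuation hrel
    rw [map_mul, map_mul, map_mul, mrk_val_eq_one V₂' (h2'.le₂ _ r.2) hr₂,
      mrk_val_eq_one V₂' (h2'.le₂ _ u'.2) hu'₂, mrk_val_eq_one V₂' (h2'.le₂ _ m.2) hm₂,
      one_mul, one_mul, mul_one] at h
    exact h.symm
  -- principal components
  have hprin₁ : ∀ x ∈ ssLocRing t' 𝔫', x ∈ V₁'.nonunits →
      ∃ y ∈ ssLocRing t' 𝔫', x = (u' : F') * y := by
    rintro x ⟨s, hs, hsx⟩ hx
    have hp₁ : (s : F') * x ∈ V₁'.nonunits := ssgr_nu_mul_right V₁' (h2'.le₁ _ s.2) hx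
    obtain ⟨z, hz, hpz⟩ := h2'.sat ((s : F') * x * (w' : F')) (Subring.mul_mem _ hsx w'.2)
      (ssgr_nu_mul_left V₁' hp₁ (h2'.le₁ _ w'.2)) (ssgr_nu_mul_right V₂' (h2'.le₂ _ hsx) hw')
    have hs0 : (s : F') ≠ 0 := fun h => hs (by
      have : s = 0 := Subtype.ext h
      rw [this]; exact 𝔫'.zero_mem)
    -- `r s x = u' m z`
    have key : (r : F') * ((s : F') * x) = (u' : F') * ((m : F') * z) := by
      have : (w' : F') * ((r : F') * ((s : F') * x)) = (w' : F') * ((u' : F') * ((m : F') * z)) := by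
        calc (w' : F') * ((r : F') * ((s : F') * x)) = (r : F') * ((s : F') * x * (w' : F')) := by ring
          _ = (r : F') * algebraMap A F' ϖ * z := by rw [hpz]; ring
          _ = (w' : F') * ((u' : F') * ((m : F') * z)) := by rw [hrel]; ring
      exact mul_left_cancel₀ hw'0 this
    refine ⟨(m : F') * z * ((r : F') * (s : F'))⁻¹, ⟨r * s, fun h => (h𝔫'.mem_or_mem h).elim hr hs, ?_⟩, ?_⟩
    · have : ((r * s : ↥(s18tInt A t')) : F') * ((m : F') * z * ((r : F') * (s : F'))⁻¹)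
          = (m : F') * z := by
        push_cast; field_simp
      rw [this]; exact Subring.mul_mem _ m.2 hz
    · have : (r : F') * (s : F') * x = (r : F') * (s : F') *
          ((u' : F') * ((m : F') * z * ((r : F') * (s : F'))⁻¹)) := by
        rw [mul_assoc, key]; field_simp
      exact mul_left_cancel₀ (mul_ne_zero hr0 hs0) this
  have hprin₂ : ∀ x ∈ ssLocRing t' 𝔫', x ∈ V₂'.nonunits →
      ∃ y ∈ ssLocRing t' 𝔫', x = (w' : F') * y := by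
    rintro x ⟨s, hs, hsx⟩ hx
    have hp₂ : (s : F') * x ∈ V₂'.nonunits := ssgr_nu_mul_right V₂' (h2'.le₂ _ s.2) hx
    obtain ⟨z, hz, hpz⟩ := h2'.sat ((s : F') * x * (u' : F')) (Subring.mul_mem _ hsx u'.2)
      (ssgr_nu_mul_right V₁' (h2'.le₁ _ hsx) hu') (ssgr_nu_mul_left V₂' hp₂ (h2'.le₂ _ u'.2))
    have hs0 : (s : F') ≠ 0 := fun h => hs (by
      have : s = 0 := Subtype.ext h
      rw [this]; exact 𝔫'.zero_mem)
    have key : (r : F') * ((s : F') * x) = (w' : F') * ((m : F') * z) := by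
      have : (u' : F') * ((r : F') * ((s : F') * x)) = (u' : F') * ((w' : F') * ((m : F') * z)) := by
        calc (u' : F') * ((r : F') * ((s : F') * x)) = (r : F') * ((s : F') * x * (u' : F')) := by ring
          _ = (r : F') * algebraMap A F' ϖ * z := by rw [hpz]; ring
          _ = (u' : F') * ((w' : F') * ((m : F') * z)) := by rw [hrel]; ring
      exact mul_left_cancel₀ hu'0 this
    refine ⟨(m : F') * z * ((r : F') * (s : F'))⁻¹, ⟨r * s, fun h => (h𝔫'.mem_or_mem h).elim hr hs, ?_⟩, ?_⟩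
    · have : ((r * s : ↥(s18tInt A t')) : F') * ((m : F') * z * ((r : F') * (s : F'))⁻¹)
          = (m : F') * z := by
        push_cast; field_simp
      rw [this]; exact Subring.mul_mem _ m.2 hz
    · have : (r : F') * (s : F') * x = (r : F') * (s : F') *
          ((w' : F') * ((m : F') * z * ((r : F') * (s : F'))⁻¹)) := by
        rw [mul_assoc, key]; field_simp
      exact mul_left_cancel₀ (mul_ne_zero hr0 hs0) this
  exact ⟨u', w', (m : F') * (r : F')⁻¹, u'.2, w'.2, hu', hw', hu'₂, hw'₁, hε', hε'inv, hup,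
    hprin₁, hprin₂, hval₁, hval₂⟩

end Upper

/-! ## 2. the exact crossing germ -/

/-- **the EXACT crossing germ** : all the clauses of `SsGermCrossPlus` for ONE pair `(u, w)`,
`u ∉ 𝔪_{V₂}`, `w ∉ 𝔪_{V₁}`, and `u w = ϖ^e c (1 + ϖ ρ)` with `e ≥ 1`, `c ∈ Aˣ`, `ρ ∈ P_𝔫`. -/
def MrkGermExact (ϖ : A) (t : F) (G : Subgroup (SemilinearAut L F))
    (𝔫 : Ideal ↥(s18tInt A t)) (V₁ V₂ : ValuationSubring F) : Prop :=
  ∃ u w : F, SsnfInMax t 𝔫 u ∧ SsnfInMax t 𝔫 w ∧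
    (∀ γ ∈ G, γ • u = u) ∧ (∀ γ ∈ G, γ • w = w) ∧ SsgaSpan3 ϖ t 𝔫 u w ∧
    u ∈ V₁.nonunits ∧ w ∈ V₂.nonunits ∧ u ∉ V₂.nonunits ∧ w ∉ V₁.nonunits ∧
    SsgaGen t 𝔫 V₂ u ∧ SsgaGen t 𝔫 V₁ w ∧
    ∃ (e : ℕ) (c : A) (ρ : F), 1 ≤ e ∧ IsUnit c ∧ SsnfInLoc t 𝔫 ρ ∧
      u * w = algebraMap A F (ϖ ^ e * c) * (1 + algebraMap A F ϖ * ρ)

section Lower

variable {t : F} {𝔫 : Ideal ↥(s18tInt A t)} [h𝔫 : 𝔫.IsPrime] {V₁ V₂ : ValuationSubring F}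

/-- a local generator modulo `𝔪_V` is a unit of `V` when `𝔫 ⊄ 𝔭_V`. -/
theorem mrk_gen_not_nu (V : ValuationSubring F) (hle : ∀ x ∈ s18tInt A t, x ∈ V)
    (hon : SqgaOn t 𝔫 V) (hsep : ∃ x ∈ 𝔫, (x : F) ∉ V.nonunits) {w : F}
    (hgen : SsgaGen t 𝔫 V w) : w ∉ V.nonunits := by
  intro hw
  obtain ⟨x, hx, hxV⟩ := hsep
  obtain ⟨s, hs, c, hsc⟩ := hgen x hx
  have hs' : (s : F) ∉ V.nonunits := fun h => hs (hon s h)
  have h1 : (s : F) * (x : F) ∈ V.nonunits := by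
    have : (s : F) * (x : F) = ((s : F) * (x : F) - (c : F) * w) + (c : F) * w := by ring
    rw [this]
    exact ssgr_nu_add V hsc (ssgr_nu_mul_right V (hle _ c.2) hw)
  apply hxV
  rw [V.mem_nonunits_iff] at h1 ⊢
  rwa [map_mul, mrk_val_eq_one V (hle _ s.2) hs', one_mul] at h1

/-- `1 + ϖ ρ` is a unit of `P_𝔫` (`ϖ ∈ 𝔫`, `ρ ∈ P_𝔫`). -/
theorem mrk_one_add_unit (hϖ𝔫 : sskPi ϖ t ∈ 𝔫) {ρ : F} (hρ : SsnfInLoc t 𝔫 ρ) :
    SsnfInLoc t 𝔫 (1 + algebraMap A F ϖ * ρ) ∧ SsnfInLoc t 𝔫 (1 + algebraMap A F ϖ * ρ)⁻¹ ∧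
      1 + algebraMap A F ϖ * ρ ≠ 0 := by
  obtain ⟨s, hs, hsρ⟩ := hρ
  set q : ↥(s18tInt A t) := s + sskPi ϖ t * ⟨(s : F) * ρ, hsρ⟩ with hq
  have hqn : q ∉ 𝔫 := by
    intro h
    apply hs
    have : s = q - sskPi ϖ t * ⟨(s : F) * ρ, hsρ⟩ := by rw [hq]; ring
    rw [this]
    exact 𝔫.sub_mem h (𝔫.mul_mem_right _ hϖ𝔫)
  have hqe : (q : F) = (s : F) * (1 + algebraMap A F ϖ * ρ) := by
    rw [hq]
    show (s : F) + algebraMap A F ϖ * ((s : F) * ρ) = _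
    ring
  have hq0 : (q : F) ≠ 0 := fun h => hqn (by
    have : q = 0 := Subtype.ext h
    rw [this]; exact 𝔫.zero_mem)
  have hs0 : (s : F) ≠ 0 := fun h => hq0 (by rw [hqe, h, zero_mul])
  have hne : 1 + algebraMap A F ϖ * ρ ≠ 0 := fun h => hq0 (by rw [hqe, h, mul_zero])
  refine ⟨⟨s, hs, by rw [← hqe]; exact q.2⟩, ⟨q, hqn, ?_⟩, hne⟩
  have : (q : F) * (1 + algebraMap A F ϖ * ρ)⁻¹ = (s : F) := by
    rw [hqe]; field_simp
  rw [this]; exact s.2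

end Lower

/-! ## 3. lower germ + upper node of thickness one ⟹ exact germ -/

section TwoLevel

variable {t : F} {𝔫 : Ideal ↥(s18tInt A t)} [h𝔫 : 𝔫.IsPrime] {V₁ V₂ : ValuationSubring F}
variable {t' : F'} {𝔫' : Ideal ↥(s18tInt A t')} [h𝔫' : 𝔫'.IsPrime]
variable {V₁' V₂' : ValuationSubring F'}

/-- `ι (P_𝔫) ⊆ P'_{𝔫'}`. -/
theorem mrk_map_loc (ι : F →+* F') (hιP : ∀ x ∈ s18tInt A t, ι x ∈ s18tInt A t')
    (hlie : ∀ x : ↥(s18tInt A t), (⟨ι x, hιP x x.2⟩ : ↥(s18tInt A t')) ∈ 𝔫' → x ∈ 𝔫) {x : F}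
    (hx : SsnfInLoc t 𝔫 x) : ι x ∈ ssLocRing t' 𝔫' := by
  obtain ⟨s, hs, hsx⟩ := hx
  refine ⟨⟨ι s, hιP s s.2⟩, fun h => hs (hlie s h), ?_⟩
  show ι (s : F) * ι x ∈ s18tInt A t'
  rw [← map_mul]
  exact hιP _ hsx

set_option maxHeartbeats 1000000 in
/-- **EXACT NODE COORDINATES** : main's crossing germ at the lower level together with a node of
thickness one above it gives the exact crossing germ. -/
theorem mrk_germ_exact (hϖ : Irreducible ϖ) (ι : F →+* F')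
    (hιA : ∀ a : A, ι (algebraMap A F a) = algebraMap A F' a)
    (hιP : ∀ x ∈ s18tInt A t, ι x ∈ s18tInt A t')
    (hlie : ∀ x : ↥(s18tInt A t), (⟨ι x, hιP x x.2⟩ : ↥(s18tInt A t')) ∈ 𝔫' → x ∈ 𝔫)
    (hV₁ : ∀ x ∈ V₁, ι x ∈ V₁') (hV₂ : ∀ x : F, x ∈ V₂.nonunits ↔ ι x ∈ V₂'.nonunits)
    [hnoe : IsNoetherianRing ↥(s18tInt A t')]
    (h2 : SsgaTwo ϖ t V₁ V₂) (h2' : SsgaTwo ϖ t' V₁' V₂')
    (hon₁ : SqgaOn t 𝔫 V₁) (hon₂ : SqgaOn t 𝔫 V₂)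
    (hon₁' : SqgaOn t' 𝔫' V₁') (hon₂' : SqgaOn t' 𝔫' V₂')
    (hnode : SqgaNode ϖ t' V₁' V₂' 𝔫')
    (hsep₁ : ∃ x ∈ 𝔫, (x : F) ∉ V₁.nonunits) (hsep₂ : ∃ x ∈ 𝔫, (x : F) ∉ V₂.nonunits)
    (G : Subgroup (SemilinearAut L F)) (hcross : SsGermCrossPlus ϖ t G 𝔫 V₁ V₂) :
    MrkGermExact ϖ t G 𝔫 V₁ V₂ := by
  have hπ0 : algebraMap A F ϖ ≠ 0 := sqga_pi_ne_zero (F := F) L hϖ
  have hπ0' : algebraMap A F' ϖ ≠ 0 := by
    rw [← hιA]; exact (map_ne_zero ι).mpr hπ0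
  obtain ⟨u', w', ε', hu'P, hw'P, hu'₁, hw'₂, hu'₂, hw'₁, hε', hε'inv, hup, hprin₁, hprin₂,
    hval₁, hval₂⟩ := mrk_upper hπ0' h2' hon₁' hon₂' hnode
  -- the two local rings inside `F'`
  set O' : Subring F' := ssLocRing t' 𝔫' with hO'
  set O : Subring F' := (ssLocRing t 𝔫).map ι with hO
  have hOO' : O ≤ O' := by
    rintro _ ⟨x, hx, rfl⟩
    exact mrk_map_loc ι hιP hlie hx
  have hO'₁ : ∀ x ∈ O', x ∈ V₁' := fun x hx => ssgmp_inLoc_mem V₁' h2'.le₁ hon₁' hx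
  have hO'₂ : ∀ x ∈ O', x ∈ V₂' := fun x hx => ssgmp_inLoc_mem V₂' h2'.le₂ hon₂' hx
  have hO₁ : ∀ x : F, SsnfInLoc t 𝔫 x → x ∈ V₁ := fun x hx => ssgmp_inLoc_mem V₁ h2.le₁ hon₁ hx
  have hO₂ : ∀ x : F, SsnfInLoc t 𝔫 x → x ∈ V₂ := fun x hx => ssgmp_inLoc_mem V₂ h2.le₂ hon₂ hx
  have hπ₁' : algebraMap A F' ϖ ∈ V₁'.nonunits := h2'.unif₁
  -- Krull
  have : IsNoetherianRing ↥O' :=
    IsLocalization.isNoetherianRing 𝔫'.primeCompl ↥(ssLocRing t' 𝔫') hnoe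
  have hu'O : u' ∈ O' := ssl_int_le_locRing t' 𝔫' hu'P
  have hw'O : w' ∈ O' := ssl_int_le_locRing t' 𝔫' hw'P
  have hu'max : (⟨u', hu'O⟩ : ↥O') ∈ IsLocalRing.maximalIdeal ↥O' := by
    rw [ssl_mem_maximalIdeal]
    exact ⟨1, fun h => h𝔫'.ne_top ((Ideal.eq_top_iff_one _).mpr h), ⟨u', hu'P⟩,
      hon₁' ⟨u', hu'P⟩ hu'₁, by simp⟩
  have hkrull := mrxa_krull O' u' w' hu'O hw'O hu'max
  -- the point `x₀`
  obtain ⟨x₀, hx₀𝔫, hx₀V⟩ := hsep₂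
  have hx₀O : ι (x₀ : F) ∈ O :=
    ⟨(x₀ : F), ssl_inLoc_of_mem h𝔫.ne_top x₀.2, rfl⟩
  have hx₀V' : ι (x₀ : F) ∉ V₂'.nonunits := fun h => hx₀V ((hV₂ _).mpr h)
  obtain ⟨n₀, hn₀⟩ := mrxa_term O O' hOO' V₁' V₂' hO'₁ hO'₂ (algebraMap A F' ϖ) u' w' hπ0' hπ₁'
    hw'₂ hprin₁ hval₁ hkrull (ι (x₀ : F)) hx₀O hx₀V'
  -- main's germ at the precision `n₀`
  obtain ⟨u, w, hu, hw, hGu, hGw, hspan, ⟨κ, ρ, hρ, huw⟩, hu₁, hw₂, hgen₂, hgen₁⟩ := hcross n₀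
  have huL : SsnfInLoc t 𝔫 u := by
    obtain ⟨s, hs, p, -, hp⟩ := hu
    exact ⟨s, hs, by rw [hp]; exact p.2⟩
  have hwL : SsnfInLoc t 𝔫 w := by
    obtain ⟨s, hs, p, -, hp⟩ := hw
    exact ⟨s, hs, by rw [hp]; exact p.2⟩
  have hw₁ : w ∉ V₁.nonunits := mrk_gen_not_nu V₁ h2.le₁ hon₁ hsep₁ hgen₁
  have hu₂ : u ∉ V₂.nonunits := mrk_gen_not_nu V₂ h2.le₂ hon₂ ⟨x₀, hx₀𝔫, hx₀V⟩ hgen₂
  obtain ⟨hw0, hwinv⟩ := mrk_inv_mem V₁ (hO₁ w hwL) hw₁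
  -- the generation hypothesis of `mrxa_term`
  obtain ⟨s, hs, c, hsc⟩ := hgen₂ x₀ hx₀𝔫
  have hs0 : (s : F) ≠ 0 := fun h => hs (by
    have : s = 0 := Subtype.ext h
    rw [this]; exact 𝔫.zero_mem)
  have hsinv : SsnfInLoc t 𝔫 (s : F)⁻¹ :=
    ⟨s, hs, by rw [mul_inv_cancel₀ hs0]; exact Subring.one_mem _⟩
  have hgenO : ∃ a ∈ O', ∃ b ∈ O', ι (x₀ : F) = ι u * a + w' * b := by
    refine mrxa_gen_of_sub O O' hOO' V₂' w' hprin₂ (ι (x₀ : F)) (ι u) (ι (s : F)) (ι (c : F)) hx₀O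
      ⟨u, huL, rfl⟩ ⟨(s : F), ssl_inLoc_of_mem h𝔫.ne_top s.2, rfl⟩
      ((map_ne_zero ι).mpr hs0) ⟨(s : F)⁻¹, hsinv, map_inv₀ ι _⟩
      ⟨(c : F), ssl_inLoc_of_mem h𝔫.ne_top c.2, rfl⟩ ?_
    have := (hV₂ _).mp hsc
    rwa [map_sub, map_mul, map_mul] at this
  have hne : ∀ g : F', g ∈ O → ι u * ι w ≠ algebraMap A F' ϖ ^ n₀ * g := fun g hg =>
    hn₀ (ι u) (ι w) g ⟨u, huL, rfl⟩ ⟨w, hwL, rfl⟩ hg ((map_ne_zero ι).mpr hw0)
      (by rw [← map_inv₀]; exact hV₁ _ hwinv) hgenO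
  -- `ϖ^n₀ ∤ κ`
  have hκdvd : ¬ ϖ ^ n₀ ∣ κ := by
    rintro ⟨a, ha⟩
    have hρO : ι ρ ∈ O := ⟨ρ, hρ, rfl⟩
    have hex := mrxa_exact O (algebraMap A F' ϖ) n₀ (ι u) (ι w) (ι (algebraMap A F κ)) (ι ρ) hρO hne
      (by rw [← map_mul, huw, map_add, map_mul, map_pow, hιA ϖ])
    refine hex (ι (algebraMap A F a)) ⟨algebraMap A F a,
      ssl_inLoc_of_mem h𝔫.ne_top (s18tc_algebraMap_mem_int t a), rfl⟩ ?_
    rw [ha, map_mul, map_pow, map_mul, map_pow, hιA ϖ]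
  have hκ0 : κ ≠ 0 := fun h => hκdvd (by rw [h]; exact dvd_zero _)
  obtain ⟨e, c₀, hκe⟩ := IsDiscreteValuationRing.eq_unit_mul_pow_irreducible hκ0 hϖ
  have hen : e < n₀ := by
    by_contra hle
    apply hκdvd
    rw [hκe]
    exact Dvd.dvd.mul_left (pow_dvd_pow ϖ (not_lt.mp hle)) _
  obtain ⟨d, hd⟩ := Nat.exists_eq_add_of_lt hen
  -- the exact equation
  set ρ' : F := algebraMap A F (ϖ ^ d * ((c₀⁻¹ : Aˣ) : A)) * ρ with hρ'
  have hρ'L : SsnfInLoc t 𝔫 ρ' := by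
    obtain ⟨s', hs', hsρ⟩ := hρ
    refine ⟨s', hs', ?_⟩
    have : (s' : F) * ρ' = algebraMap A F (ϖ ^ d * ((c₀⁻¹ : Aˣ) : A)) * ((s' : F) * ρ) := by
      rw [hρ']; ring
    rw [this]
    exact Subring.mul_mem _ (s18tc_algebraMap_mem_int t _) hsρ
  have hc₀ : algebraMap A F ((c₀ : A)) * algebraMap A F (((c₀⁻¹ : Aˣ) : A)) = 1 := by
    rw [← map_mul, Units.mul_inv, map_one]
  have hexact : u * w = algebraMap A F (ϖ ^ e * (c₀ : A)) * (1 + algebraMap A F ϖ * ρ') := by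
    rw [huw, hκe, hρ', hd]
    simp only [map_mul, map_pow]
    have : algebraMap A F ϖ ^ e * algebraMap A F (c₀ : A) *
        (1 + algebraMap A F ϖ * (algebraMap A F ϖ ^ d * algebraMap A F ((c₀⁻¹ : Aˣ) : A) * ρ))
        = algebraMap A F (c₀ : A) * algebraMap A F ϖ ^ e
          + algebraMap A F ϖ ^ (e + d + 1) *
            ((algebraMap A F (c₀ : A) * algebraMap A F ((c₀⁻¹ : Aˣ) : A)) * ρ) := by ring
    rw [this, hc₀, one_mul]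
  -- `e ≥ 1`
  have he : 1 ≤ e := by
    by_contra h0
    have he0 : e = 0 := by omega
    have hϖ𝔫 : sskPi ϖ t ∈ 𝔫 := hon₁ (sskPi ϖ t) h2.unif₁
    obtain ⟨hεL, hεinv, hε0⟩ := mrk_one_add_unit (ϖ := ϖ) hϖ𝔫 hρ'L
    have huwnu : u * w ∈ V₁.nonunits := ssgr_nu_mul_left V₁ hu₁ (hO₁ w hwL)
    rw [hexact, he0, pow_zero, one_mul] at huwnu
    have hcinv : algebraMap A F ((c₀⁻¹ : Aˣ) : A) ∈ V₁ := h2.le₁ _ (s18tc_algebraMap_mem_int t _)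
    have h1 : (1 : F) ∈ V₁.nonunits := by
      have : (1 : F) = (algebraMap A F (c₀ : A) * (1 + algebraMap A F ϖ * ρ')) *
          (algebraMap A F ((c₀⁻¹ : Aˣ) : A) * (1 + algebraMap A F ϖ * ρ')⁻¹) := by
        have h3 : (1 + algebraMap A F ϖ * ρ') * (1 + algebraMap A F ϖ * ρ')⁻¹ = 1 :=
          mul_inv_cancel₀ hε0
        calc (1 : F) = (algebraMap A F (c₀ : A) * algebraMap A F ((c₀⁻¹ : Aˣ) : A)) *
              ((1 + algebraMap A F ϖ * ρ') * (1 + algebraMap A F ϖ * ρ')⁻¹) := by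
                rw [hc₀, h3, one_mul]
          _ = _ := by ring
      rw [this]
      exact ssgr_nu_mul_left V₁ huwnu (V₁.mul_mem _ _ hcinv (hO₁ _ hεinv))
    rw [V₁.mem_nonunits_iff, map_one] at h1
    exact lt_irrefl _ h1
  exact ⟨u, w, hu, hw, hGu, hGw, hspan, hu₁, hw₂, hu₂, hw₁, hgen₂, hgen₁, e, (c₀ : A), ρ', he,
    c₀.isUnit, hρ'L, hexact⟩

/-- **THICKNESS = BRANCH RAMIFICATION** : there are `u' ∈ 𝔭₁'`, `w' ∈ 𝔭₂'` upstairs (the coordinates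
of the node of thickness one, `ϖ = u' w' ε'`) such that EVERY exact pair `u w = ϖ^e ε` downstairs
satisfies `ι u = u'^e h`, `ι w = w'^e h'` with `h, h'` units of `P'_{𝔫'}`. -/
theorem mrk_germ_thick (hϖ : Irreducible ϖ) (ι : F →+* F')
    (hιA : ∀ a : A, ι (algebraMap A F a) = algebraMap A F' a)
    (hιP : ∀ x ∈ s18tInt A t, ι x ∈ s18tInt A t')
    (hlie : ∀ x : ↥(s18tInt A t), (⟨ι x, hιP x x.2⟩ : ↥(s18tInt A t')) ∈ 𝔫' → x ∈ 𝔫)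
    (hV₁ : ∀ x ∈ V₁, ι x ∈ V₁') (hV₂ : ∀ x ∈ V₂, ι x ∈ V₂')
    (h2 : SsgaTwo ϖ t V₁ V₂) (h2' : SsgaTwo ϖ t' V₁' V₂')
    (hon₁ : SqgaOn t 𝔫 V₁) (hon₂ : SqgaOn t 𝔫 V₂)
    (hon₁' : SqgaOn t' 𝔫' V₁') (hon₂' : SqgaOn t' 𝔫' V₂')
    (hnode : SqgaNode ϖ t' V₁' V₂' 𝔫') (K : Type*) [Field K] [Algebra A K] [IsFractionRing A K]
    [Algebra K F] [IsScalarTower A K F] :
    ∃ u' w' ε' : F', u' ∈ s18tInt A t' ∧ w' ∈ s18tInt A t' ∧
      u' ∈ V₁'.nonunits ∧ w' ∈ V₂'.nonunits ∧ u' ∉ V₂'.nonunits ∧ w' ∉ V₁'.nonunits ∧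
      ε' ∈ ssLocRing t' 𝔫' ∧ ε'⁻¹ ∈ ssLocRing t' 𝔫' ∧ algebraMap A F' ϖ = u' * w' * ε' ∧
      ∀ (u w ε : F) (e : ℕ), SsnfInLoc t 𝔫 u → SsnfInLoc t 𝔫 w → SsnfInLoc t 𝔫 ε →
        SsnfInLoc t 𝔫 ε⁻¹ → u ∉ V₂.nonunits → w ∉ V₁.nonunits →
        u * w = algebraMap A F ϖ ^ e * ε →
        (∃ h ∈ ssLocRing t' 𝔫', h⁻¹ ∈ ssLocRing t' 𝔫' ∧ ι u = u' ^ e * h) ∧
        (∃ h ∈ ssLocRing t' 𝔫', h⁻¹ ∈ ssLocRing t' 𝔫' ∧ ι w = w' ^ e * h) := by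
  have hπ0 : algebraMap A F ϖ ≠ 0 := sqga_pi_ne_zero (F := F) K hϖ
  have hπ0' : algebraMap A F' ϖ ≠ 0 := by
    rw [← hιA]; exact (map_ne_zero ι).mpr hπ0
  obtain ⟨u', w', ε', hu'P, hw'P, hu'₁, hw'₂, hu'₂, hw'₁, hε', hε'inv, hup, hprin₁, hprin₂,
    hval₁, hval₂⟩ := mrk_upper hπ0' h2' hon₁' hon₂' hnode
  refine ⟨u', w', ε', hu'P, hw'P, hu'₁, hw'₂, hu'₂, hw'₁, hε', hε'inv, hup, ?_⟩
  intro u w ε e hu hw hε hεinv hu₂ hw₁ huw
  have hO'₁ : ∀ x ∈ ssLocRing t' 𝔫', x ∈ V₁' := fun x hx => ssgmp_inLoc_mem V₁' h2'.le₁ hon₁' hx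
  have hO'₂ : ∀ x ∈ ssLocRing t' 𝔫', x ∈ V₂' := fun x hx => ssgmp_inLoc_mem V₂' h2'.le₂ hon₂' hx
  have hO₁ : ∀ x : F, SsnfInLoc t 𝔫 x → x ∈ V₁ := fun x hx => ssgmp_inLoc_mem V₁ h2.le₁ hon₁ hx
  have hO₂ : ∀ x : F, SsnfInLoc t 𝔫 x → x ∈ V₂ := fun x hx => ssgmp_inLoc_mem V₂ h2.le₂ hon₂ hx
  obtain ⟨hw0, hwinv⟩ := mrk_inv_mem V₁ (hO₁ w hw) hw₁
  obtain ⟨hu0, huinv⟩ := mrk_inv_mem V₂ (hO₂ u hu) hu₂
  have hmap : ∀ x : F, SsnfInLoc t 𝔫 x → ι x ∈ ssLocRing t' 𝔫' := fun x hx =>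
    mrk_map_loc ι hιP hlie hx
  have huw' : ι u * ι w = algebraMap A F' ϖ ^ e * ι ε := by
    rw [← map_mul, huw, map_mul, map_pow, hιA]
  have hwu' : ι w * ι u = algebraMap A F' ϖ ^ e * ι ε := by rw [mul_comm]; exact huw'
  have hup' : algebraMap A F' ϖ = w' * u' * ε' := by rw [hup]; ring
  constructor
  · exact mrxa_thick (ssLocRing t' 𝔫') V₁' V₂' hO'₁ hO'₂ (algebraMap A F' ϖ) u' w' ε' hπ0'
      h2'.unif₁ h2'.unif₂ hprin₁ hprin₂ hval₁ hval₂ hε' hε'inv hup e (ι u) (ι w) (ι ε)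
      (hmap u hu) (hmap w hw) (hmap ε hε) (by rw [← map_inv₀]; exact hmap _ hεinv)
      ((map_ne_zero ι).mpr hw0) (by rw [← map_inv₀]; exact hV₁ _ hwinv)
      ((map_ne_zero ι).mpr hu0) (by rw [← map_inv₀]; exact hV₂ _ huinv) huw'
  · exact mrxa_thick (ssLocRing t' 𝔫') V₂' V₁' hO'₂ hO'₁ (algebraMap A F' ϖ) w' u' ε' hπ0'
      h2'.unif₂ h2'.unif₁ hprin₂ hprin₁ hval₂ hval₁ hε' hε'inv hup' e (ι w) (ι u) (ι ε)
      (hmap w hw) (hmap u hu) (hmap ε hε) (by rw [← map_inv₀]; exact hmap _ hεinv)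
      ((map_ne_zero ι).mpr hu0) (by rw [← map_inv₀]; exact hV₂ _ huinv)
      ((map_ne_zero ι).mpr hw0) (by rw [← map_inv₀]; exact hV₁ _ hwinv) hwu'

end TwoLevel

end Fermat.Agent.MR
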