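import Mathlib
import Fermat.Agent.SS.Germ.MainPlus
import Fermat.Agent.SS.K.Krull
import Fermat.Agent.SQ.Germ.Abs
import Fermat.Agent.S18.T.LocalGood

/-!
# PROGRAM MR (S44), block `mrk` : A POINT ON BOTH COMPONENTS ABOVE A NODE (going-down)

Owner: helper25.  Prefix `mrk`.

* `mrk_isFractionRing`, `mrk_isIntegrallyClosed` : `P = s18tInt A t` is integrally closed with
  fraction field `F`.
* `mrk_exists_upper_prime` : `ι : F →+* F'` over `A`, `ι t = t'`; `𝔫` a prime of `P` lying on both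
  components `V₁, V₂`; `V_j'` over `V_j`; then there is a prime `𝔫'` of `P' = s18tInt A t'` with
  `𝔫' ∩ P = 𝔫` lying on both components `V₁', V₂'`.
  (lying-over, Mathlib's going-down for integrally closed domains, and
  `𝔭₁' 𝔭₂' ⊆ 𝔭₁' ∩ 𝔭₂' = ϖ P' ⊆ 𝔮`.)
-/

set_option autoImplicit false
set_option linter.unusedSectionVars false
set_option linter.unusedVariables false
set_option linter.style.haveILetI false

noncomputable section

namespace Fermat.Agent.MR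

open Polynomial IntermediateField AlgebraicCurve Fermat.Agent.S18 Fermat.Agent.SS Fermat.Agent.SQ
  IsLocalRing

universe u u'

variable {A : Type*} [CommRing A] [IsDomain A] [IsDiscreteValuationRing A] [CharZero A]
variable {L : Type*} [Field L] [Algebra A L] [IsFractionRing A L]
variable {F : Type u} [Field F] [Algebra A F] [Algebra L F] [IsScalarTower A L F]
variable {F' : Type u'} [Field F'] [Algebra A F']
variable {ϖ : A}

/-! ## 1. `P` is integrally closed -/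

/-- `F = Frac P`. -/
theorem mrk_isFractionRing {t : F} (ht : Transcendental L t) [FiniteDimensional L⟮t⟯ F] :
    IsFractionRing ↥(s18tInt A t) F := by
  have htA : Transcendental A t := s18tb_transcendental ht
  refine IsFractionRing.of_field _ _ ?_
  intro z
  obtain ⟨r, hr0, hrz⟩ := s18tlg_exists_multiple_mem_int (A := A) ht z
  have hr0' : aeval t r ≠ 0 := fun h => hr0 ((transcendental_iff.mp htA) r h)
  refine ⟨⟨aeval t r * z, hrz⟩, ⟨aeval t r, s18tc_chart_le_int t (s18tb_aeval_mem_chart t r)⟩, ?_⟩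
  show z = (aeval t r * z) / aeval t r
  field_simp

/-- `P` is integrally closed. -/
theorem mrk_isIntegrallyClosed {t : F} (ht : Transcendental L t) [FiniteDimensional L⟮t⟯ F] :
    IsIntegrallyClosed ↥(s18tInt A t) := by
  haveI := mrk_isFractionRing (A := A) ht
  rw [Subring.isIntegrallyClosed_iff (A := F)]
  intro x hx
  exact sskr_mem_of_isIntegral t hx

/-! ## 2. a point on both components above a node -/

section Upper

variable {t : F} {𝔫 : Ideal ↥(s18tInt A t)} [h𝔫 : 𝔫.IsPrime] {V₁ V₂ : ValuationSubring F}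
variable {t' : F'} {V₁' V₂' : ValuationSubring F'}

/-- `ι (g(t)) = g(t')`. -/
theorem mrk_map_aeval (ι : F →+* F') (hιA : ∀ a : A, ι (algebraMap A F a) = algebraMap A F' a)
    (hιt : ι t = t') (g : A[X]) : ι (aeval t g) = aeval t' g := by
  rw [aeval_def, Polynomial.hom_eval₂, hιt, aeval_def]
  congr 1
  exact RingHom.ext hιA

/-- `ι` maps `A[t]` into `A[t']`. -/
theorem mrk_map_chart (ι : F →+* F') (hιA : ∀ a : A, ι (algebraMap A F a) = algebraMap A F' a)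
    (hιt : ι t = t') {x : F} (hx : x ∈ s18tChart A t) : ι x ∈ s18tChart A t' := by
  obtain ⟨g, rfl⟩ := Algebra.adjoin_mem_exists_aeval A t hx
  rw [mrk_map_aeval ι hιA hιt]
  exact s18tb_aeval_mem_chart t' g

/-- `ι` maps `P` into `P'`. -/
theorem mrk_map_int (ι : F →+* F') (hιA : ∀ a : A, ι (algebraMap A F a) = algebraMap A F' a)
    (hιt : ι t = t') {x : F} (hx : x ∈ s18tInt A t) : ι x ∈ s18tInt A t' := by
  rw [mem_s18tInt] at hx ⊢
  obtain ⟨q, hq, hqx⟩ := hx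
  let ψ : ↥(s18tChart A t) →+* ↥(s18tChart A t') :=
    { toFun := fun c => ⟨ι c, mrk_map_chart ι hιA hιt c.2⟩
      map_one' := Subtype.ext (by simp)
      map_mul' := fun a b => Subtype.ext (by simp)
      map_zero' := Subtype.ext (by simp)
      map_add' := fun a b => Subtype.ext (by simp) }
  refine ⟨q.map ψ, hq.map ψ, ?_⟩
  rw [Polynomial.eval₂_map]
  have h1 : (algebraMap ↥(s18tChart A t') F').comp ψ = ι.comp (algebraMap ↥(s18tChart A t) F) :=
    RingHom.ext fun c => rfl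
  rw [h1, ← Polynomial.hom_eval₂, hqx, map_zero]

set_option maxHeartbeats 1000000 in
/-- **a point on both components above a node** : lying-over + going-down. -/
theorem mrk_exists_upper_prime [hic : IsIntegrallyClosed ↥(s18tInt A t)]
    (ι : F →+* F') (hιA : ∀ a : A, ι (algebraMap A F a) = algebraMap A F' a) (hιt : ι t = t')
    (hιP : ∀ x ∈ s18tInt A t, ι x ∈ s18tInt A t')
    (hV₁ : ∀ x : F, x ∈ V₁.nonunits → ι x ∈ V₁'.nonunits)
    (hV₂ : ∀ x : F, x ∈ V₂.nonunits → ι x ∈ V₂'.nonunits)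
    (h2 : SsgaTwo ϖ t V₁ V₂) (h2' : SsgaTwo ϖ t' V₁' V₂')
    (hon₁ : SqgaOn t 𝔫 V₁) (hon₂ : SqgaOn t 𝔫 V₂)
    (hsep₁₂ : ∃ x ∈ s18tInt A t, x ∈ V₁.nonunits ∧ x ∉ V₂.nonunits)
    (hsep₂₁ : ∃ x ∈ s18tInt A t, x ∈ V₂.nonunits ∧ x ∉ V₁.nonunits) :
    ∃ 𝔫' : Ideal ↥(s18tInt A t'), 𝔫'.IsPrime ∧
      (∀ x : ↥(s18tInt A t), (⟨ι x, hιP x x.2⟩ : ↥(s18tInt A t')) ∈ 𝔫' ↔ x ∈ 𝔫) ∧
      SqgaOn t' 𝔫' V₁' ∧ SqgaOn t' 𝔫' V₂' := by
  -- the structure map `P → P'`
  let φ : ↥(s18tInt A t) →+* ↥(s18tInt A t') :=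
    { toFun := fun x => ⟨ι x, hιP x x.2⟩
      map_one' := Subtype.ext (by simp)
      map_mul' := fun a b => Subtype.ext (by simp)
      map_zero' := Subtype.ext (by simp)
      map_add' := fun a b => Subtype.ext (by simp) }
  letI algPP' : Algebra ↥(s18tInt A t) ↥(s18tInt A t') := φ.toAlgebra
  have hφ : ∀ x : ↥(s18tInt A t), ((algebraMap ↥(s18tInt A t) ↥(s18tInt A t') x :
      ↥(s18tInt A t')) : F') = ι x := fun x => rfl
  have hinj : Function.Injective (algebraMap ↥(s18tInt A t) ↥(s18tInt A t')) := by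
    intro a b hab
    apply Subtype.ext
    apply ι.injective
    rw [← hφ a, ← hφ b, hab]
  haveI : FaithfulSMul ↥(s18tInt A t) ↥(s18tInt A t') :=
    (faithfulSMul_iff_algebraMap_injective _ _).mpr hinj
  -- integrality
  haveI hint : Algebra.IsIntegral ↥(s18tInt A t) ↥(s18tInt A t') := by
    constructor
    intro y
    obtain ⟨q, hq, hqy⟩ := (mem_s18tInt (A := A)).mp y.2
    -- lift the coefficients of `q` to `P`
    have hcoef : ∀ c : ↥(s18tChart A t'), ∃ d : ↥(s18tInt A t),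
        ((algebraMap ↥(s18tInt A t) ↥(s18tInt A t') d : ↥(s18tInt A t')) : F') = (c : F') := by
      intro c
      obtain ⟨g, hg⟩ := Algebra.adjoin_mem_exists_aeval A t' c.2
      refine ⟨⟨aeval t g, s18tc_chart_le_int t (s18tb_aeval_mem_chart t g)⟩, ?_⟩
      rw [hφ]
      show ι (aeval t g) = (c : F')
      rw [mrk_map_aeval ι hιA hιt, hg]
    choose σ hσ using hcoef
    refine ⟨X ^ q.natDegree + ∑ i ∈ Finset.range q.natDegree, Polynomial.C (σ (q.coeff i)) * X ^ i,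
      ?_, ?_⟩
    · apply Polynomial.monic_X_pow_add
      refine lt_of_le_of_lt (Polynomial.degree_sum_le _ _) ?_
      rw [Finset.sup_lt_iff (WithBot.bot_lt_coe _)]
      intro i hi
      refine lt_of_le_of_lt (Polynomial.degree_C_mul_X_pow_le _ _) ?_
      exact_mod_cast Finset.mem_range.mp hi
    · apply Subtype.ext
      rw [Polynomial.eval₂_add, Polynomial.eval₂_finsetSum, Polynomial.eval₂_X_pow]
      simp only [Polynomial.eval₂_mul, Polynomial.eval₂_C, Polynomial.eval₂_X_pow]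
      rw [Subring.coe_add, Subring.coe_zero]
      push_cast
      have hq' := hqy
      rw [Polynomial.eval₂_eq_sum_range, Finset.sum_range_succ, hq.coeff_natDegree, map_one,
        one_mul, add_comm] at hq'
      rw [← hq']
      congr 1
      refine Finset.sum_congr rfl fun i _ => ?_
      rw [hσ]
      rfl
  -- lying over
  obtain ⟨𝔫', h𝔫'prime, h𝔫'over⟩ :=
    Ideal.exists_ideal_over_prime_of_isIntegral_of_isDomain (S := ↥(s18tInt A t')) 𝔫 (by
      rw [(RingHom.injective_iff_ker_eq_bot _).mp hinj]; exact bot_le)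
  haveI := h𝔫'prime
  haveI : 𝔫'.LiesOver 𝔫 := ⟨h𝔫'over.symm⟩
  have hmem : ∀ x : ↥(s18tInt A t), (⟨ι x, hιP x x.2⟩ : ↥(s18tInt A t')) ∈ 𝔫' ↔ x ∈ 𝔫 := by
    intro x
    rw [← h𝔫'over]
    rfl
  have hπ0' : algebraMap A F' ϖ ∈ s18tInt A t' := s18tc_algebraMap_mem_int t' ϖ
  -- the going-down step, for one component
  have key : ∀ (W : ValuationSubring F) (W' U' : ValuationSubring F')
      (hWle : ∀ x ∈ s18tInt A t, x ∈ W) (hϖW : algebraMap A F ϖ ∈ W.nonunits)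
      (hon : SqgaOn t 𝔫 W) (hU'le : ∀ x ∈ s18tInt A t', x ∈ U')
      (hW'le : ∀ x ∈ s18tInt A t', x ∈ W')
      (hsat : ∀ x ∈ s18tInt A t', x ∈ W'.nonunits → x ∈ U'.nonunits →
        ∃ y ∈ s18tInt A t', x = algebraMap A F' ϖ * y)
      (x₀ : F) (hx₀P : x₀ ∈ s18tInt A t) (hx₀W : x₀ ∉ W.nonunits) (hx₀U : ι x₀ ∈ U'.nonunits),
      SqgaOn t' 𝔫' W' := by
    intro W W' U' hWle hϖW hon hU'le hW'le hsat x₀ hx₀P hx₀W hx₀U
    haveI hp : (ssgrIdeal (s18tInt A t) W hWle).IsPrime := sqga_ideal_isPrime W hWle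
    have hle : ssgrIdeal (s18tInt A t) W hWle ≤ 𝔫 := fun x hx => hon x hx
    obtain ⟨𝔮, h𝔮le, h𝔮prime, h𝔮over⟩ :=
      Ideal.exists_ideal_le_liesOver_of_le (p := ssgrIdeal (s18tInt A t) W hWle) (q := 𝔫) 𝔫' hle
    have h𝔮mem : ∀ x : ↥(s18tInt A t), (⟨ι x, hιP x x.2⟩ : ↥(s18tInt A t')) ∈ 𝔮 ↔
        (x : F) ∈ W.nonunits := by
      intro x
      have := Ideal.mem_of_liesOver 𝔮 (ssgrIdeal (s18tInt A t) W hWle) x
      exact this.symm
    intro y hy
    apply h𝔮le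
    -- `y · ι x₀ = ϖ z ∈ 𝔮`
    obtain ⟨z, hz, hyz⟩ := hsat ((y : F') * ι x₀) (Subring.mul_mem _ y.2 (hιP _ hx₀P))
      (ssgr_nu_mul_left W' hy (hW'le _ (hιP _ hx₀P))) (ssgr_nu_mul_right U' (hU'le _ y.2) hx₀U)
    have hϖ𝔮 : (⟨algebraMap A F' ϖ, hπ0'⟩ : ↥(s18tInt A t')) ∈ 𝔮 := by
      have := (h𝔮mem (sskPi ϖ t)).mpr hϖW
      have e : (⟨ι (sskPi ϖ t : F), hιP _ (sskPi ϖ t).2⟩ : ↥(s18tInt A t')) =
          ⟨algebraMap A F' ϖ, hπ0'⟩ := Subtype.ext (hιA ϖ)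
      rwa [e] at this
    have hprod : y * (⟨ι x₀, hιP _ hx₀P⟩ : ↥(s18tInt A t')) ∈ 𝔮 := by
      have e : y * (⟨ι x₀, hιP _ hx₀P⟩ : ↥(s18tInt A t')) =
          ⟨algebraMap A F' ϖ, hπ0'⟩ * ⟨z, hz⟩ := Subtype.ext (by simpa using hyz)
      rw [e]
      exact 𝔮.mul_mem_right _ hϖ𝔮
    rcases h𝔮prime.mem_or_mem hprod with h | h
    · exact h
    · exact absurd ((h𝔮mem ⟨x₀, hx₀P⟩).mp h) hx₀W
  obtain ⟨x₁₂, hx₁₂P, hx₁₂V₁, hx₁₂V₂⟩ := hsep₁₂
  obtain ⟨x₂₁, hx₂₁P, hx₂₁V₂, hx₂₁V₁⟩ := hsep₂₁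
  refine ⟨𝔫', h𝔫'prime, hmem, ?_, ?_⟩
  · exact key V₁ V₁' V₂' h2.le₁ h2.unif₁ hon₁ h2'.le₂ h2'.le₁
      (fun x hx h1 h2'' => h2'.sat x hx h1 h2'') x₂₁ hx₂₁P hx₂₁V₁ (hV₂ _ hx₂₁V₂)
  · exact key V₂ V₂' V₁' h2.le₂ h2.unif₂ hon₂ h2'.le₁ h2'.le₂
      (fun x hx h2'' h1 => h2'.sat x hx h1 h2'') x₁₂ hx₁₂P hx₁₂V₂ (hV₁ _ hx₁₂V₁)

end Upper

end Fermat.Agent.MR
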