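import Mathlib
import Fermat.Agent.MR.Kron.Exact
import Fermat.Agent.MR.Kron.Prime

/-!
# PROGRAM MR (S44), block `mrk` : EXACT NODE COORDINATES, the two-level statement in ONE theorem

Owner: helper25.  Prefix `mrk`.

`mrk_germ_exact_of_T1` = `mrk_exists_upper_prime` (a prime `𝔫'` on both components above the node
`𝔫`) + `mrk_germ_exact` (exact germ from a node of thickness one above), with the upstairs input in
the form of main's slot `SQ.SqccT1` : EVERY prime of `P'` lying on both components is a node of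
thickness one.

Hypotheses to discharge at the concrete two levels `M p ∣ M' p` :
* `ι : F →+* F'` over `A` with `ι t = t'` (same `J`), `V_j = V_j' ∩ F` (`hV₁`, `hV₂`);
* downstairs : `Transcendental L t`, `[FiniteDimensional L⟮t⟯ F]`, `SsgaTwo ϖ t V₁ V₂`, `𝔫` on both
  components, the separators `x₁₂ ∈ 𝔭₁ ∖ 𝔭₂`, `x₂₁ ∈ 𝔭₂ ∖ 𝔭₁`, and main's `SsGermCrossPlus`;
* upstairs : `IsNoetherianRing P'`, `SsgaTwo ϖ t' V₁' V₂'`, and the slot (T1).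
-/

set_option autoImplicit false
set_option linter.unusedSectionVars false
set_option linter.unusedVariables false
set_option linter.style.haveILetI false

noncomputable section

namespace Fermat.Agent.MR

open Polynomial IntermediateField AlgebraicCurve Fermat.Agent.S18 Fermat.Agent.SS Fermat.Agent.SQ
  Fermat.Agent.G IsLocalRing

universe u u'

variable {A : Type*} [CommRing A] [IsDomain A] [IsDiscreteValuationRing A] [CharZero A]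
variable {L : Type*} [Field L] [Algebra A L] [IsFractionRing A L]
variable {F : Type u} [Field F] [Algebra A F] [Algebra L F] [IsScalarTower A L F]
variable {F' : Type u'} [Field F'] [Algebra A F']
variable {ϖ : A}

/-- `V = V' ∩ F` on the maximal ideals. -/
theorem mrk_nonunits_iff (ι : F →+* F') {V : ValuationSubring F} {V' : ValuationSubring F'}
    (hV : ∀ x : F, x ∈ V ↔ ι x ∈ V') (x : F) : x ∈ V.nonunits ↔ ι x ∈ V'.nonunits := by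
  rw [ValuationSubring.mem_nonunits_iff_or, ValuationSubring.mem_nonunits_iff_or, hV x⁻¹,
    map_inv₀, map_eq_zero]

variable {t : F} {𝔫 : Ideal ↥(s18tInt A t)} [h𝔫 : 𝔫.IsPrime] {V₁ V₂ : ValuationSubring F}
variable {t' : F'} {V₁' V₂' : ValuationSubring F'}

/-- **EXACT NODE COORDINATES from the slot (T1) at an upper level.** -/
theorem mrk_germ_exact_of_T1 (hϖ : Irreducible ϖ) (ht : Transcendental L t)
    [FiniteDimensional L⟮t⟯ F] (ι : F →+* F')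
    (hιA : ∀ a : A, ι (algebraMap A F a) = algebraMap A F' a) (hιt : ι t = t')
    (hV₁ : ∀ x : F, x ∈ V₁ ↔ ι x ∈ V₁') (hV₂ : ∀ x : F, x ∈ V₂ ↔ ι x ∈ V₂')
    [hnoe : IsNoetherianRing ↥(s18tInt A t')]
    (h2 : SsgaTwo ϖ t V₁ V₂) (h2' : SsgaTwo ϖ t' V₁' V₂')
    (hon₁ : SqgaOn t 𝔫 V₁) (hon₂ : SqgaOn t 𝔫 V₂)
    (hsep₁₂ : ∃ x ∈ s18tInt A t, x ∈ V₁.nonunits ∧ x ∉ V₂.nonunits)
    (hsep₂₁ : ∃ x ∈ s18tInt A t, x ∈ V₂.nonunits ∧ x ∉ V₁.nonunits)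
    (hT1 : ∀ 𝔫₁ : Ideal ↥(s18tInt A t'), 𝔫₁.IsPrime → SqgaOn t' 𝔫₁ V₁' → SqgaOn t' 𝔫₁ V₂' →
      SqgaNode ϖ t' V₁' V₂' 𝔫₁)
    (G : Subgroup (SemilinearAut L F)) (hcross : SsGermCrossPlus ϖ t G 𝔫 V₁ V₂) :
    MrkGermExact ϖ t G 𝔫 V₁ V₂ := by
  haveI : IsIntegrallyClosed ↥(s18tInt A t) := mrk_isIntegrallyClosed (A := A) ht
  have hιP : ∀ x ∈ s18tInt A t, ι x ∈ s18tInt A t' := fun x hx => mrk_map_int ι hιA hιt hx
  have hn₁ := mrk_nonunits_iff ι hV₁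
  have hn₂ := mrk_nonunits_iff ι hV₂
  obtain ⟨𝔫', h𝔫', hmem, hon₁', hon₂'⟩ := mrk_exists_upper_prime (ϖ := ϖ) (𝔫 := 𝔫) ι hιA hιt hιP
    (fun x hx => (hn₁ x).mp hx) (fun x hx => (hn₂ x).mp hx) h2 h2' hon₁ hon₂ hsep₁₂ hsep₂₁
  haveI := h𝔫'
  obtain ⟨x₁₂, hx₁₂P, hx₁₂V₁, hx₁₂V₂⟩ := hsep₁₂
  obtain ⟨x₂₁, hx₂₁P, hx₂₁V₂, hx₂₁V₁⟩ := hsep₂₁
  exact mrk_germ_exact hϖ ι hιA hιP (fun x hx => (hmem x).mp hx) (fun x hx => (hV₁ x).mp hx) hn₂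
    h2 h2' hon₁ hon₂ hon₁' hon₂' (hT1 𝔫' h𝔫' hon₁' hon₂')
    ⟨⟨x₂₁, hx₂₁P⟩, hon₂ ⟨x₂₁, hx₂₁P⟩ hx₂₁V₂, hx₂₁V₁⟩
    ⟨⟨x₁₂, hx₁₂P⟩, hon₁ ⟨x₁₂, hx₁₂P⟩ hx₁₂V₁, hx₁₂V₂⟩ G hcross

end Fermat.Agent.MR
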