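import Mathlib
import Fermat.Agent.MR.Kron.ExactTop
import Fermat.Agent.SS.Val.Gauss2

/-!
# PROGRAM MR (S44), block `mrk` : EXACT NODE COORDINATES from two `SsvTwo` packages

Owner: helper25.  Prefix `mrk`.

Main's (VAL) package `SsvTwo hϖ t u₁ u₂ V₁ V₂` (`SS/Val/Gauss2.lean`; concrete instance
`SQ.sqcau_two_j` with `u₁ = Y - J^q`, `u₂ = Y^q - J`) at the two levels, with `ι u₁ = u₁'`,
`ι u₂ = u₂'`, gives every valuation-theoretic hypothesis of `mrk_germ_exact_of_T1` :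

* `mrk_comap_of_two` : `V_j = V_j' ∩ F`;
* `mrk_sep_of_two` : separators `x₁₂ ∈ 𝔭₁ ∖ 𝔭₂`, `x₂₁ ∈ 𝔭₂ ∖ 𝔭₁`;
* `mrk_germ_exact_of_two` : **the exact germ** from the two packages, the slot (T1) upstairs and main's
  crossing germ downstairs.
-/

set_option autoImplicit false
set_option linter.unusedSectionVars false
set_option linter.unusedVariables false
set_option linter.style.haveILetI false

noncomputable section

namespace Fermat.Agent.MR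

open Polynomial IntermediateField AlgebraicCurve Fermat.Agent.S18 Fermat.Agent.SS Fermat.Agent.SQ
  Fermat.Agent.G IsLocalRing

universe u u'

variable {A : Type*} [CommRing A] [IsDomain A] [IsDiscreteValuationRing A] [CharZero A]
variable {L : Type*} [Field L] [Algebra A L] [IsFractionRing A L]
variable {F : Type u} [Field F] [Algebra A F] [Algebra L F] [IsScalarTower A L F]
variable {F' : Type u'} [Field F'] [Algebra A F'] [Algebra L F'] [IsScalarTower A L F']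
variable {ϖ : A}
variable {t : F} {V₁ V₂ : ValuationSubring F} {t' : F'} {V₁' V₂' : ValuationSubring F'}
variable {u₁ u₂ : F} {u₁' u₂' : F'}

/-- `ι` maps `A[t]_(ϖ)` into `A[t']_(ϖ)`. -/
theorem mrk_map_loc_gauss (hϖ : Irreducible ϖ) (ι : F →+* F')
    (hιA : ∀ a : A, ι (algebraMap A F a) = algebraMap A F' a) (hιt : ι t = t') {x : F}
    (hx : x ∈ s18tLoc A t (C ϖ) (s18t_prime_C hϖ)) :
    ι x ∈ s18tLoc A t' (C ϖ) (s18t_prime_C hϖ) := by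
  obtain ⟨a, b, hb, hxab⟩ := hx
  refine ⟨a, b, hb, ?_⟩
  rw [← mrk_map_aeval ι hιA hιt b, ← mrk_map_aeval ι hιA hιt a, ← map_mul, hxab]

/-- one component : the pull-back of `V₁'` is `V₁`. -/
theorem mrk_comap_of_two_aux (hϖ : Irreducible ϖ) (ι : F →+* F')
    (hιA : ∀ a : A, ι (algebraMap A F a) = algebraMap A F' a) (hιt : ι t = t')
    (hu₁ : ι u₁ = u₁') (hT : SsvTwo hϖ t u₁ u₂ V₁ V₂) (hT' : SsvTwo hϖ t' u₁' u₂' V₁' V₂') :
    ∀ x : F, x ∈ V₁ ↔ ι x ∈ V₁' := by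
  set W : ValuationSubring F := V₁'.comap ι with hW
  have hWn : ∀ x : F, x ∈ W.nonunits ↔ ι x ∈ V₁'.nonunits :=
    mrk_nonunits_iff ι (V := W) (V' := V₁') (fun x => Iff.rfl)
  have h1 : s18tLoc A t (C ϖ) (s18t_prime_C hϖ) ≤ W.toSubring := by
    intro x hx
    show ι x ∈ V₁'
    exact ((hT'.mem_iff _).mp (s18tc_loc_le_intLoc t' _ _ (mrk_map_loc_gauss hϖ ι hιA hιt hx))).1
  have h2 : algebraMap A F ϖ ∈ W.nonunits := by
    rw [hWn, hιA]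
    exact V₁'.mem_nonunits_iff.mpr hT'.unif₁.1
  rcases hT.cases W h1 h2 with h | h
  · intro x
    rw [← h]
    rfl
  · exfalso
    have h3 : u₁ ∈ W.nonunits := by
      rw [hWn, hu₁]; exact hT'.mem₁
    rw [h, V₂.mem_nonunits_iff, hT.unit₁] at h3
    exact lt_irrefl _ h3

/-- the second component. -/
theorem mrk_comap_of_two_aux' (hϖ : Irreducible ϖ) (ι : F →+* F')
    (hιA : ∀ a : A, ι (algebraMap A F a) = algebraMap A F' a) (hιt : ι t = t')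
    (hu₂ : ι u₂ = u₂') (hT : SsvTwo hϖ t u₁ u₂ V₁ V₂) (hT' : SsvTwo hϖ t' u₁' u₂' V₁' V₂') :
    ∀ x : F, x ∈ V₂ ↔ ι x ∈ V₂' := by
  set W : ValuationSubring F := V₂'.comap ι with hW
  have hWn : ∀ x : F, x ∈ W.nonunits ↔ ι x ∈ V₂'.nonunits :=
    mrk_nonunits_iff ι (V := W) (V' := V₂') (fun x => Iff.rfl)
  have h1 : s18tLoc A t (C ϖ) (s18t_prime_C hϖ) ≤ W.toSubring := by
    intro x hx
    show ι x ∈ V₂'
    exact ((hT'.mem_iff _).mp (s18tc_loc_le_intLoc t' _ _ (mrk_map_loc_gauss hϖ ι hιA hιt hx))).2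
  have h2 : algebraMap A F ϖ ∈ W.nonunits := by
    rw [hWn, hιA]
    exact V₂'.mem_nonunits_iff.mpr hT'.unif₂.1
  rcases hT.cases W h1 h2 with h | h
  · exfalso
    have h3 : u₂ ∈ W.nonunits := by
      rw [hWn, hu₂]; exact hT'.mem₂
    rw [h, V₁.mem_nonunits_iff, hT.unit₂] at h3
    exact lt_irrefl _ h3
  · intro x
    rw [← h]
    rfl

/-- **`V_j = V_j' ∩ F`** from the two (VAL) packages. -/
theorem mrk_comap_of_two (hϖ : Irreducible ϖ) (ι : F →+* F')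
    (hιA : ∀ a : A, ι (algebraMap A F a) = algebraMap A F' a) (hιt : ι t = t')
    (hu₁ : ι u₁ = u₁') (hu₂ : ι u₂ = u₂') (hT : SsvTwo hϖ t u₁ u₂ V₁ V₂)
    (hT' : SsvTwo hϖ t' u₁' u₂' V₁' V₂') :
    (∀ x : F, x ∈ V₁ ↔ ι x ∈ V₁') ∧ (∀ x : F, x ∈ V₂ ↔ ι x ∈ V₂') :=
  ⟨mrk_comap_of_two_aux hϖ ι hιA hιt hu₁ hT hT', mrk_comap_of_two_aux' hϖ ι hιA hιt hu₂ hT hT'⟩

/-- a Gauss unit `b(t)`, `ϖ ∤ b`, is a unit of every `V ⊇ P_(ϖ)`. -/
theorem mrk_gauss_unit (hϖ : Irreducible ϖ) (ht : Transcendental L t) (V : ValuationSubring F)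
    (hV : ∀ x ∈ s18tIntLoc A t (C ϖ) (s18t_prime_C hϖ), x ∈ V) {b : A[X]} (hb : ¬ C ϖ ∣ b) :
    V.valuation (aeval t b) = 1 := by
  have htA : Transcendental A t := s18tb_transcendental ht
  have hb0 : b ≠ 0 := fun h => hb (by rw [h]; exact dvd_zero _)
  have hbt : aeval t b ≠ 0 := fun h => hb0 ((transcendental_iff.mp htA) b h)
  have h1 : aeval t b ∈ V := by
    apply hV
    apply s18tc_loc_le_intLoc
    exact ⟨b, 1, fun h => hϖ.not_isUnit (Polynomial.isUnit_C.mp (isUnit_of_dvd_one h)), by simp⟩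
  have h2 : (aeval t b)⁻¹ ∈ V := by
    apply hV
    apply s18tc_loc_le_intLoc
    exact ⟨1, b, hb, by simp [hbt]⟩
  have e1 : V.valuation (aeval t b) ≤ 1 := (V.valuation_le_one_iff _).mpr h1
  have e2 : V.valuation (aeval t b)⁻¹ ≤ 1 := (V.valuation_le_one_iff _).mpr h2
  rw [map_inv₀] at e2
  have hne : V.valuation (aeval t b) ≠ 0 := (_root_.map_ne_zero _).mpr hbt
  have e3 : 1 ≤ V.valuation (aeval t b) := by
    have := (inv_le_one₀ (zero_lt_iff.mpr hne)).mp e2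
    exact this
  exact le_antisymm e1 e3

/-- **separators** : an element of `P` in `𝔪_{V₁} ∖ 𝔪_{V₂}` and one in `𝔪_{V₂} ∖ 𝔪_{V₁}`. -/
theorem mrk_sep_of_two (hϖ : Irreducible ϖ) (ht : Transcendental L t)
    (hT : SsvTwo hϖ t u₁ u₂ V₁ V₂) :
    (∃ x ∈ s18tInt A t, x ∈ V₁.nonunits ∧ x ∉ V₂.nonunits) ∧
    (∃ x ∈ s18tInt A t, x ∈ V₂.nonunits ∧ x ∉ V₁.nonunits) := by
  have hV₁ : ∀ x ∈ s18tIntLoc A t (C ϖ) (s18t_prime_C hϖ), x ∈ V₁ :=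
    fun x hx => ((hT.mem_iff x).mp hx).1
  have hV₂ : ∀ x ∈ s18tIntLoc A t (C ϖ) (s18t_prime_C hϖ), x ∈ V₂ :=
    fun x hx => ((hT.mem_iff x).mp hx).2
  constructor
  · have hu : u₁ ∈ s18tIntLoc A t (C ϖ) (s18t_prime_C hϖ) := by
      rw [hT.mem_iff]
      exact ⟨ssgr_nu_mem V₁ hT.mem₁, (V₂.valuation_le_one_iff _).mp (le_of_eq hT.unit₁)⟩
    obtain ⟨b, hb, hbu⟩ := (s18t_intLoc_iff hϖ t u₁).mp hu
    refine ⟨aeval t b * u₁, hbu, ?_, ?_⟩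
    · exact ssgr_nu_mul_right V₁
        ((V₁.valuation_le_one_iff _).mp (le_of_eq (mrk_gauss_unit hϖ ht V₁ hV₁ hb))) hT.mem₁
    · rw [V₂.mem_nonunits_iff, map_mul, mrk_gauss_unit hϖ ht V₂ hV₂ hb, hT.unit₁, one_mul]
      exact lt_irrefl _
  · have hu : u₂ ∈ s18tIntLoc A t (C ϖ) (s18t_prime_C hϖ) := by
      rw [hT.mem_iff]
      exact ⟨(V₁.valuation_le_one_iff _).mp (le_of_eq hT.unit₂), ssgr_nu_mem V₂ hT.mem₂⟩
    obtain ⟨b, hb, hbu⟩ := (s18t_intLoc_iff hϖ t u₂).mp hu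
    refine ⟨aeval t b * u₂, hbu, ?_, ?_⟩
    · exact ssgr_nu_mul_right V₂
        ((V₂.valuation_le_one_iff _).mp (le_of_eq (mrk_gauss_unit hϖ ht V₂ hV₂ hb))) hT.mem₂
    · rw [V₁.mem_nonunits_iff, map_mul, mrk_gauss_unit hϖ ht V₁ hV₁ hb, hT.unit₂, one_mul]
      exact lt_irrefl _

variable {𝔫 : Ideal ↥(s18tInt A t)} [h𝔫 : 𝔫.IsPrime]

/-- **EXACT NODE COORDINATES from two (VAL) packages, the slot (T1) above and main's germ below.** -/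
theorem mrk_germ_exact_of_two (hϖ : Irreducible ϖ) (ht : Transcendental L t)
    [FiniteDimensional L⟮t⟯ F] (ht' : Transcendental L t') [FiniteDimensional L⟮t'⟯ F']
    (ι : F →+* F') (hιA : ∀ a : A, ι (algebraMap A F a) = algebraMap A F' a) (hιt : ι t = t')
    (hu₁ : ι u₁ = u₁') (hu₂ : ι u₂ = u₂') (hT : SsvTwo hϖ t u₁ u₂ V₁ V₂)
    (hT' : SsvTwo hϖ t' u₁' u₂' V₁' V₂')
    (hon₁ : SqgaOn t 𝔫 V₁) (hon₂ : SqgaOn t 𝔫 V₂)
    (hT1 : ∀ 𝔫₁ : Ideal ↥(s18tInt A t'), 𝔫₁.IsPrime → SqgaOn t' 𝔫₁ V₁' → SqgaOn t' 𝔫₁ V₂' →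
      SqgaNode ϖ t' V₁' V₂' 𝔫₁)
    (G : Subgroup (SemilinearAut L F)) (hcross : SsGermCrossPlus ϖ t G 𝔫 V₁ V₂) :
    MrkGermExact ϖ t G 𝔫 V₁ V₂ := by
  obtain ⟨hV₁, hV₂⟩ := mrk_comap_of_two hϖ ι hιA hιt hu₁ hu₂ hT hT'
  obtain ⟨hs₁₂, hs₂₁⟩ := mrk_sep_of_two hϖ ht hT
  haveI : IsNoetherianRing ↥(s18tInt A t') := sskr_isNoetherianRing (A := A) (L := L) t' ht'
  exact mrk_germ_exact_of_T1 hϖ ht ι hιA hιt hV₁ hV₂ (ssga_two_of_ssvTwo hϖ t ht hT)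
    (ssga_two_of_ssvTwo hϖ t' ht' hT') hon₁ hon₂ hs₁₂ hs₂₁ hT1 G hcross

end Fermat.Agent.MR
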