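import Mathlib
import Fermat.Agent.MR.Kron.ExactTwo
import Fermat.Agent.MR.Exact.Up

/-!
# PROGRAM MR (S44), block `mrk` : THICKNESS ONE at a level carrying the node of thickness one itself

Owner: helper25.  Prefix `mrk`.

At a level `M₁` to which main's slot (T1) applies DIRECTLY (`SqgaNode ϖ t V₁ V₂ 𝔫` at the node `𝔫`
itself, e.g. `6 ∣ M₁`), the exact crossing germ has exponent `e = 1` :
`MrkGermExactOne ϖ t G 𝔫 V₁ V₂` (`mrk_germ_exact` with `ι = id` + the architect's `mrxa_thick_one`).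
-/

set_option autoImplicit false
set_option linter.unusedSectionVars false
set_option linter.unusedVariables false
set_option linter.style.haveILetI false

noncomputable section

namespace Fermat.Agent.MR

open Polynomial IntermediateField AlgebraicCurve Fermat.Agent.S18 Fermat.Agent.SS Fermat.Agent.SQ
  Fermat.Agent.G IsLocalRing

universe u

variable {A : Type*} [CommRing A] [IsDomain A] [IsDiscreteValuationRing A] [CharZero A]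
variable {L : Type*} [Field L] [Algebra A L] [IsFractionRing A L]
variable {F : Type u} [Field F] [Algebra A F] [Algebra L F] [IsScalarTower A L F]
variable {ϖ : A}

/-- **the exact crossing germ of thickness one** : `MrkGermExact` with `e = 1`. -/
def MrkGermExactOne (ϖ : A) (t : F) (G : Subgroup (SemilinearAut L F))
    (𝔫 : Ideal ↥(s18tInt A t)) (V₁ V₂ : ValuationSubring F) : Prop :=
  ∃ u w : F, SsnfInMax t 𝔫 u ∧ SsnfInMax t 𝔫 w ∧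
    (∀ γ ∈ G, γ • u = u) ∧ (∀ γ ∈ G, γ • w = w) ∧ SsgaSpan3 ϖ t 𝔫 u w ∧
    u ∈ V₁.nonunits ∧ w ∈ V₂.nonunits ∧ u ∉ V₂.nonunits ∧ w ∉ V₁.nonunits ∧
    SsgaGen t 𝔫 V₂ u ∧ SsgaGen t 𝔫 V₁ w ∧
    ∃ (c : A) (ρ : F), IsUnit c ∧ SsnfInLoc t 𝔫 ρ ∧
      u * w = algebraMap A F (ϖ * c) * (1 + algebraMap A F ϖ * ρ)

theorem MrkGermExactOne.exact {t : F} {G : Subgroup (SemilinearAut L F)}
    {𝔫 : Ideal ↥(s18tInt A t)} {V₁ V₂ : ValuationSubring F}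
    (h : MrkGermExactOne ϖ t G 𝔫 V₁ V₂) : MrkGermExact ϖ t G 𝔫 V₁ V₂ := by
  obtain ⟨u, w, hu, hw, hGu, hGw, hspan, hu₁, hw₂, hu₂, hw₁, hg₂, hg₁, c, ρ, hc, hρ, huw⟩ := h
  exact ⟨u, w, hu, hw, hGu, hGw, hspan, hu₁, hw₂, hu₂, hw₁, hg₂, hg₁, 1, c, ρ, le_rfl, hc, hρ,
    by rw [pow_one]; exact huw⟩

variable {t : F} {𝔫 : Ideal ↥(s18tInt A t)} [h𝔫 : 𝔫.IsPrime] {V₁ V₂ : ValuationSubring F}

/-- **THICKNESS ONE** : at a prime carrying a node of thickness one, the exact germ has `e = 1`. -/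
theorem mrk_germ_exact_one (hϖ : Irreducible ϖ) (ht : Transcendental L t)
    [FiniteDimensional L⟮t⟯ F] (h2 : SsgaTwo ϖ t V₁ V₂)
    (hunif₁ : S18IsUnif V₁ (algebraMap A F ϖ)) (hunif₂ : S18IsUnif V₂ (algebraMap A F ϖ))
    (hon₁ : SqgaOn t 𝔫 V₁) (hon₂ : SqgaOn t 𝔫 V₂) (hnode : SqgaNode ϖ t V₁ V₂ 𝔫)
    (hsep₁ : ∃ x ∈ 𝔫, (x : F) ∉ V₁.nonunits) (hsep₂ : ∃ x ∈ 𝔫, (x : F) ∉ V₂.nonunits)
    (G : Subgroup (SemilinearAut L F)) (hcross : SsGermCrossPlus ϖ t G 𝔫 V₁ V₂) :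
    MrkGermExactOne ϖ t G 𝔫 V₁ V₂ := by
  haveI : IsNoetherianRing ↥(s18tInt A t) := sskr_isNoetherianRing (A := A) (L := L) t ht
  have hπ0 : algebraMap A F ϖ ≠ 0 := sqga_pi_ne_zero (F := F) L hϖ
  obtain ⟨u, w, hu, hw, hGu, hGw, hspan, hu₁, hw₂, hu₂, hw₁, hg₂, hg₁, e, c, ρ, he, hc, hρ, huw⟩ :=
    mrk_germ_exact (F' := F) (t' := t) (𝔫' := 𝔫) (V₁' := V₁) (V₂' := V₂) hϖ (RingHom.id F)
      (fun a => rfl) (fun x hx => hx) (fun x hx => hx) (fun x hx => hx) (fun x => Iff.rfl) h2 h2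
      hon₁ hon₂ hon₁ hon₂ hnode hsep₁ hsep₂ G hcross
  have hϖ𝔫 : sskPi ϖ t ∈ 𝔫 := hon₁ (sskPi ϖ t) h2.unif₁
  obtain ⟨hεL, hεinv, hε0⟩ := mrk_one_add_unit (ϖ := ϖ) hϖ𝔫 hρ
  obtain ⟨c', hc'⟩ := hc
  have hcc : algebraMap A F (c' : A) * algebraMap A F ((c'⁻¹ : Aˣ) : A) = 1 := by
    rw [← map_mul, Units.mul_inv, map_one]
  have hc0 : algebraMap A F (c' : A) ≠ 0 := left_ne_zero_of_mul_eq_one hcc
  have hcL : ∀ a : A, algebraMap A F a ∈ ssLocRing t 𝔫 := fun a =>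
    ssl_int_le_locRing t 𝔫 (s18tc_algebraMap_mem_int t a)
  have huL : SsInLoc t 𝔫 u := by
    obtain ⟨s, hs, p, -, hp⟩ := hu
    exact ⟨s, hs, by rw [hp]; exact p.2⟩
  have hwL : SsInLoc t 𝔫 w := by
    obtain ⟨s, hs, p, -, hp⟩ := hw
    exact ⟨s, hs, by rw [hp]; exact p.2⟩
  obtain ⟨hw0, hwinv⟩ := mrk_inv_mem V₁ (ssgmp_inLoc_mem V₁ h2.le₁ hon₁ hwL) hw₁
  obtain ⟨hu0, huinv⟩ := mrk_inv_mem V₂ (ssgmp_inLoc_mem V₂ h2.le₂ hon₂ huL) hu₂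
  have he1 : e = 1 := by
    refine mrxa_thick_one (A := A) (L := L) ht h2 hon₁ hon₂ hunif₁ hunif₂ hπ0 hnode e u w
      (algebraMap A F (c' : A) * (1 + algebraMap A F ϖ * ρ)) hu hw hspan
      (Subring.mul_mem _ (hcL _) hεL) ?_ hw0 hwinv hu0 huinv ?_
    · have : (algebraMap A F (c' : A) * (1 + algebraMap A F ϖ * ρ))⁻¹
          = algebraMap A F ((c'⁻¹ : Aˣ) : A) * (1 + algebraMap A F ϖ * ρ)⁻¹ := by
        rw [mul_inv]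
        congr 1
        exact inv_eq_of_mul_eq_one_right hcc
      rw [this]
      exact Subring.mul_mem _ (hcL _) hεinv
    · rw [huw, ← hc', map_mul, map_pow]; ring
  subst he1
  exact ⟨u, w, hu, hw, hGu, hGw, hspan, hu₁, hw₂, hu₂, hw₁, hg₂, hg₁, (c' : A), ρ, c'.isUnit, hρ,
    by rw [huw, ← hc', pow_one]⟩

/-- the same from main's (VAL) package `SsvTwo`. -/
theorem mrk_germ_exact_one_of_two (hϖ : Irreducible ϖ) (ht : Transcendental L t)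
    [FiniteDimensional L⟮t⟯ F] {u₁ u₂ : F} (hT : SsvTwo hϖ t u₁ u₂ V₁ V₂)
    (hon₁ : SqgaOn t 𝔫 V₁) (hon₂ : SqgaOn t 𝔫 V₂) (hnode : SqgaNode ϖ t V₁ V₂ 𝔫)
    (G : Subgroup (SemilinearAut L F)) (hcross : SsGermCrossPlus ϖ t G 𝔫 V₁ V₂) :
    MrkGermExactOne ϖ t G 𝔫 V₁ V₂ := by
  obtain ⟨⟨x₁₂, hx₁₂P, hx₁₂V₁, hx₁₂V₂⟩, ⟨x₂₁, hx₂₁P, hx₂₁V₂, hx₂₁V₁⟩⟩ := mrk_sep_of_two hϖ ht hT
  exact mrk_germ_exact_one hϖ ht (ssga_two_of_ssvTwo hϖ t ht hT) hT.unif₁ hT.unif₂ hon₁ hon₂ hnode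
    ⟨⟨x₂₁, hx₂₁P⟩, hon₂ ⟨x₂₁, hx₂₁P⟩ hx₂₁V₂, hx₂₁V₁⟩
    ⟨⟨x₁₂, hx₁₂P⟩, hon₁ ⟨x₁₂, hx₁₂P⟩ hx₁₂V₁, hx₁₂V₂⟩ G hcross

end Fermat.Agent.MR
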