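import Mathlib
import Fermat.Agent.MR.Kron.ExactOne

/-!
# PROGRAM MR (S44), block `mrk` : the exact crossing germ with the exponent `e` EXPOSED

Owner: helper25 (requested in MR-PM R74(4)(f), architect 4363).  Prefix `mrko`.

* `MrkGermExactAt e ϖ t G 𝔫 V₁ V₂` : the body of `MrkGermExact` with `e` pulled out;
* `mrko_iff : MrkGermExact … ↔ ∃ e, 1 ≤ e ∧ MrkGermExactAt e …`;
* `mrko_at_one : MrkGermExactOne … → MrkGermExactAt 1 …`;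
* `mrko_eq_one` : at a prime carrying a node of thickness one (`SqgaNode`, same level), EVERY
  `MrkGermExactAt e` has `e = 1` (architect's `mrxa_thick_one`);
* `mrko_exact_at_of_two` : the two-level theorem with `e` exposed :
  `∃ e, 1 ≤ e ∧ MrkGermExactAt e …`.
-/

set_option autoImplicit false
set_option linter.unusedSectionVars false
set_option linter.unusedVariables false
set_option linter.style.haveILetI false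

noncomputable section

namespace Fermat.Agent.MR

open Polynomial IntermediateField AlgebraicCurve Fermat.Agent.S18 Fermat.Agent.SS Fermat.Agent.SQ
  Fermat.Agent.G IsLocalRing

universe u u'

variable {A : Type*} [CommRing A] [IsDomain A] [IsDiscreteValuationRing A] [CharZero A]
variable {L : Type*} [Field L] [Algebra A L] [IsFractionRing A L]
variable {F : Type u} [Field F] [Algebra A F] [Algebra L F] [IsScalarTower A L F]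
variable {ϖ : A}

/-- the exact crossing germ with exponent `e`. -/
def MrkGermExactAt (e : ℕ) (ϖ : A) (t : F) (G : Subgroup (SemilinearAut L F))
    (𝔫 : Ideal ↥(s18tInt A t)) (V₁ V₂ : ValuationSubring F) : Prop :=
  ∃ u w : F, SsnfInMax t 𝔫 u ∧ SsnfInMax t 𝔫 w ∧
    (∀ γ ∈ G, γ • u = u) ∧ (∀ γ ∈ G, γ • w = w) ∧ SsgaSpan3 ϖ t 𝔫 u w ∧
    u ∈ V₁.nonunits ∧ w ∈ V₂.nonunits ∧ u ∉ V₂.nonunits ∧ w ∉ V₁.nonunits ∧
    SsgaGen t 𝔫 V₂ u ∧ SsgaGen t 𝔫 V₁ w ∧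
    ∃ (c : A) (ρ : F), IsUnit c ∧ SsnfInLoc t 𝔫 ρ ∧
      u * w = algebraMap A F (ϖ ^ e * c) * (1 + algebraMap A F ϖ * ρ)

variable {t : F} {G : Subgroup (SemilinearAut L F)} {𝔫 : Ideal ↥(s18tInt A t)}
  {V₁ V₂ : ValuationSubring F}

theorem mrko_iff : MrkGermExact ϖ t G 𝔫 V₁ V₂ ↔ ∃ e : ℕ, 1 ≤ e ∧ MrkGermExactAt e ϖ t G 𝔫 V₁ V₂ := by
  constructor
  · rintro ⟨u, w, hu, hw, hGu, hGw, hspan, hu₁, hw₂, hu₂, hw₁, hg₂, hg₁, e, c, ρ, he, hc, hρ, huw⟩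
    exact ⟨e, he, u, w, hu, hw, hGu, hGw, hspan, hu₁, hw₂, hu₂, hw₁, hg₂, hg₁, c, ρ, hc, hρ, huw⟩
  · rintro ⟨e, he, u, w, hu, hw, hGu, hGw, hspan, hu₁, hw₂, hu₂, hw₁, hg₂, hg₁, c, ρ, hc, hρ, huw⟩
    exact ⟨u, w, hu, hw, hGu, hGw, hspan, hu₁, hw₂, hu₂, hw₁, hg₂, hg₁, e, c, ρ, he, hc, hρ, huw⟩

theorem mrko_at_one (h : MrkGermExactOne ϖ t G 𝔫 V₁ V₂) : MrkGermExactAt 1 ϖ t G 𝔫 V₁ V₂ := by
  obtain ⟨u, w, hu, hw, hGu, hGw, hspan, hu₁, hw₂, hu₂, hw₁, hg₂, hg₁, c, ρ, hc, hρ, huw⟩ := h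
  exact ⟨u, w, hu, hw, hGu, hGw, hspan, hu₁, hw₂, hu₂, hw₁, hg₂, hg₁, c, ρ, hc, hρ,
    by rw [pow_one]; exact huw⟩

variable [h𝔫 : 𝔫.IsPrime]

/-- **THICKNESS ONE IS INTRINSIC** : at a prime carrying a node of thickness one (same level),
every exact crossing germ has exponent `1`. -/
theorem mrko_eq_one (hϖ : Irreducible ϖ) (ht : Transcendental L t) [FiniteDimensional L⟮t⟯ F]
    (h2 : SsgaTwo ϖ t V₁ V₂)
    (hunif₁ : S18IsUnif V₁ (algebraMap A F ϖ)) (hunif₂ : S18IsUnif V₂ (algebraMap A F ϖ))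
    (hon₁ : SqgaOn t 𝔫 V₁) (hon₂ : SqgaOn t 𝔫 V₂) (hnode : SqgaNode ϖ t V₁ V₂ 𝔫) {e : ℕ}
    (h : MrkGermExactAt e ϖ t G 𝔫 V₁ V₂) : e = 1 := by
  have hπ0 : algebraMap A F ϖ ≠ 0 := sqga_pi_ne_zero (F := F) L hϖ
  obtain ⟨u, w, hu, hw, hGu, hGw, hspan, hu₁, hw₂, hu₂, hw₁, hg₂, hg₁, c, ρ, hc, hρ, huw⟩ := h
  have hϖ𝔫 : sskPi ϖ t ∈ 𝔫 := hon₁ (sskPi ϖ t) h2.unif₁
  obtain ⟨hεL, hεinv, hε0⟩ := mrk_one_add_unit (ϖ := ϖ) hϖ𝔫 hρ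
  obtain ⟨c', hc'⟩ := hc
  have hcc : algebraMap A F (c' : A) * algebraMap A F ((c'⁻¹ : Aˣ) : A) = 1 := by
    rw [← map_mul, Units.mul_inv, map_one]
  have hcL : ∀ a : A, algebraMap A F a ∈ ssLocRing t 𝔫 := fun a =>
    ssl_int_le_locRing t 𝔫 (s18tc_algebraMap_mem_int t a)
  have huL : SsInLoc t 𝔫 u := by
    obtain ⟨s, hs, p, -, hp⟩ := hu
    exact ⟨s, hs, by rw [hp]; exact p.2⟩
  have hwL : SsInLoc t 𝔫 w := by
    obtain ⟨s, hs, p, -, hp⟩ := hw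
    exact ⟨s, hs, by rw [hp]; exact p.2⟩
  obtain ⟨hw0, hwinv⟩ := mrk_inv_mem V₁ (ssgmp_inLoc_mem V₁ h2.le₁ hon₁ hwL) hw₁
  obtain ⟨hu0, huinv⟩ := mrk_inv_mem V₂ (ssgmp_inLoc_mem V₂ h2.le₂ hon₂ huL) hu₂
  refine mrxa_thick_one (A := A) (L := L) ht h2 hon₁ hon₂ hunif₁ hunif₂ hπ0 hnode e u w
    (algebraMap A F (c' : A) * (1 + algebraMap A F ϖ * ρ)) hu hw hspan
    (Subring.mul_mem _ (hcL _) hεL) ?_ hw0 hwinv hu0 huinv ?_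
  · have : (algebraMap A F (c' : A) * (1 + algebraMap A F ϖ * ρ))⁻¹
        = algebraMap A F ((c'⁻¹ : Aˣ) : A) * (1 + algebraMap A F ϖ * ρ)⁻¹ := by
      rw [mul_inv]
      congr 1
      exact inv_eq_of_mul_eq_one_right hcc
    rw [this]
    exact Subring.mul_mem _ (hcL _) hεinv
  · rw [huw, ← hc', map_mul, map_pow]; ring

/-- the same from main's (VAL) package. -/
theorem mrko_eq_one_of_two (hϖ : Irreducible ϖ) (ht : Transcendental L t)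
    [FiniteDimensional L⟮t⟯ F] {u₁ u₂ : F} (hT : SsvTwo hϖ t u₁ u₂ V₁ V₂)
    (hon₁ : SqgaOn t 𝔫 V₁) (hon₂ : SqgaOn t 𝔫 V₂) (hnode : SqgaNode ϖ t V₁ V₂ 𝔫) {e : ℕ}
    (h : MrkGermExactAt e ϖ t G 𝔫 V₁ V₂) : e = 1 :=
  mrko_eq_one hϖ ht (ssga_two_of_ssvTwo hϖ t ht hT) hT.unif₁ hT.unif₂ hon₁ hon₂ hnode h

variable {F' : Type u'} [Field F'] [Algebra A F'] [Algebra L F'] [IsScalarTower A L F']
variable {t' : F'} {V₁' V₂' : ValuationSubring F'} {u₁ u₂ : F} {u₁' u₂' : F'}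

/-- **the two-level theorem with `e` exposed**, with the clause `e = 1` when (T1) holds at the lower
level itself. -/
theorem mrko_exact_at_of_two (hϖ : Irreducible ϖ) (ht : Transcendental L t)
    [FiniteDimensional L⟮t⟯ F] (ht' : Transcendental L t') [FiniteDimensional L⟮t'⟯ F']
    (ι : F →+* F') (hιA : ∀ a : A, ι (algebraMap A F a) = algebraMap A F' a) (hιt : ι t = t')
    (hu₁ : ι u₁ = u₁') (hu₂ : ι u₂ = u₂') (hT : SsvTwo hϖ t u₁ u₂ V₁ V₂)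
    (hT' : SsvTwo hϖ t' u₁' u₂' V₁' V₂')
    (hon₁ : SqgaOn t 𝔫 V₁) (hon₂ : SqgaOn t 𝔫 V₂)
    (hT1 : ∀ 𝔫₁ : Ideal ↥(s18tInt A t'), 𝔫₁.IsPrime → SqgaOn t' 𝔫₁ V₁' → SqgaOn t' 𝔫₁ V₂' →
      SqgaNode ϖ t' V₁' V₂' 𝔫₁)
    (G : Subgroup (SemilinearAut L F)) (hcross : SsGermCrossPlus ϖ t G 𝔫 V₁ V₂) :
    ∃ e : ℕ, 1 ≤ e ∧ (SqgaNode ϖ t V₁ V₂ 𝔫 → e = 1) ∧ MrkGermExactAt e ϖ t G 𝔫 V₁ V₂ := by
  obtain ⟨e, he, hat⟩ := mrko_iff.mp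
    (mrk_germ_exact_of_two hϖ ht ht' ι hιA hιt hu₁ hu₂ hT hT' hon₁ hon₂ hT1 G hcross)
  exact ⟨e, he, fun hnode => mrko_eq_one_of_two hϖ ht hT hon₁ hon₂ hnode hat, hat⟩

end Fermat.Agent.MR
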