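import Mathlib
import Fermat.Agent.MR.Exact.TermAbs
import Fermat.Agent.SQ.Germ.Main
import Fermat.Agent.SS.Germ.MainPlus
import Fermat.Agent.SS.Germ.IntPhi
import Fermat.Agent.SS.Loc.Place

/-!
# PROGRAM MR (S44), block `mrk` : THE TWO-LEVEL DICTIONARY for (TERM'), abstract part

Owner: helper4 (PM R68(2)).  Namespace `Fermat.Agent.MR`, prefix `mrkl` / `Mrkl`.

Setting of main's S18 package T at TWO levels : `A` a DVR with uniformiser `ϖ`, `L = Frac A`,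
`ι : F → F'` an inclusion of function fields over `A` (`F = F_E(M p) ⊂ F' = F_E(M' p)`, `M ∣ M'`),
`t ∈ F` the chart coordinate, `P = s18tInt A t ⊂ F`, `P' = s18tInt A (ι t) ⊂ F'`, `V₁ V₂` the two
valuation rings of `F` above the Gauss ring, `V₁' V₂'` those of `F'`, with `V_j = V_j' ∩ F`.

UPSTAIRS the nodes have thickness one (main's `SqgaNode`, `SQ.sqct1_j`); helper24's abstract
(TERM') `mrxa_term` (`MR/Exact/TermAbs.lean`) then bounds the depth of EVERY approximate node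
equation `u w = κ + ϖ^m ρ` downstairs :

* `MrklLevels ι ϖ t V₁ V₂ V₁' V₂'` : the hypotheses on the two levels;
* `mrklMap` : the ring homomorphism `P → P'`;
* `mrkl_exists_over` **(B)** : over a prime `𝔫` of `P` lying on both components there is a prime
  `𝔫'` of `P'` lying on both components (lying-over + Mathlib's going-down for the integrally closed
  `P`; no uniqueness of the extension of `V_j` is needed : `𝔭₁' 𝔭₂' ⊆ ϖ P'` and the separators);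
* `mrkl_nondeep_at` **(A)** : given such an `𝔫'` which is a node of thickness one : there is `n₀`
  such that NO tuple `(u, w, κ, ρ)` of main's `SsGermCrossPlus ϖ t G 𝔫 V₁ V₂` at a precision
  `n ≥ n₀` has `ϖ^{n₀} ∣ κ`;
* `mrkl_nondeep` : (A) + (B);
* `mrkl_exact` : hence `SsGermCrossPlus` gives EXACT node coordinates `u w = κ ε`, `ε ∈ 1 + ϖ P_𝔫`,
  `κ ≠ 0`, `κ ∈ ϖ A`.
-/

set_option autoImplicit false
set_option linter.unusedSectionVars false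
set_option linter.unusedVariables false
set_option linter.style.haveILetI false

noncomputable section

namespace Fermat.Agent.MR

open Polynomial IntermediateField AlgebraicCurve Fermat.Agent.S18 Fermat.Agent.SS Fermat.Agent.SQ
  Fermat.Agent.G IsLocalRing

universe u u'

/-! ### valuation subrings and comap -/

section Val

variable {F : Type*} [Field F] {F' : Type*} [Field F']

/-- `y ∈ 𝔪_W ↔ y⁻¹ ∉ W` for `y ≠ 0`. -/
theorem mrkl_mem_nonunits_iff_inv {K : Type*} [Field K] (W : ValuationSubring K) {y : K}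
    (hy : y ≠ 0) : y ∈ W.nonunits ↔ y⁻¹ ∉ W := by
  rw [W.mem_nonunits_iff, ← W.valuation_le_one_iff, map_inv₀, not_le]
  have h0 : W.valuation y ≠ 0 := (_root_.map_ne_zero _).mpr hy
  constructor
  · intro h1
    exact (one_lt_inv₀ (zero_lt_iff.mpr h0)).mpr h1
  · intro h1
    exact (one_lt_inv₀ (zero_lt_iff.mpr h0)).mp h1

/-- non-units correspond under `V = V' ∩ F`. -/
theorem mrkl_nonunits_iff (ι : F →+* F') {V : ValuationSubring F} {V' : ValuationSubring F'}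
    (h : ∀ x : F, x ∈ V ↔ ι x ∈ V') (x : F) : x ∈ V.nonunits ↔ ι x ∈ V'.nonunits := by
  rcases eq_or_ne x 0 with rfl | hx
  · rw [map_zero]
    exact ⟨fun _ => V'.mem_nonunits_iff.mpr (by rw [map_zero]; exact zero_lt_one),
      fun _ => V.mem_nonunits_iff.mpr (by rw [map_zero]; exact zero_lt_one)⟩
  have hx' : ι x ≠ 0 := (_root_.map_ne_zero ι).mpr hx
  rw [mrkl_mem_nonunits_iff_inv V hx, mrkl_mem_nonunits_iff_inv V' hx', h, map_inv₀]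

/-- an element of `W` which is not in `𝔪_W` has valuation one. -/
theorem mrkl_val_eq_one {K : Type*} [Field K] (W : ValuationSubring K) {y : K} (hy : y ∈ W)
    (hy' : y ∉ W.nonunits) : W.valuation y = 1 :=
  le_antisymm ((W.valuation_le_one_iff y).mpr hy)
    (not_lt.mp fun h => hy' (W.mem_nonunits_iff.mpr h))

/-- `𝔪_W` is an ideal of `W`. -/
theorem mrkl_mul_mem_nonunits {K : Type*} [Field K] (W : ValuationSubring K) {a b : K}
    (ha : a ∈ W) (hb : b ∈ W.nonunits) : a * b ∈ W.nonunits := by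
  rw [W.mem_nonunits_iff] at hb ⊢
  rw [map_mul]
  calc W.valuation a * W.valuation b ≤ 1 * W.valuation b :=
        mul_le_mul' ((W.valuation_le_one_iff a).mpr ha) le_rfl
    _ = W.valuation b := one_mul _
    _ < 1 := hb

end Val


/-! ### the two levels -/

section Levels

variable {A : Type*} [CommRing A] [IsDomain A] [IsDiscreteValuationRing A] [CharZero A]
variable {L : Type*} [Field L] [Algebra A L] [IsFractionRing A L]
variable {F : Type u} [Field F] [Algebra A F] [Algebra L F] [IsScalarTower A L F]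
variable {F' : Type u'} [Field F'] [Algebra A F'] [Algebra L F'] [IsScalarTower A L F']

/-- **the hypotheses on the two levels** : `ι : F → F'` over `A`, `V_j = V_j' ∩ F`, the package
`SsgaTwo` upstairs with `ϖ` a uniformiser of both `V_j'`, and the two separators downstairs
(`Y - J^p ∈ 𝔭₁ ∖ 𝔭₂`, `Y^p - J ∈ 𝔭₂ ∖ 𝔭₁`). -/
structure MrklLevels (ι : F →+* F') (ϖ : A) (t : F) (V₁ V₂ : ValuationSubring F)
    (V₁' V₂' : ValuationSubring F') : Prop where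
  compat : ∀ a : A, ι (algebraMap A F a) = algebraMap A F' a
  comap₁ : ∀ x : F, x ∈ V₁ ↔ ι x ∈ V₁'
  comap₂ : ∀ x : F, x ∈ V₂ ↔ ι x ∈ V₂'
  two' : SsgaTwo ϖ (ι t) V₁' V₂'
  unif₁' : S18IsUnif V₁' (algebraMap A F' ϖ)
  unif₂' : S18IsUnif V₂' (algebraMap A F' ϖ)
  sep₁ : ∃ x ∈ s18tInt A t, x ∈ V₁.nonunits ∧ x ∉ V₂.nonunits
  sep₂ : ∃ x ∈ s18tInt A t, x ∈ V₂.nonunits ∧ x ∉ V₁.nonunits

variable {ι : F →+* F'} {ϖ : A} {t : F} {V₁ V₂ : ValuationSubring F}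
  {V₁' V₂' : ValuationSubring F'}

namespace MrklLevels

theorem symm (lev : MrklLevels ι ϖ t V₁ V₂ V₁' V₂') : MrklLevels ι ϖ t V₂ V₁ V₂' V₁' where
  compat := lev.compat
  comap₁ := lev.comap₂
  comap₂ := lev.comap₁
  two' := ⟨lev.two'.le₂, lev.two'.le₁, lev.two'.unif₂, lev.two'.unif₁,
    fun x hx h2 h1 => lev.two'.sat x hx h1 h2⟩
  unif₁' := lev.unif₂'
  unif₂' := lev.unif₁'
  sep₁ := lev.sep₂
  sep₂ := lev.sep₁

/-- `ι` maps the chart ring `P` into `P'`. -/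
theorem map_int (lev : MrklLevels ι ϖ t V₁ V₂ V₁' V₂') {x : F} (hx : x ∈ s18tInt A t) :
    ι x ∈ s18tInt A (ι t) :=
  ssgq_map_mem_int ι lev.compat t (ι t) (s18tc_self_mem_int _) hx

theorem le₁ (lev : MrklLevels ι ϖ t V₁ V₂ V₁' V₂') : ∀ x ∈ s18tInt A t, x ∈ V₁ :=
  fun x hx => (lev.comap₁ x).mpr (lev.two'.le₁ _ (lev.map_int hx))

theorem le₂ (lev : MrklLevels ι ϖ t V₁ V₂ V₁' V₂') : ∀ x ∈ s18tInt A t, x ∈ V₂ :=
  fun x hx => (lev.comap₂ x).mpr (lev.two'.le₂ _ (lev.map_int hx))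

theorem nu₁ (lev : MrklLevels ι ϖ t V₁ V₂ V₁' V₂') (x : F) :
    x ∈ V₁.nonunits ↔ ι x ∈ V₁'.nonunits := mrkl_nonunits_iff ι lev.comap₁ x

theorem nu₂ (lev : MrklLevels ι ϖ t V₁ V₂ V₁' V₂') (x : F) :
    x ∈ V₂.nonunits ↔ ι x ∈ V₂'.nonunits := mrkl_nonunits_iff ι lev.comap₂ x

/-- `ϖ ∈ 𝔪_{V₁}` downstairs. -/
theorem pi₁ (lev : MrklLevels ι ϖ t V₁ V₂ V₁' V₂') : algebraMap A F ϖ ∈ V₁.nonunits := by
  rw [lev.nu₁, lev.compat]
  exact lev.two'.unif₁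

theorem pi₂ (lev : MrklLevels ι ϖ t V₁ V₂ V₁' V₂') : algebraMap A F ϖ ∈ V₂.nonunits :=
  lev.symm.pi₁

end MrklLevels

/-- the ring homomorphism `P → P'`. -/
def mrklMap (lev : MrklLevels ι ϖ t V₁ V₂ V₁' V₂') : ↥(s18tInt A t) →+* ↥(s18tInt A (ι t)) :=
  (ι.comp (s18tInt A t).subtype).codRestrict (s18tInt A (ι t)) (fun x => lev.map_int x.2)

@[simp]
theorem mrklMap_coe (lev : MrklLevels ι ϖ t V₁ V₂ V₁' V₂') (x : ↥(s18tInt A t)) :
    ((mrklMap lev x : ↥(s18tInt A (ι t))) : F') = ι (x : F) := rfl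

theorem mrklMap_symm (lev : MrklLevels ι ϖ t V₁ V₂ V₁' V₂') : mrklMap lev.symm = mrklMap lev := rfl

end Levels


/-! ### a node of thickness one : the three facts -/

section Node

variable {A : Type*} [CommRing A] [IsDomain A] [IsDiscreteValuationRing A] [CharZero A]
variable {L : Type*} [Field L] [Algebra A L] [IsFractionRing A L]
variable {F : Type u} [Field F] [Algebra A F] [Algebra L F] [IsScalarTower A L F]
variable {ϖ : A} {t : F} {V₁ V₂ : ValuationSubring F}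
variable {𝔫 : Ideal ↥(s18tInt A t)} [h𝔫 : 𝔫.IsPrime]

/-- at a node `r ϖ = u w m` of thickness one, `w` is a unit of `V₁`. -/
theorem mrkl_node_w_unit (two : SsgaTwo ϖ t V₁ V₂) (hon₁ : SqgaOn t 𝔫 V₁)
    (hπ0 : algebraMap A F ϖ ≠ 0) {u w r m : ↥(s18tInt A t)}
    (hu : (u : F) ∈ V₁.nonunits) (hw : (w : F) ∈ V₂.nonunits) (hr : r ∉ 𝔫)
    (hrel : (r : F) * algebraMap A F ϖ = (u : F) * (w : F) * (m : F)) :
    (w : F) ∉ V₁.nonunits := by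
  intro hw₁
  obtain ⟨y, hy, hwy⟩ := two.sat _ w.2 hw₁ hw
  apply hr
  apply hon₁ r
  have e : (r : F) = (u : F) * (y * (m : F)) := by
    have h1 : algebraMap A F ϖ * (r : F) = algebraMap A F ϖ * ((u : F) * (y * (m : F))) := by
      rw [mul_comm, hrel, hwy]; ring
    exact mul_left_cancel₀ hπ0 h1
  rw [e, mul_comm]
  exact mrkl_mul_mem_nonunits V₁ (V₁.mul_mem _ _ (two.le₁ _ hy) (two.le₁ _ m.2)) hu

/-- at a node `r ϖ = u w m` of thickness one, `V₁(u) = V₁(ϖ)`. -/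
theorem mrkl_node_val (two : SsgaTwo ϖ t V₁ V₂) (hon₁ : SqgaOn t 𝔫 V₁)
    (unif₁ : S18IsUnif V₁ (algebraMap A F ϖ))
    (hπ0 : algebraMap A F ϖ ≠ 0) {u w r m : ↥(s18tInt A t)}
    (hu : (u : F) ∈ V₁.nonunits) (hw : (w : F) ∈ V₂.nonunits) (hr : r ∉ 𝔫)
    (hrel : (r : F) * algebraMap A F ϖ = (u : F) * (w : F) * (m : F)) :
    V₁.valuation (u : F) = V₁.valuation (algebraMap A F ϖ) := by
  have hw1 : V₁.valuation (w : F) = 1 :=
    mrkl_val_eq_one V₁ (two.le₁ _ w.2) (mrkl_node_w_unit two hon₁ hπ0 hu hw hr hrel)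
  have hr1 : V₁.valuation (r : F) = 1 :=
    mrkl_val_eq_one V₁ (two.le₁ _ r.2) (fun h => hr (hon₁ r h))
  have hm1 : V₁.valuation (m : F) ≤ 1 := (V₁.valuation_le_one_iff _).mpr (two.le₁ _ m.2)
  have hv := congrArg V₁.valuation hrel
  rw [map_mul, map_mul, map_mul, hr1, hw1, one_mul, mul_one] at hv
  refine le_antisymm (unif₁.2 _ (V₁.mem_nonunits_iff.mp hu)) ?_
  rw [hv]
  calc V₁.valuation (u : F) * V₁.valuation (m : F) ≤ V₁.valuation (u : F) * 1 :=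
        mul_le_mul' le_rfl hm1
    _ = V₁.valuation (u : F) := mul_one _

/-- at a node `r ϖ = u w m` of thickness one, `P_𝔫 ∩ 𝔪_{V₁} = u P_𝔫`. -/
theorem mrkl_node_prin (two : SsgaTwo ϖ t V₁ V₂) (hon₁ : SqgaOn t 𝔫 V₁)
    (hπ0 : algebraMap A F ϖ ≠ 0) {u w r m : ↥(s18tInt A t)}
    (hu : (u : F) ∈ V₁.nonunits) (hw : (w : F) ∈ V₂.nonunits) (hr : r ∉ 𝔫)
    (hrel : (r : F) * algebraMap A F ϖ = (u : F) * (w : F) * (m : F)) :
    ∀ x ∈ ssLocRing t 𝔫, x ∈ V₁.nonunits → ∃ y ∈ ssLocRing t 𝔫, x = (u : F) * y := by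
  intro x hx hx₁
  obtain ⟨s, hs, hsx⟩ := hx
  have hw0 : (w : F) ≠ 0 := by
    intro h0
    apply mrkl_node_w_unit two hon₁ hπ0 hu hw hr hrel
    rw [h0, V₁.mem_nonunits_iff, map_zero]
    exact zero_lt_one
  have hs0 : (s : F) ≠ 0 := fun h => hs (by
    have : s = 0 := Subtype.ext h
    rw [this]; exact 𝔫.zero_mem)
  have hr0 : (r : F) ≠ 0 := fun h => hr (by
    have : r = 0 := Subtype.ext h
    rw [this]; exact 𝔫.zero_mem)
  -- `a = s x ∈ P ∩ 𝔪_{V₁}`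
  have ha₁ : (s : F) * x ∈ V₁.nonunits := mrkl_mul_mem_nonunits V₁ (two.le₁ _ s.2) hx₁
  have haw₁ : (s : F) * x * (w : F) ∈ V₁.nonunits := by
    rw [mul_comm]
    exact mrkl_mul_mem_nonunits V₁ (two.le₁ _ w.2) ha₁
  have haw₂ : (s : F) * x * (w : F) ∈ V₂.nonunits :=
    mrkl_mul_mem_nonunits V₂ (two.le₂ _ hsx) hw
  obtain ⟨z, hz, hawz⟩ := two.sat _ (Subring.mul_mem _ hsx w.2) haw₁ haw₂
  -- `r s x = u m z`
  have key : (r : F) * ((s : F) * x) = (u : F) * ((m : F) * z) := by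
    have h1 : (w : F) * ((r : F) * ((s : F) * x)) = (w : F) * ((u : F) * ((m : F) * z)) := by
      calc (w : F) * ((r : F) * ((s : F) * x)) = (r : F) * ((s : F) * x * (w : F)) := by ring
        _ = (r : F) * algebraMap A F ϖ * z := by rw [hawz]; ring
        _ = (w : F) * ((u : F) * ((m : F) * z)) := by rw [hrel]; ring
    exact mul_left_cancel₀ hw0 h1
  refine ⟨((r * s : ↥(s18tInt A t)) : F)⁻¹ * ((m : F) * z), ?_, ?_⟩
  · refine Subring.mul_mem _ ?_ (ssl_int_le_locRing t 𝔫 (Subring.mul_mem _ m.2 hz))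
    refine ⟨r * s, fun h => (h𝔫.mem_or_mem h).elim hr hs, ?_⟩
    rw [mul_inv_cancel₀ (by push_cast; exact mul_ne_zero hr0 hs0)]
    exact Subring.one_mem _
  · push_cast
    field_simp
    linear_combination key

end Node


/-! ### (A) : non-deepness downstairs from a node of thickness one upstairs -/

section NonDeep

variable {A : Type*} [CommRing A] [IsDomain A] [IsDiscreteValuationRing A] [CharZero A]
variable {L : Type*} [Field L] [Algebra A L] [IsFractionRing A L]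
variable {F : Type u} [Field F] [Algebra A F] [Algebra L F] [IsScalarTower A L F]
variable {F' : Type u'} [Field F'] [Algebra A F'] [Algebra L F'] [IsScalarTower A L F']
variable {ι : F →+* F'} {ϖ : A} {t : F} {V₁ V₂ : ValuationSubring F}
  {V₁' V₂' : ValuationSubring F'}

/-- the inverse of an element of `P ∖ 𝔫` lies in `P_𝔫`. -/
theorem mrkl_inv_mem {𝔫 : Ideal ↥(s18tInt A t)} [h𝔫 : 𝔫.IsPrime] {s : ↥(s18tInt A t)}
    (hs : s ∉ 𝔫) : (s : F) ≠ 0 ∧ (s : F)⁻¹ ∈ ssLocRing t 𝔫 := by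
  have hs0 : (s : F) ≠ 0 := fun h => hs (by
    have : s = 0 := Subtype.ext h
    rw [this]; exact 𝔫.zero_mem)
  exact ⟨hs0, s, hs, by rw [mul_inv_cancel₀ hs0]; exact Subring.one_mem _⟩

/-- a local generator `w` of `𝔫` modulo `𝔭₁` is a unit of `V₁` (`𝔫 ⊄ 𝔭₁` by the separator). -/
theorem mrkl_gen_unit (lev : MrklLevels ι ϖ t V₁ V₂ V₁' V₂')
    {𝔫 : Ideal ↥(s18tInt A t)} [h𝔫 : 𝔫.IsPrime]
    (hon₁ : SqgaOn t 𝔫 V₁) (hon₂ : SqgaOn t 𝔫 V₂) {w : F} (hw : SsnfInLoc t 𝔫 w)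
    (hGw : SsgaGen t 𝔫 V₁ w) : w ≠ 0 ∧ w⁻¹ ∈ V₁ := by
  obtain ⟨x₂, hx₂P, hx₂₂, hx₂₁⟩ := lev.sep₂
  have hx₂𝔫 : (⟨x₂, hx₂P⟩ : ↥(s18tInt A t)) ∈ 𝔫 := hon₂ ⟨x₂, hx₂P⟩ hx₂₂
  obtain ⟨s, hs, c, hsc⟩ := hGw ⟨x₂, hx₂P⟩ hx₂𝔫
  have hwV : w ∈ V₁ := ssgmp_inLoc_mem V₁ lev.le₁ hon₁ hw
  have hwnu : w ∉ V₁.nonunits := by
    intro hwnu
    apply hx₂₁
    have h1 : (c : F) * w ∈ V₁.nonunits := mrkl_mul_mem_nonunits V₁ (lev.le₁ _ c.2) hwnu
    have h2 : (s : F) * x₂ ∈ V₁.nonunits := by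
      have := ssgr_nu_add V₁ hsc h1
      rwa [sub_add_cancel] at this
    have hs1 : V₁.valuation (s : F) = 1 :=
      mrkl_val_eq_one V₁ (lev.le₁ _ s.2) (fun h => hs (hon₁ s h))
    rw [V₁.mem_nonunits_iff, map_mul, hs1, one_mul] at h2
    exact V₁.mem_nonunits_iff.mpr h2
  have hw1 : V₁.valuation w = 1 := mrkl_val_eq_one V₁ hwV hwnu
  have hw0 : w ≠ 0 := by
    intro h0
    rw [h0, map_zero] at hw1
    exact zero_ne_one hw1
  refine ⟨hw0, ?_⟩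
  rw [← V₁.valuation_le_one_iff, map_inv₀, hw1, inv_one]

set_option maxHeartbeats 1000000 in
/-- **(A) NON-DEEP** : if the prime `𝔫'` of `P'` over `𝔫` lies on both components and is a node of
thickness one (`SqgaNode`), there is `n₀` such that no tuple `(u, w, κ, ρ)` of main's
`SsGermCrossPlus ϖ t G 𝔫 V₁ V₂` at a precision `n ≥ n₀` has `ϖ^{n₀} ∣ κ`. -/
theorem mrkl_nondeep_at (lev : MrklLevels ι ϖ t V₁ V₂ V₁' V₂') (hϖ : Irreducible ϖ)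
    (ht' : Transcendental L (ι t)) [FiniteDimensional L⟮ι t⟯ F']
    (𝔫 : Ideal ↥(s18tInt A t)) [h𝔫 : 𝔫.IsPrime]
    (𝔫' : Ideal ↥(s18tInt A (ι t))) [h𝔫' : 𝔫'.IsPrime]
    (hover : ∀ x : ↥(s18tInt A t), x ∈ 𝔫 ↔ mrklMap lev x ∈ 𝔫')
    (hon₁ : SqgaOn t 𝔫 V₁) (hon₂ : SqgaOn t 𝔫 V₂)
    (hon₁' : SqgaOn (ι t) 𝔫' V₁') (hon₂' : SqgaOn (ι t) 𝔫' V₂')
    (node : SqgaNode ϖ (ι t) V₁' V₂' 𝔫') :
    ∃ n₀ : ℕ, ∀ n : ℕ, n₀ ≤ n → ∀ (u w : F) (κ : A) (ρ : F),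
      SsnfInLoc t 𝔫 u → SsnfInLoc t 𝔫 w → SsgaGen t 𝔫 V₂ u → SsgaGen t 𝔫 V₁ w →
      SsnfInLoc t 𝔫 ρ → u * w = algebraMap A F κ + algebraMap A F ϖ ^ n * ρ → ¬ ϖ ^ n₀ ∣ κ := by
  obtain ⟨u', w', r, m, hu', hw', hr, hrel⟩ := node
  have hπ0' : algebraMap A F' ϖ ≠ 0 := sqga_pi_ne_zero (F := F') L hϖ
  have hOO' : (ssLocRing t 𝔫).map ι ≤ ssLocRing (ι t) 𝔫' := by
    rintro _ ⟨x, ⟨s, hs, hsx⟩, rfl⟩
    refine ⟨mrklMap lev s, fun h => hs ((hover s).mpr h), ?_⟩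
    rw [mrklMap_coe, ← map_mul]
    exact lev.map_int hsx
  have hO'₁ : ∀ x ∈ ssLocRing (ι t) 𝔫', x ∈ V₁' :=
    fun x hx => ssgmp_inLoc_mem V₁' lev.two'.le₁ hon₁' hx
  have hO'₂ : ∀ x ∈ ssLocRing (ι t) 𝔫', x ∈ V₂' :=
    fun x hx => ssgmp_inLoc_mem V₂' lev.two'.le₂ hon₂' hx
  have hprin₁ := mrkl_node_prin lev.two' hon₁' hπ0' hu' hw' hr hrel
  have hrel' : (r : F') * algebraMap A F' ϖ = (w' : F') * (u' : F') * (m : F') := by
    rw [hrel]; ring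
  have hprin₂ := mrkl_node_prin lev.two'.symm hon₂' hπ0' hw' hu' hr hrel'
  have hval := mrkl_node_val lev.two' hon₁' lev.unif₁' hπ0' hu' hw' hr hrel
  haveI := ssl_locRing_isNoetherianRing (L := L) (ι t) ht' 𝔫'
  have hu'O' : (u' : F') ∈ ssLocRing (ι t) 𝔫' := ssl_int_le_locRing _ _ u'.2
  have hw'O' : (w' : F') ∈ ssLocRing (ι t) 𝔫' := ssl_int_le_locRing _ _ w'.2
  have hu'max : (⟨(u' : F'), hu'O'⟩ : ↥(ssLocRing (ι t) 𝔫')) ∈
      maximalIdeal ↥(ssLocRing (ι t) 𝔫') := by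
    rw [ssl_mem_maximalIdeal]
    exact ⟨1, fun h => h𝔫'.ne_top ((Ideal.eq_top_iff_one _).mpr h), u', hon₁' u' hu', by
      rw [OneMemClass.coe_one, one_mul]⟩
  have hkrull := mrxa_krull (ssLocRing (ι t) 𝔫') (u' : F') (w' : F') hu'O' hw'O' hu'max
  obtain ⟨x₁, hx₁P, hx₁₁, hx₁₂⟩ := lev.sep₁
  have hx₁𝔫 : (⟨x₁, hx₁P⟩ : ↥(s18tInt A t)) ∈ 𝔫 := hon₁ ⟨x₁, hx₁P⟩ hx₁₁
  have hx₁O : ι x₁ ∈ (ssLocRing t 𝔫).map ι := ⟨x₁, ssl_int_le_locRing t 𝔫 hx₁P, rfl⟩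
  obtain ⟨n₀, hn₀⟩ := mrxa_term ((ssLocRing t 𝔫).map ι) (ssLocRing (ι t) 𝔫') hOO' V₁' V₂'
    hO'₁ hO'₂ (algebraMap A F' ϖ) (u' : F') (w' : F') hπ0' lev.two'.unif₁ hw' hprin₁ hval hkrull
    (ι x₁) hx₁O (fun h => hx₁₂ ((lev.nu₂ x₁).mpr h))
  refine ⟨n₀, ?_⟩
  intro n hn u w κ ρ hu hw hGu hGw hρ huw hdvd
  obtain ⟨c, hc⟩ := hdvd
  obtain ⟨hw0, hwinv⟩ := mrkl_gen_unit lev hon₁ hon₂ hw hGw
  -- the generation hypothesis
  obtain ⟨s, hs, c', hsc⟩ := hGu ⟨x₁, hx₁P⟩ hx₁𝔫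
  obtain ⟨hs0, hsinv⟩ := mrkl_inv_mem hs
  have hgen : ∃ a ∈ ssLocRing (ι t) 𝔫', ∃ b ∈ ssLocRing (ι t) 𝔫',
      ι x₁ = ι u * a + (w' : F') * b := by
    refine mrxa_gen_of_sub ((ssLocRing t 𝔫).map ι) (ssLocRing (ι t) 𝔫') hOO' V₂' (w' : F') hprin₂
      (ι x₁) (ι u) (ι (s : F)) (ι (c' : F)) hx₁O ⟨u, hu, rfl⟩
      ⟨(s : F), ssl_int_le_locRing t 𝔫 s.2, rfl⟩ ((_root_.map_ne_zero ι).mpr hs0)
      ⟨(s : F)⁻¹, hsinv, map_inv₀ ι _⟩ ⟨(c' : F), ssl_int_le_locRing t 𝔫 c'.2, rfl⟩ ?_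
    rw [← map_mul, ← map_mul, ← map_sub]
    exact (lev.nu₂ _).mp hsc
  -- the deep equation
  have hg : algebraMap A F c + algebraMap A F ϖ ^ (n - n₀) * ρ ∈ ssLocRing t 𝔫 :=
    Subring.add_mem _ (ssl_int_le_locRing t 𝔫 (s18tc_algebraMap_mem_int t c))
      (Subring.mul_mem _ (Subring.pow_mem _
        (ssl_int_le_locRing t 𝔫 (s18tc_algebraMap_mem_int t ϖ)) _) hρ)
  have hdeep : u * w = algebraMap A F ϖ ^ n₀ *
      (algebraMap A F c + algebraMap A F ϖ ^ (n - n₀) * ρ) := by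
    rw [huw, hc, map_mul, map_pow, mul_add, ← mul_assoc, ← pow_add, Nat.add_sub_cancel' hn]
  refine hn₀ (ι u) (ι w) (ι (algebraMap A F c + algebraMap A F ϖ ^ (n - n₀) * ρ))
    ⟨u, hu, rfl⟩ ⟨w, hw, rfl⟩ ⟨_, hg, rfl⟩ ((_root_.map_ne_zero ι).mpr hw0) ?_ hgen ?_
  · rw [← map_inv₀]
    exact (lev.comap₁ _).mp hwinv
  · rw [← map_mul, hdeep, map_mul, map_pow, lev.compat]

end NonDeep


/-! ### (B) : a prime upstairs on both components -/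

section Over

variable {A : Type*} [CommRing A] [IsDomain A] [IsDiscreteValuationRing A] [CharZero A]
variable {L : Type*} [Field L] [Algebra A L] [IsFractionRing A L]
variable {F : Type u} [Field F] [Algebra A F] [Algebra L F] [IsScalarTower A L F]
variable {F' : Type u'} [Field F'] [Algebra A F'] [Algebra L F'] [IsScalarTower A L F']
variable {ι : F →+* F'} {ϖ : A} {t : F} {V₁ V₂ : ValuationSubring F}
  {V₁' V₂' : ValuationSubring F'}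

/-- the chart ring `P = s18tInt A t` is integrally closed. -/
theorem mrkl_int_isIntegrallyClosed (t : F) (ht : Transcendental L t) [FiniteDimensional L⟮t⟯ F] :
    IsIntegrallyClosed ↥(s18tInt A t) := by
  letI : Algebra ↥(s18tChart A t) ↥L⟮t⟯ := (s18tlgChartToK0 L t).toAlgebra
  haveI : IsScalarTower ↥(s18tChart A t) ↥L⟮t⟯ F := IsScalarTower.of_algebraMap_eq (fun _ => rfl)
  haveI : IsFractionRing ↥(s18tChart A t) ↥L⟮t⟯ := s18tlg_isFractionRing ht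
  haveI : IsIntegrallyClosed ↥(integralClosure ↥(s18tChart A t) F) :=
    integralClosure.isIntegrallyClosedOfFiniteExtension ↥L⟮t⟯
  let e : ↥(integralClosure ↥(s18tChart A t) F) ≃+* ↥(s18tInt A t) :=
    { toFun := fun x => ⟨x.1, x.2⟩
      invFun := fun x => ⟨x.1, x.2⟩
      left_inv := fun x => rfl
      right_inv := fun x => rfl
      map_mul' := fun x y => rfl
      map_add' := fun x y => rfl }
  exact IsIntegrallyClosed.of_equiv e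

theorem mrklMap_injective (lev : MrklLevels ι ϖ t V₁ V₂ V₁' V₂') :
    Function.Injective (mrklMap lev) := by
  intro x y hxy
  apply Subtype.ext
  apply ι.injective
  exact congrArg (fun z : ↥(s18tInt A (ι t)) => (z : F')) hxy

/-- `P'` is integral over `P`. -/
theorem mrklMap_isIntegral (lev : MrklLevels ι ϖ t V₁ V₂ V₁' V₂') (y : ↥(s18tInt A (ι t))) :
    (mrklMap lev).IsIntegralElem y := by
  obtain ⟨q, hq, hqy⟩ := grdfb_isIntegralElem_of_mem_int (ι t) (y : F') y.2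
  let φ : A[X] →+* ↥(s18tInt A t) :=
    (((aeval t : A[X] →ₐ[A] F) : A[X] →+* F)).codRestrict (s18tInt A t)
      (fun a => s18tc_chart_le_int t (s18tb_aeval_mem_chart t a))
  have hcomp : (s18tInt A (ι t)).subtype.comp ((mrklMap lev).comp φ) =
      ((aeval (ι t) : A[X] →ₐ[A] F') : A[X] →+* F') := by
    apply Polynomial.ringHom_ext
    · intro a
      show ι (aeval t (C a)) = aeval (ι t) (C a)
      rw [aeval_C, aeval_C, lev.compat]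
    · show ι (aeval t (X : A[X])) = aeval (ι t) (X : A[X])
      rw [aeval_X, aeval_X]
  refine ⟨q.map φ, hq.map φ, ?_⟩
  apply Subtype.ext
  rw [eval₂_map]
  have h1 : (((eval₂ ((mrklMap lev).comp φ) y q : ↥(s18tInt A (ι t))) : F')) =
      eval₂ ((s18tInt A (ι t)).subtype.comp ((mrklMap lev).comp φ)) (y : F') q :=
    Polynomial.hom_eval₂ q ((mrklMap lev).comp φ) (s18tInt A (ι t)).subtype y
  rw [h1, hcomp, hqy]
  rfl

set_option maxHeartbeats 1000000 in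
/-- **(B)** : over a prime `𝔫` of `P` lying on both components there is a prime `𝔫'` of `P'` lying
on both components. -/
theorem mrkl_exists_over (lev : MrklLevels ι ϖ t V₁ V₂ V₁' V₂')
    (ht : Transcendental L t) [FiniteDimensional L⟮t⟯ F]
    (𝔫 : Ideal ↥(s18tInt A t)) [h𝔫 : 𝔫.IsPrime]
    (hon₁ : SqgaOn t 𝔫 V₁) (hon₂ : SqgaOn t 𝔫 V₂) :
    ∃ 𝔫' : Ideal ↥(s18tInt A (ι t)), 𝔫'.IsPrime ∧
      (∀ x : ↥(s18tInt A t), x ∈ 𝔫 ↔ mrklMap lev x ∈ 𝔫') ∧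
      SqgaOn (ι t) 𝔫' V₁' ∧ SqgaOn (ι t) 𝔫' V₂' := by
  letI : Algebra ↥(s18tInt A t) ↥(s18tInt A (ι t)) := (mrklMap lev).toAlgebra
  haveI : IsIntegrallyClosed ↥(s18tInt A t) := mrkl_int_isIntegrallyClosed (L := L) t ht
  haveI : Algebra.IsIntegral ↥(s18tInt A t) ↥(s18tInt A (ι t)) := ⟨mrklMap_isIntegral lev⟩
  haveI : FaithfulSMul ↥(s18tInt A t) ↥(s18tInt A (ι t)) :=
    (faithfulSMul_iff_algebraMap_injective _ _).mpr (mrklMap_injective lev)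
  obtain ⟨𝔫', h𝔫', hcomap⟩ := Ideal.exists_ideal_over_prime_of_isIntegral_of_isDomain
    (S := ↥(s18tInt A (ι t))) 𝔫 (by
      show RingHom.ker (mrklMap lev) ≤ 𝔫
      rw [(RingHom.injective_iff_ker_eq_bot _).mp (mrklMap_injective lev)]
      exact bot_le)
  haveI := h𝔫'
  haveI : 𝔫'.LiesOver 𝔫 := ⟨hcomap.symm⟩
  have hover : ∀ x : ↥(s18tInt A t), x ∈ 𝔫 ↔ mrklMap lev x ∈ 𝔫' := by
    intro x
    rw [← hcomap]
    rfl
  -- the key : a prime `𝔮 ≤ 𝔫'` over `𝔭_j` contains `𝔭_j'`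
  have key : ∀ {W₁ W₂ : ValuationSubring F} {W₁' W₂' : ValuationSubring F'}
      (lev' : MrklLevels ι ϖ t W₁ W₂ W₁' W₂'), mrklMap lev' = mrklMap lev →
      SqgaOn t 𝔫 W₁ → SqgaOn (ι t) 𝔫' W₁' := by
    intro W₁ W₂ W₁' W₂' lev' hmap hon y hy
    haveI hp : (ssgrIdeal (s18tInt A t) W₁ lev'.le₁).IsPrime := sqga_ideal_isPrime W₁ lev'.le₁
    have hle : ssgrIdeal (s18tInt A t) W₁ lev'.le₁ ≤ 𝔫 := fun x hx => hon x hx
    obtain ⟨𝔮, h𝔮le, h𝔮, h𝔮over⟩ := Ideal.exists_ideal_le_liesOver_of_le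
      (p := ssgrIdeal (s18tInt A t) W₁ lev'.le₁) (q := 𝔫) 𝔫' hle
    haveI := h𝔮
    have hmem : ∀ x : ↥(s18tInt A t), (x : F) ∈ W₁.nonunits ↔ mrklMap lev x ∈ 𝔮 := by
      intro x
      have h1 := h𝔮over.over
      have h2 : x ∈ ssgrIdeal (s18tInt A t) W₁ lev'.le₁ ↔ x ∈ 𝔮.under ↥(s18tInt A t) := by
        rw [← h1]
      exact h2
    apply h𝔮le
    obtain ⟨x₂, hx₂P, hx₂₂, hx₂₁⟩ := lev'.sep₂
    have h1 : (y : F') * ι x₂ ∈ W₁'.nonunits := by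
      rw [mul_comm]
      exact mrkl_mul_mem_nonunits W₁' (lev'.two'.le₁ _ (lev'.map_int hx₂P)) hy
    have h2 : (y : F') * ι x₂ ∈ W₂'.nonunits :=
      mrkl_mul_mem_nonunits W₂' (lev'.two'.le₂ _ y.2) ((lev'.nu₂ x₂).mp hx₂₂)
    obtain ⟨z, hz, hyz⟩ := lev'.two'.sat _ (Subring.mul_mem _ y.2 (lev'.map_int hx₂P)) h1 h2
    have hπ𝔮 : mrklMap lev (sskPi ϖ t) ∈ 𝔮 := (hmem _).mp lev'.pi₁
    have hprod : y * mrklMap lev ⟨x₂, hx₂P⟩ ∈ 𝔮 := by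
      have e : y * mrklMap lev ⟨x₂, hx₂P⟩ = mrklMap lev (sskPi ϖ t) * ⟨z, hz⟩ := by
        apply Subtype.ext
        show (y : F') * ι x₂ = ι (algebraMap A F ϖ) * z
        rw [hyz, lev.compat]
      rw [e]
      exact 𝔮.mul_mem_right _ hπ𝔮
    rcases h𝔮.mem_or_mem hprod with h | h
    · exact h
    · exact absurd ((hmem ⟨x₂, hx₂P⟩).mpr h) hx₂₁
  exact ⟨𝔫', h𝔫', hover, key lev rfl hon₁, key lev.symm (mrklMap_symm lev) hon₂⟩

end Over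


/-! ### (A) + (B), and the exact coordinates -/

section Main

variable {A : Type*} [CommRing A] [IsDomain A] [IsDiscreteValuationRing A] [CharZero A]
variable {L : Type*} [Field L] [Algebra A L] [IsFractionRing A L]
variable {F : Type u} [Field F] [Algebra A F] [Algebra L F] [IsScalarTower A L F]
variable {F' : Type u'} [Field F'] [Algebra A F'] [Algebra L F'] [IsScalarTower A L F']
variable {ι : F →+* F'} {ϖ : A} {t : F} {V₁ V₂ : ValuationSubring F}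
  {V₁' V₂' : ValuationSubring F'}

/-- the conclusion of (TERM') at a prime `𝔫` : there is `n₀` such that no tuple of
`SsGermCrossPlus ϖ t G 𝔫 V₁ V₂` at a precision `n ≥ n₀` has `ϖ^{n₀} ∣ κ`. -/
def MrklNonDeep (ϖ : A) (t : F) (𝔫 : Ideal ↥(s18tInt A t)) (V₁ V₂ : ValuationSubring F) : Prop :=
  ∃ n₀ : ℕ, ∀ n : ℕ, n₀ ≤ n → ∀ (u w : F) (κ : A) (ρ : F),
    SsnfInLoc t 𝔫 u → SsnfInLoc t 𝔫 w → SsgaGen t 𝔫 V₂ u → SsgaGen t 𝔫 V₁ w →
    SsnfInLoc t 𝔫 ρ → u * w = algebraMap A F κ + algebraMap A F ϖ ^ n * ρ → ¬ ϖ ^ n₀ ∣ κ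

/-- **(A) + (B)** : if EVERY prime of `P'` lying on both components is a node of thickness one
(main's (T1), `SQ.sqct1_j`), every prime `𝔫` of `P` lying on both components is NON-DEEP. -/
theorem mrkl_nondeep (lev : MrklLevels ι ϖ t V₁ V₂ V₁' V₂') (hϖ : Irreducible ϖ)
    (ht : Transcendental L t) [FiniteDimensional L⟮t⟯ F]
    (ht' : Transcendental L (ι t)) [FiniteDimensional L⟮ι t⟯ F']
    (hT1 : ∀ 𝔫' : Ideal ↥(s18tInt A (ι t)), 𝔫'.IsPrime →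
      SqgaOn (ι t) 𝔫' V₁' → SqgaOn (ι t) 𝔫' V₂' → SqgaNode ϖ (ι t) V₁' V₂' 𝔫')
    (𝔫 : Ideal ↥(s18tInt A t)) [h𝔫 : 𝔫.IsPrime]
    (hon₁ : SqgaOn t 𝔫 V₁) (hon₂ : SqgaOn t 𝔫 V₂) : MrklNonDeep ϖ t 𝔫 V₁ V₂ := by
  obtain ⟨𝔫', h𝔫', hover, hon₁', hon₂'⟩ := mrkl_exists_over (L := L) lev ht 𝔫 hon₁ hon₂
  haveI := h𝔫'
  exact mrkl_nondeep_at (L := L) lev hϖ ht' 𝔫 𝔫' hover hon₁ hon₂ hon₁' hon₂'
    (hT1 𝔫' h𝔫' hon₁' hon₂')

/-- the same with the chart coordinate upstairs given as `t' = ι t`. -/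
theorem mrkl_nondeep' {t' : F'} (htt' : ι t = t') (lev : MrklLevels ι ϖ t V₁ V₂ V₁' V₂')
    (hϖ : Irreducible ϖ) (ht : Transcendental L t) [FiniteDimensional L⟮t⟯ F]
    (ht' : Transcendental L t') [FiniteDimensional L⟮t'⟯ F']
    (hT1 : ∀ 𝔫' : Ideal ↥(s18tInt A t'), 𝔫'.IsPrime →
      SqgaOn t' 𝔫' V₁' → SqgaOn t' 𝔫' V₂' → SqgaNode ϖ t' V₁' V₂' 𝔫')
    (𝔫 : Ideal ↥(s18tInt A t)) [h𝔫 : 𝔫.IsPrime]
    (hon₁ : SqgaOn t 𝔫 V₁) (hon₂ : SqgaOn t 𝔫 V₂) : MrklNonDeep ϖ t 𝔫 V₁ V₂ := by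
  subst htt'
  exact mrkl_nondeep (L := L) lev hϖ ht ht' hT1 𝔫 hon₁ hon₂

set_option maxHeartbeats 1000000 in
/-- **(EXACT)** : a non-deep crossing germ has EXACT coordinates `u w = κ ε`, `κ = ϖ^e c` with
`1 ≤ e`, `c ∈ Aˣ`, `ε ∈ 1 + ϖ P_𝔫`; `u, w` keep all the clauses of `SsGermCrossPlus`. -/
theorem mrkl_exact (hϖ : Irreducible ϖ) (𝔫 : Ideal ↥(s18tInt A t)) [h𝔫 : 𝔫.IsPrime]
    (hle₁ : ∀ x ∈ s18tInt A t, x ∈ V₁) (hon₁ : SqgaOn t 𝔫 V₁)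
    (hπ₁ : algebraMap A F ϖ ∈ V₁.nonunits)
    (G : Subgroup (SemilinearAut L F)) (hplus : SsGermCrossPlus ϖ t G 𝔫 V₁ V₂)
    (hnd : MrklNonDeep ϖ t 𝔫 V₁ V₂) :
    ∃ (u w ε : F) (κ c : A) (e : ℕ), IsUnit c ∧ κ = ϖ ^ e * c ∧ 1 ≤ e ∧
      SsnfInMax t 𝔫 u ∧ SsnfInMax t 𝔫 w ∧ (∀ γ ∈ G, γ • u = u) ∧ (∀ γ ∈ G, γ • w = w) ∧
      SsgaSpan3 ϖ t 𝔫 u w ∧ u ∈ V₁.nonunits ∧ w ∈ V₂.nonunits ∧
      SsgaGen t 𝔫 V₂ u ∧ SsgaGen t 𝔫 V₁ w ∧
      (∃ ρ' : F, SsnfInLoc t 𝔫 ρ' ∧ ε = 1 + algebraMap A F ϖ * ρ') ∧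
      u * w = algebraMap A F κ * ε := by
  obtain ⟨n₀, hn₀⟩ := hnd
  obtain ⟨u, w, hu, hw, hGu, hGw, hspan, ⟨κ, ρ, hρ, huw⟩, hu₁, hw₂, hgenu, hgenw⟩ :=
    hplus (n₀ + 1)
  have hnot : ¬ ϖ ^ n₀ ∣ κ := hn₀ (n₀ + 1) (Nat.le_succ _) u w κ ρ (SsInMax.inLoc hu)
    (SsInMax.inLoc hw) hgenu hgenw hρ huw
  have hκ0 : κ ≠ 0 := fun h => hnot (h ▸ dvd_zero _)
  obtain ⟨e, c, hc⟩ := IsDiscreteValuationRing.eq_unit_mul_pow_irreducible hκ0 hϖ
  have hκ : κ = ϖ ^ e * (c : A) := by rw [hc, mul_comm]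
  have he : e < n₀ := by
    by_contra hge
    push Not at hge
    apply hnot
    rw [hκ]
    exact Dvd.dvd.mul_right (pow_dvd_pow ϖ hge) _
  -- `1 ≤ e` : otherwise `κ` is a unit of `A`, but `κ = u w - ϖ^m ρ ∈ 𝔪_{V₁}`
  have hloc₁ : ∀ {x : F}, SsnfInLoc t 𝔫 x → x ∈ V₁ := fun hx => ssgmp_inLoc_mem V₁ hle₁ hon₁ hx
  have he1 : 1 ≤ e := by
    by_contra h0
    have e0 : e = 0 := by omega
    rw [e0, pow_zero, one_mul] at hκ
    have h1 : algebraMap A F κ ∈ V₁.nonunits := by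
      have h2 : algebraMap A F κ = u * w - algebraMap A F ϖ ^ (n₀ + 1) * ρ := by rw [huw]; ring
      rw [h2, sub_eq_add_neg]
      refine ssgr_nu_add V₁ ?_ (ssgr_nu_neg V₁ ?_)
      · exact ssgr_nu_mul_left V₁ hu₁ (hloc₁ (SsInMax.inLoc hw))
      · rw [pow_succ, mul_assoc]
        refine ssgr_nu_mul_right V₁ (V₁.toSubring.pow_mem
          (hle₁ _ (s18tc_algebraMap_mem_int t ϖ)) _) ?_
        exact ssgr_nu_mul_left V₁ hπ₁ (hloc₁ hρ)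
    have h3 : algebraMap A F ((c⁻¹ : Aˣ) : A) ∈ V₁ := hle₁ _ (s18tc_algebraMap_mem_int t _)
    have h4 : algebraMap A F κ * algebraMap A F ((c⁻¹ : Aˣ) : A) = 1 := by
      rw [← map_mul, hκ, Units.mul_inv, map_one]
    have h5 := ssgr_nu_mul_left V₁ h1 h3
    rw [h4, V₁.mem_nonunits_iff, map_one] at h5
    exact lt_irrefl _ h5
  have hπ0 : algebraMap A F ϖ ≠ 0 := sqga_pi_ne_zero (F := F) L hϖ
  refine ⟨u, w, 1 + algebraMap A F ϖ * (algebraMap A F ϖ ^ (n₀ - e) *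
    algebraMap A F ((c⁻¹ : Aˣ) : A) * ρ), κ, c, e, c.isUnit, hκ, he1, hu, hw, hGu, hGw, hspan,
    hu₁, hw₂, hgenu, hgenw, ⟨_, ?_, rfl⟩, ?_⟩
  · exact Subring.mul_mem (ssLocRing t 𝔫) (Subring.mul_mem _ (Subring.pow_mem _
      (ssl_int_le_locRing t 𝔫 (s18tc_algebraMap_mem_int t ϖ)) _)
      (ssl_int_le_locRing t 𝔫 (s18tc_algebraMap_mem_int t _))) hρ
  · have hcc : algebraMap A F (c : A) * algebraMap A F ((c⁻¹ : Aˣ) : A) = 1 := by
      rw [← map_mul, Units.mul_inv, map_one]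
    have hpow : algebraMap A F ϖ ^ (n₀ + 1) =
        algebraMap A F ϖ ^ e * (algebraMap A F ϖ * algebraMap A F ϖ ^ (n₀ - e)) := by
      rw [← pow_succ', ← pow_add]
      congr 1
      omega
    rw [huw, hpow, hκ, map_mul, map_pow]
    linear_combination (-(algebraMap A F ϖ ^ e * (algebraMap A F ϖ *
      algebraMap A F ϖ ^ (n₀ - e)) * ρ)) * hcc

end Main

end Fermat.Agent.MR
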