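import Mathlib
import Fermat.Agent.MR.Kron.TermLevel
import Fermat.Agent.SQ.Conc.AmbTwo
import Fermat.Agent.SQ.Conc.T1Slot

/-!
# PROGRAM MR (S44), block `mrk` : THE TWO-LEVEL DICTIONARY for (TERM'), the modular instance

Owner: helper4.  Namespace `Fermat.Agent.MR`, prefix `mrkl`.

`F = F_E(M q) ⊂ F' = F_E(M' q)` (`M ∣ M'`) inside `E((𝐪))`, `A₀ = 𝔸 ∩ E`, chart `t = j`, `V_j = h.V_j` for a
witness `h` of the two-factor package at level `M q` (`SqccAmb`), `V_j' = h'.V_j` for a witness `h'`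
at level `M' q`.
-/

set_option autoImplicit false
set_option linter.unusedSectionVars false
set_option linter.unusedVariables false
set_option linter.style.haveILetI false
set_option synthInstance.maxHeartbeats 400000

noncomputable section

namespace Fermat.Agent.MR

open Polynomial ModularCurve AlgebraicCurve IntermediateField IsLocalRing Fermat.Agent.S18
  Fermat.Agent.SS Fermat.Agent.SQ Fermat.Agent.G

local notation "Qb" => AlgebraicClosure ℚ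

universe u u'

/-! ### `MrklLevels` from the (VAL) packages `SsvTwo` of the two levels -/

section OfTwo

variable {A : Type*} [CommRing A] [IsDomain A] [IsDiscreteValuationRing A] [CharZero A]
variable {L : Type*} [Field L] [Algebra A L] [IsFractionRing A L]
variable {F : Type u} [Field F] [Algebra A F] [Algebra L F] [IsScalarTower A L F]
variable {F' : Type u'} [Field F'] [Algebra A F'] [Algebra L F'] [IsScalarTower A L F']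
variable {ϖ : A} {t u₁ u₂ : F} {V₁ V₂ : ValuationSubring F} {V₁' V₂' : ValuationSubring F'}

/-- `ι` commutes with `aeval`. -/
theorem mrkl_map_aeval (ι : F →+* F') (hι : ∀ a : A, ι (algebraMap A F a) = algebraMap A F' a)
    (t : F) (b : A[X]) : ι (aeval t b) = aeval (ι t) b := by
  have hcomp : ι.comp ((aeval t : A[X] →ₐ[A] F) : A[X] →+* F) =
      ((aeval (ι t) : A[X] →ₐ[A] F') : A[X] →+* F') := by
    apply Polynomial.ringHom_ext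
    · intro a
      show ι (aeval t (C a)) = aeval (ι t) (C a)
      rw [aeval_C, aeval_C, hι]
    · show ι (aeval t (X : A[X])) = aeval (ι t) (X : A[X])
      rw [aeval_X, aeval_X]
  exact congrArg (fun f : A[X] →+* F' => f b) hcomp

/-- the first valuation ring upstairs restricts to the first valuation ring downstairs. -/
theorem mrkl_comap_of_two (hϖ : Irreducible ϖ) (ι : F →+* F')
    (hι : ∀ a : A, ι (algebraMap A F a) = algebraMap A F' a)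
    (lo : SsvTwo hϖ t u₁ u₂ V₁ V₂) (up : SsvTwo hϖ (ι t) (ι u₁) (ι u₂) V₁' V₂') :
    ∀ x : F, x ∈ V₁ ↔ ι x ∈ V₁' := by
  have hle : s18tLoc A t (C ϖ) (s18t_prime_C hϖ) ≤ (V₁'.comap ι).toSubring := by
    rintro x ⟨a, b, hb, hx⟩
    show ι x ∈ V₁'
    have h1 : ι x ∈ s18tLoc A (ι t) (C ϖ) (s18t_prime_C hϖ) :=
      ⟨a, b, hb, by rw [← mrkl_map_aeval ι hι, ← mrkl_map_aeval ι hι, ← map_mul, hx]⟩
    exact ((up.mem_iff _).mp (s18tc_loc_le_intLoc (ι t) _ _ h1)).1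
  have hπ : algebraMap A F ϖ ∈ (V₁'.comap ι).nonunits := by
    rw [mrkl_nonunits_iff ι (V := V₁'.comap ι) (V' := V₁') (fun _ => Iff.rfl), hι]
    exact V₁'.mem_nonunits_iff.mpr up.unif₁.1
  rcases lo.cases (V₁'.comap ι) hle hπ with h | h
  · intro x
    rw [← h]
    rfl
  · exfalso
    have h1 : u₁ ∈ (V₁'.comap ι).nonunits :=
      (mrkl_nonunits_iff ι (V := V₁'.comap ι) (V' := V₁') (fun _ => Iff.rfl) u₁).mpr up.mem₁
    rw [h, V₂.mem_nonunits_iff, lo.unit₁] at h1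
    exact lt_irrefl _ h1

theorem mrkl_ssvTwo_symm {hϖ : Irreducible ϖ} (h : SsvTwo hϖ t u₁ u₂ V₁ V₂) :
    SsvTwo hϖ t u₂ u₁ V₂ V₁ where
  ne := h.ne.symm
  mem_iff := fun x => (h.mem_iff x).trans and_comm
  dvd_iff := fun x => (h.dvd_iff x).trans and_comm
  unif₁ := h.unif₂
  unif₂ := h.unif₁
  mem₁ := h.mem₂
  mem₂ := h.mem₁
  unit₁ := h.unit₂
  unit₂ := h.unit₁
  cases := fun V hV hπ => (h.cases V hV hπ).symm

/-- **`MrklLevels` from the two (VAL) packages.** -/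
theorem mrkl_levels_of_two (hϖ : Irreducible ϖ) (ι : F →+* F')
    (hι : ∀ a : A, ι (algebraMap A F a) = algebraMap A F' a)
    (ht' : Transcendental L (ι t)) [FiniteDimensional L⟮ι t⟯ F']
    (lo : SsvTwo hϖ t u₁ u₂ V₁ V₂) (up : SsvTwo hϖ (ι t) (ι u₁) (ι u₂) V₁' V₂')
    (hu₁ : u₁ ∈ s18tInt A t) (hu₂ : u₂ ∈ s18tInt A t) :
    MrklLevels ι ϖ t V₁ V₂ V₁' V₂' where
  compat := hι
  comap₁ := mrkl_comap_of_two hϖ ι hι lo up
  comap₂ := mrkl_comap_of_two hϖ ι hι (mrkl_ssvTwo_symm lo) (mrkl_ssvTwo_symm up)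
  two' := ssga_two_of_ssvTwo hϖ (ι t) ht' up
  unif₁' := up.unif₁
  unif₂' := up.unif₂
  sep₁ := ⟨u₁, hu₁, lo.mem₁, fun h => by
    rw [V₂.mem_nonunits_iff, lo.unit₁] at h
    exact lt_irrefl _ h⟩
  sep₂ := ⟨u₂, hu₂, lo.mem₂, fun h => by
    rw [V₁.mem_nonunits_iff, lo.unit₂] at h
    exact lt_irrefl _ h⟩

end OfTwo

section Incl

variable (K : Type*) [Field K] (M M' q : ℕ) [NeZero M] [NeZero M'] [NeZero q] (hMM' : M ∣ M')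

/-- the inclusion `F_K(M q) → F_K(M' q)` for `M ∣ M'`. -/
def mrklIncl : modularFunctionFieldFullC K (M * q) →ₐ[K] modularFunctionFieldFullC K (M' * q) :=
  IntermediateField.inclusion (full_degeneracyC_le K (Nat.mul_dvd_mul_right hMM' q))

theorem mrklIncl_coe (x : modularFunctionFieldFullC K (M * q)) :
    ((mrklIncl K M M' q hMM' x : modularFunctionFieldFullC K (M' * q)) : LaurentSeries K) = x :=
  IntermediateField.coe_inclusion _ x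

theorem mrklIncl_J : mrklIncl K M M' q hMM' (ssvmdJ K (M * q)) = ssvmdJ K (M' * q) :=
  Subtype.ext rfl

theorem mrklIncl_Y : mrklIncl K M M' q hMM' (ssvmmY K M q) = ssvmmY K M' q :=
  Subtype.ext rfl

end Incl

section Inst

variable {q : ℕ} [Fact q.Prime] [NeZero q] (𝔸 : ValuationSubring Qb)
  (E : IntermediateField ℚ Qb) [FiniteDimensional ℚ E] [IsDiscreteValuationRing ↥(s18dVal 𝔸 E)]
  [CharZero ↥(s18dVal 𝔸 E)]
variable (M M' : ℕ) [NeZero M] [NeZero M']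

section

variable (hMM' : M ∣ M')

theorem mrklIncl_ssdJ : mrklIncl E M M' q hMM' (ssdJ E (M * q)) = ssdJ E (M' * q) :=
  Subtype.ext rfl

/-- the inclusion as a ring homomorphism -/
abbrev mrklInclR : ↥(modularFunctionFieldFullC E (M * q)) →+*
    ↥(modularFunctionFieldFullC E (M' * q)) := (mrklIncl E M M' q hMM').toRingHom

theorem mrklInclR_compat (x : ↥(s18dVal 𝔸 E)) : mrklInclR (q := q) E M M' hMM'
    (algebraMap ↥(s18dVal 𝔸 E) ↥(modularFunctionFieldFullC E (M * q)) x) =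
    algebraMap ↥(s18dVal 𝔸 E) ↥(modularFunctionFieldFullC E (M' * q)) x := rfl

theorem mrklInclR_ssdJ : mrklInclR (q := q) E M M' hMM' (ssdJ E (M * q)) = ssdJ E (M' * q) :=
  Subtype.ext rfl

theorem mrkl_phi_j : ssvmfPhi E M q (ssdJ E M) = ssvmmY E M q := Subtype.ext rfl

theorem mrklInclR_u₁ : mrklInclR (q := q) E M M' hMM' (ssvmmY E M q - ssvmdJ E (M * q) ^ q) =
    ssvmmY E M' q - ssvmdJ E (M' * q) ^ q := by
  rw [map_sub, map_pow]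
  rfl

theorem mrklInclR_u₂ : mrklInclR (q := q) E M M' hMM' (ssvmmY E M q ^ q - ssvmdJ E (M * q)) =
    ssvmmY E M' q ^ q - ssvmdJ E (M' * q) := by
  rw [map_sub, map_pow]
  rfl

set_option maxHeartbeats 1000000 in
/-- the (VAL) package upstairs, in terms of the inclusion. -/
theorem mrkl_up_two (hA : 𝔸.LiesOverPrime q) (hqMa : ¬ q ∣ M')
    {ϖ : ↥(s18dVal 𝔸 E)} (hϖ : Irreducible ϖ)
    {Ξ' G' : (↥(ssvmmR 𝔸 E M' q))[X]}
    (h' : SsvAmb (ssvmmR 𝔸 E M' q) (ssvmgRUnif (ssvmm_le E M' q) ϖ)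
      (ssvmmY E M' q) Ξ' (X - C (ssvmmJ 𝔸 E M' q ^ q))
      (X ^ q - C (ssvmmJ 𝔸 E M' q)) G') :
    SsvTwo hϖ (mrklInclR (q := q) E M M' hMM' (ssdJ E (M * q)))
      (mrklInclR (q := q) E M M' hMM' (ssvmmY E M q - ssvmdJ E (M * q) ^ q))
      (mrklInclR (q := q) E M M' hMM' (ssvmmY E M q ^ q - ssvmdJ E (M * q))) h'.V₁ h'.V₂ := by
  have up := sqcau_two_j 𝔸 E M' hA hqMa hϖ h'
  rw [mrklInclR_ssdJ, mrklInclR_u₁, mrklInclR_u₂]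
  exact up

set_option maxHeartbeats 1000000 in
/-- `Y - J^q` and `Y^q - J` lie in the chart ring. -/
theorem mrkl_sep_mem (hA : 𝔸.LiesOverPrime q) :
    ssvmmY E M q - ssvmdJ E (M * q) ^ q ∈ s18tInt ↥(s18dVal 𝔸 E) (ssdJ E (M * q)) ∧
      ssvmmY E M q ^ q - ssvmdJ E (M * q) ∈ s18tInt ↥(s18dVal 𝔸 E) (ssdJ E (M * q)) := by
  obtain ⟨Φ, MP⟩ := ssgcl_modPoly_over q 𝔸 hA E
  have hY : ssvmmY E M q ∈ s18tInt ↥(s18dVal 𝔸 E) (ssdJ E (M * q)) := by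
    rw [← mrkl_phi_j]
    exact ssgnp_phi_int_j 𝔸 E M q MP _ (s18tc_self_mem_int _)
  have hJ : ssvmdJ E (M * q) ∈ s18tInt ↥(s18dVal 𝔸 E) (ssdJ E (M * q)) := s18tc_self_mem_int _
  exact ⟨Subring.sub_mem _ hY (Subring.pow_mem _ hJ q),
    Subring.sub_mem _ (Subring.pow_mem _ hY q) hJ⟩

theorem mrkl_up_transcendental :
    Transcendental E (mrklInclR (q := q) E M M' hMM' (ssdJ E (M * q))) := by
  rw [mrklInclR_ssdJ]
  exact ssd_transcendental_j E (M' * q)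

theorem mrkl_up_finiteDimensional :
    FiniteDimensional E⟮mrklInclR (q := q) E M M' hMM' (ssdJ E (M * q))⟯
      (modularFunctionFieldFullC E (M' * q)) := by
  rw [mrklInclR_ssdJ]
  exact ssd_finiteDimensional_j E (M' * q)

set_option maxHeartbeats 1000000 in
/-- **THE TWO LEVELS `M q ∣ M' q`** : the hypotheses `MrklLevels` for ANY two witnesses of the
two-factor packages. -/
theorem mrkl_levels_j (hA : 𝔸.LiesOverPrime q) (hqM : ¬ q ∣ M) (hqMa : ¬ q ∣ M')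
    {ϖ : ↥(s18dVal 𝔸 E)} (hϖ : Irreducible ϖ)
    {Ξ G : (↥(ssvmmR 𝔸 E M q))[X]}
    (h : SsvAmb (ssvmmR 𝔸 E M q) (ssvmgRUnif (ssvmm_le E M q) ϖ) (ssvmmY E M q) Ξ
      (X - C (ssvmmJ 𝔸 E M q ^ q)) (X ^ q - C (ssvmmJ 𝔸 E M q)) G)
    {Ξ' G' : (↥(ssvmmR 𝔸 E M' q))[X]}
    (h' : SsvAmb (ssvmmR 𝔸 E M' q) (ssvmgRUnif (ssvmm_le E M' q) ϖ)
      (ssvmmY E M' q) Ξ' (X - C (ssvmmJ 𝔸 E M' q ^ q))
      (X ^ q - C (ssvmmJ 𝔸 E M' q)) G') :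
    MrklLevels (mrklInclR (q := q) E M M' hMM') ϖ (ssdJ E (M * q)) h.V₁ h.V₂ h'.V₁ h'.V₂ := by
  haveI := mrkl_up_finiteDimensional (q := q) E M M' hMM'
  exact mrkl_levels_of_two (L := E) hϖ (mrklInclR (q := q) E M M' hMM') (mrklInclR_compat 𝔸 E M M' hMM')
    (mrkl_up_transcendental (q := q) E M M' hMM')
    (sqcau_two_j 𝔸 E M hA hqM hϖ h) (mrkl_up_two 𝔸 E M M' hMM' hA hqMa hϖ h')
    (mrkl_sep_mem 𝔸 E M hA).1 (mrkl_sep_mem 𝔸 E M hA).2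

end

set_option maxHeartbeats 1000000 in
/-- **NON-DEEP at level `M q`** from (T1) at level `M' q` (hypothesis `hT1` = the body of main's
slot `SqccT1` at the chart `j`). -/
theorem mrkl_nondeep_j (hMM' : M ∣ M') (hA : 𝔸.LiesOverPrime q) (hqM : ¬ q ∣ M) (hqMa : ¬ q ∣ M')
    {ϖ : ↥(s18dVal 𝔸 E)} (hϖ : Irreducible ϖ)
    {Ξ G : (↥(ssvmmR 𝔸 E M q))[X]}
    (h : SsvAmb (ssvmmR 𝔸 E M q) (ssvmgRUnif (ssvmm_le E M q) ϖ) (ssvmmY E M q) Ξ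
      (X - C (ssvmmJ 𝔸 E M q ^ q)) (X ^ q - C (ssvmmJ 𝔸 E M q)) G)
    {Ξ' G' : (↥(ssvmmR 𝔸 E M' q))[X]}
    (h' : SsvAmb (ssvmmR 𝔸 E M' q) (ssvmgRUnif (ssvmm_le E M' q) ϖ)
      (ssvmmY E M' q) Ξ' (X - C (ssvmmJ 𝔸 E M' q ^ q))
      (X ^ q - C (ssvmmJ 𝔸 E M' q)) G')
    (hT1 : ∀ 𝔫' : Ideal ↥(s18tInt ↥(s18dVal 𝔸 E) (ssdJ E (M' * q))), 𝔫'.IsPrime →
      SqgaOn (ssdJ E (M' * q)) 𝔫' h'.V₁ → SqgaOn (ssdJ E (M' * q)) 𝔫' h'.V₂ →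
      SqgaNode ϖ (ssdJ E (M' * q)) h'.V₁ h'.V₂ 𝔫')
    (𝔫 : Ideal ↥(s18tInt ↥(s18dVal 𝔸 E) (ssdJ E (M * q)))) [h𝔫 : 𝔫.IsPrime]
    (hon₁ : SqgaOn (ssdJ E (M * q)) 𝔫 h.V₁) (hon₂ : SqgaOn (ssdJ E (M * q)) 𝔫 h.V₂) :
    MrklNonDeep ϖ (ssdJ E (M * q)) 𝔫 h.V₁ h.V₂ := by
  haveI := ssd_finiteDimensional_j E (M * q)
  haveI := ssd_finiteDimensional_j E (M' * q)
  exact mrkl_nondeep' (L := E) (mrklInclR_ssdJ E M M' hMM') (mrkl_levels_j 𝔸 E M M' hMM' hA hqM hqMa hϖ h h')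
    hϖ (ssd_transcendental_j E (M * q)) (ssd_transcendental_j E (M' * q)) hT1 𝔫 hon₁ hon₂

set_option maxHeartbeats 2000000 in
/-- **NON-DEEP at level `M q`, CLOSED** : `q ≥ 5`, `q ∤ M'`, `6 ∣ M'`, `ζ_{6 M'} ∈ E` : (T1) at the
auxiliary level `M' q` is main's `SQ.sqct1_j` with the auxiliary primes `r = 2`, `r' = 3`. -/
theorem mrkl_nondeep_j_closed (hMM' : M ∣ M') (hA : 𝔸.LiesOverPrime q) (hqM : ¬ q ∣ M) (hqMa : ¬ q ∣ M')
    (h5 : 5 ≤ q) (ζ : E) (hζ : IsPrimitiveRoot ζ (6 * M')) (h2 : 2 ∣ M') (h3 : 3 ∣ M')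
    (hϖ : Irreducible ((q : ℕ) : ↥(s18dVal 𝔸 E)))
    {Ξ G : (↥(ssvmmR 𝔸 E M q))[X]} (h : SqccAmb 𝔸 E M q Ξ G)
    (𝔫 : Ideal ↥(s18tInt ↥(s18dVal 𝔸 E) (ssdJ E (M * q)))) [h𝔫 : 𝔫.IsPrime]
    (hon₁ : SqgaOn (ssdJ E (M * q)) 𝔫 h.V₁) (hon₂ : SqgaOn (ssdJ E (M * q)) 𝔫 h.V₂) :
    MrklNonDeep ((q : ℕ) : ↥(s18dVal 𝔸 E)) (ssdJ E (M * q)) 𝔫 h.V₁ h.V₂ := by
  obtain ⟨Ξ', G', h', -⟩ := ssgms_two_j 𝔸 E M' hA hqMa _ hϖ
  have hT := sqct1_j 𝔸 E M' q hA hqMa h5 ζ hζ 2 Nat.prime_two h2 (by norm_num) 3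
    Nat.prime_three h3 (by norm_num)
  have hT' := hT hϖ h'
  rw [ssgms_incl_j E M'] at hT'
  exact mrkl_nondeep_j 𝔸 E M M' hMM' hA hqM hqMa hϖ h h' hT' 𝔫 hon₁ hon₂

set_option maxHeartbeats 2000000 in
/-- **EXACT NODE COORDINATES at level `M q`, E-level, CLOSED modulo the crossing germ** : at every
prime `𝔫` of the `j`-chart of `F_E(M q)` lying on both components, main's enriched crossing germ
`SsGermCrossPlus` yields exact coordinates `u w = κ ε`, `κ = q^e c`, `1 ≤ e`, `c ∈ A₀ˣ`,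
`ε ∈ 1 + q P_𝔫`. -/
theorem mrkl_exact_j_closed (hMM' : M ∣ M') (hA : 𝔸.LiesOverPrime q) (hqM : ¬ q ∣ M) (hqMa : ¬ q ∣ M')
    (h5 : 5 ≤ q) (ζ : E) (hζ : IsPrimitiveRoot ζ (6 * M')) (h2 : 2 ∣ M') (h3 : 3 ∣ M')
    (hϖ : Irreducible ((q : ℕ) : ↥(s18dVal 𝔸 E)))
    {Ξ G : (↥(ssvmmR 𝔸 E M q))[X]} (h : SqccAmb 𝔸 E M q Ξ G)
    (𝔫 : Ideal ↥(s18tInt ↥(s18dVal 𝔸 E) (ssdJ E (M * q)))) [h𝔫 : 𝔫.IsPrime]
    (hon₁ : SqgaOn (ssdJ E (M * q)) 𝔫 h.V₁) (hon₂ : SqgaOn (ssdJ E (M * q)) 𝔫 h.V₂)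
    (Γ : Subgroup (SemilinearAut E (modularFunctionFieldFullC E (M * q))))
    (hplus : SsGermCrossPlus ((q : ℕ) : ↥(s18dVal 𝔸 E)) (ssdJ E (M * q)) Γ 𝔫 h.V₁ h.V₂) :
    ∃ (u w ε : ↥(modularFunctionFieldFullC E (M * q))) (κ c : ↥(s18dVal 𝔸 E)) (e : ℕ),
      IsUnit c ∧ κ = ((q : ℕ) : ↥(s18dVal 𝔸 E)) ^ e * c ∧ 1 ≤ e ∧
      SsnfInMax (ssdJ E (M * q)) 𝔫 u ∧ SsnfInMax (ssdJ E (M * q)) 𝔫 w ∧
      (∀ γ ∈ Γ, γ • u = u) ∧ (∀ γ ∈ Γ, γ • w = w) ∧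
      SsgaSpan3 ((q : ℕ) : ↥(s18dVal 𝔸 E)) (ssdJ E (M * q)) 𝔫 u w ∧
      u ∈ h.V₁.nonunits ∧ w ∈ h.V₂.nonunits ∧
      SsgaGen (ssdJ E (M * q)) 𝔫 h.V₂ u ∧ SsgaGen (ssdJ E (M * q)) 𝔫 h.V₁ w ∧
      (∃ ρ' : ↥(modularFunctionFieldFullC E (M * q)), SsnfInLoc (ssdJ E (M * q)) 𝔫 ρ' ∧
        ε = 1 + algebraMap ↥(s18dVal 𝔸 E) ↥(modularFunctionFieldFullC E (M * q))
          ((q : ℕ) : ↥(s18dVal 𝔸 E)) * ρ') ∧
      u * w = algebraMap ↥(s18dVal 𝔸 E) ↥(modularFunctionFieldFullC E (M * q)) κ * ε := by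
  haveI := ssd_finiteDimensional_j E (M * q)
  have two := ssga_two_of_ssvTwo hϖ (ssdJ E (M * q)) (ssd_transcendental_j E (M * q))
    (sqcau_two_j 𝔸 E M hA hqM hϖ h)
  exact mrkl_exact (L := E) hϖ 𝔫 two.le₁ hon₁ two.unif₁ Γ hplus
    (mrkl_nondeep_j_closed 𝔸 E M M' hMM' hA hqM hqMa h5 ζ hζ h2 h3 hϖ h 𝔫 hon₁ hon₂)

end Inst

end Fermat.Agent.MR
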