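import Mathlib
import Fermat.Agent.SQ.Conc.T1Slot

/-!
# PROGRAM MR (S44), BLOCK `mrk` : THE UPPER NODE HAS THICKNESS ONE (the hypothesis `hT1`)

Owner: helper13 (PM rulings R69 (1), R70 (2), R71 (c)).  Namespace `Fermat.Agent.MR`, prefix `mrkq`.

The hypothesis `hT1` of helper25's `mrk_germ_exact_of_two` / `mrk_germ_exact_of_T1`
(`MR/Kron/ExactTwo.lean`, `MR/Kron/ExactTop.lean`) and of helper4's `mrkl_nondeep'`
(`MR/Kron/TermLevel.lean`) reads, at the upper level `M'` (with `t' = ssdJ E (M' * q)`,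
`V_j' = h'.V_j` for a two-factor witness `h' : SqccAmb 𝔸 E M' q Ξ G`, `ϖ = q`) :

  `∀ 𝔫₁ : Ideal ↥(s18tInt A t'), 𝔫₁.IsPrime → SqgaOn t' 𝔫₁ V₁' → SqgaOn t' 𝔫₁ V₂' →
      SqgaNode ϖ t' V₁' V₂' 𝔫₁`.

It is main's slot (R1-T1) `SQ.sqct1_j` with the two auxiliary primes `r = 2` (`2 % 3 = 2`) and
`r' = 3` (`3 % 4 = 3`), both dividing `M'`, rewritten along `ssgms_incl_j`
(`ssvmdIncl E M' q (ssdJ E M') = ssdJ E (M' * q)`).

* `mrkq_T1_at` : over one field `E ∋ ζ_{6 M'}`, every side hypothesis discharged;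
* `MrkqT1 𝔸 E M' q` : the literal `hT1` for ALL witnesses `h'` (a `Prop`);
* `mrkq_T1_big` : `SqccBig 𝔸 (fun E₀ => MrkqT1 𝔸 E₀ M' q)` : the inertia fields `E₀ = ssgfE0 𝔸 E` of all
  big enough finite normal `E` (the root of unity is moved into `E₀` by `sqccw_root_E0`);
* `mrkqAux M = M * (if 2 ∣ M then 1 else 2) * (if 3 ∣ M then 1 else 3)` (the SAME expression as
  helper17's `mrxwAux`), with `M ∣ mrkqAux M`, `2 ∣ mrkqAux M`, `3 ∣ mrkqAux M`, `q ∤ mrkqAux M` for a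
  prime `q ≥ 5`, `q ∤ M`; `mrkq_T1_aux_big` : the slot at the level `mrkqAux M`.
-/

set_option autoImplicit false
set_option linter.unusedSectionVars false
set_option linter.unusedVariables false
set_option linter.style.haveILetI false
set_option synthInstance.maxHeartbeats 400000

noncomputable section

namespace Fermat.Agent.MR

open Polynomial ModularCurve AlgebraicCurve IntermediateField IsLocalRing Fermat.Agent.S18
  Fermat.Agent.SS Fermat.Agent.SQ Fermat.Agent.G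

local notation "Qb" => AlgebraicClosure ℚ

section OneField

variable (𝔸 : ValuationSubring Qb) (E : IntermediateField ℚ Qb) [FiniteDimensional ℚ E]
  [IsDiscreteValuationRing ↥(s18dVal 𝔸 E)] [CharZero ↥(s18dVal 𝔸 E)] (M q : ℕ) [NeZero M]
  [Fact q.Prime] [NeZero q]

/-- **`hT1` over one field** : every prime of the chart `j` of level `M q` on both components is a
node of thickness one, when `2 ∣ M`, `3 ∣ M`, `q ≥ 5`, `q ∤ M` and `ζ_{6M} ∈ E`. -/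
theorem mrkq_T1_at (hA : 𝔸.LiesOverPrime q) (hqM : ¬ q ∣ M) (h5 : 5 ≤ q) (h2 : 2 ∣ M) (h3 : 3 ∣ M)
    (ζ : E) (hζ : IsPrimitiveRoot ζ (6 * M))
    (hϖ : Irreducible ((q : ℕ) : ↥(s18dVal 𝔸 E))) {Ξ G : (↥(ssvmmR 𝔸 E M q))[X]}
    (h : SqccAmb 𝔸 E M q Ξ G) :
    ∀ 𝔫₁ : Ideal ↥(s18tInt ↥(s18dVal 𝔸 E) (ssdJ E (M * q))), 𝔫₁.IsPrime →
      SqgaOn (ssdJ E (M * q)) 𝔫₁ h.V₁ → SqgaOn (ssdJ E (M * q)) 𝔫₁ h.V₂ →
      SqgaNode ((q : ℕ) : ↥(s18dVal 𝔸 E)) (ssdJ E (M * q)) h.V₁ h.V₂ 𝔫₁ := by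
  have H : SqccT1 𝔸 E M q (ssdJ E M) :=
    sqct1_j 𝔸 E M q hA hqM h5 ζ hζ 2 Nat.prime_two h2 (by norm_num) 3 Nat.prime_three h3
      (by norm_num)
  have H' := H hϖ h
  rw [ssgms_incl_j E M] at H'
  exact H'

end OneField

/-! ### the literal `hT1`, and the big-field form -/

section Big

/-- **the literal hypothesis `hT1`** of `mrk_germ_exact_of_two` / `mrkl_nondeep'` at the level `M`,
for ALL two-factor witnesses `h` of level `M q` : every prime of the chart `j` of level `M q` on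
both components `h.V₁`, `h.V₂` is a node of thickness one. -/
def MrkqT1 (𝔸 : ValuationSubring Qb) (E : IntermediateField ℚ Qb)
    [IsDiscreteValuationRing ↥(s18dVal 𝔸 E)] [CharZero ↥(s18dVal 𝔸 E)] (M q : ℕ) [NeZero M]
    [Fact q.Prime] [NeZero q] : Prop :=
  ∀ (hϖ : Irreducible ((q : ℕ) : ↥(s18dVal 𝔸 E))) {Ξ G : (↥(ssvmmR 𝔸 E M q))[X]}
    (h : SqccAmb 𝔸 E M q Ξ G)
    (𝔫₁ : Ideal ↥(s18tInt ↥(s18dVal 𝔸 E) (ssdJ E (M * q)))), 𝔫₁.IsPrime →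
    SqgaOn (ssdJ E (M * q)) 𝔫₁ h.V₁ → SqgaOn (ssdJ E (M * q)) 𝔫₁ h.V₂ →
    SqgaNode ((q : ℕ) : ↥(s18dVal 𝔸 E)) (ssdJ E (M * q)) h.V₁ h.V₂ 𝔫₁

/-- `MrkqT1` is main's slot `SqccT1` at the chart `j`, read along `ssgms_incl_j`. -/
theorem mrkq_T1_of_slot (𝔸 : ValuationSubring Qb) (E : IntermediateField ℚ Qb)
    [IsDiscreteValuationRing ↥(s18dVal 𝔸 E)] [CharZero ↥(s18dVal 𝔸 E)] (M q : ℕ) [NeZero M]
    [Fact q.Prime] [NeZero q] (H : SqccT1 𝔸 E M q (ssdJ E M)) : MrkqT1 𝔸 E M q := by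
  intro hϖ Ξ G h
  have H' := H hϖ h
  have e₁ : ssvmdIncl E M q (ssdJ E M) = ssdJ E (M * q) :=
    Subtype.ext (ssvmdIncl_coe E M q (ssdJ E M))
  rw [e₁] at H'
  exact H'

/-- **`hT1` over one field**, as the `Prop` `MrkqT1`. -/
theorem mrkq_T1_field (𝔸 : ValuationSubring Qb) (E : IntermediateField ℚ Qb)
    [FiniteDimensional ℚ E] [IsDiscreteValuationRing ↥(s18dVal 𝔸 E)] [CharZero ↥(s18dVal 𝔸 E)]
    (M q : ℕ) [NeZero M] [Fact q.Prime] [NeZero q]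
    (hA : 𝔸.LiesOverPrime q) (hqM : ¬ q ∣ M) (h5 : 5 ≤ q) (h2 : 2 ∣ M) (h3 : 3 ∣ M)
    (ζ : E) (hζ : IsPrimitiveRoot ζ (6 * M)) : MrkqT1 𝔸 E M q :=
  fun hϖ _ _ h => mrkq_T1_at 𝔸 E M q hA hqM h5 h2 h3 ζ hζ hϖ h

/-- **`hT1` AT THE INERTIA FIELDS OF ALL BIG ENOUGH NUMBER FIELDS** : `2 ∣ M`, `3 ∣ M`, `q ≥ 5`,
`q ∤ M`.  (`E₁ = ℚ(ζ_{6M})`; the root of unity lies in the inertia field `E₀ = ssgfE0 𝔸 E` of every
finite normal `E ⊇ E₁` because `q ∤ 6 M`.) -/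
theorem mrkq_T1_big (M q : ℕ) [NeZero M] [Fact q.Prime] [NeZero q] (hqM : ¬ q ∣ M) (h5 : 5 ≤ q)
    (h2 : 2 ∣ M) (h3 : 3 ∣ M) (𝔸 : ValuationSubring Qb) (hA : 𝔸.LiesOverPrime q) :
    SqccBig 𝔸 (fun E₀ => MrkqT1 𝔸 E₀ M q) := by
  have hq : q.Prime := Fact.out
  obtain ⟨ζ, E₁, hE₁, hζ, hζE₁⟩ := sqccw_exists_cyclo (6 * M)
  refine ⟨E₁, hE₁, ?_⟩
  intro E _ _ _ _ hle
  obtain ⟨ζ₀, hζ₀⟩ := sqccw_root_E0 𝔸 hq hA (sqct1_not_dvd_six hq h5 hqM) E hζ (hle hζE₁)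
  exact mrkq_T1_field 𝔸 (ssgfE0 𝔸 E) M q hA hqM h5 h2 h3 ζ₀ hζ₀

end Big

/-! ### the auxiliary level -/

section Aux

/-- the auxiliary level `M' = M · [2 ∤ M] 2 · [3 ∤ M] 3` (the same expression as helper17's
`mrxwAux`). -/
def mrkqAux (M : ℕ) : ℕ := M * (if 2 ∣ M then 1 else 2) * (if 3 ∣ M then 1 else 3)

theorem mrkq_dvd_aux (M : ℕ) : M ∣ mrkqAux M := by
  unfold mrkqAux
  rw [mul_assoc]
  exact Dvd.intro _ rfl

theorem mrkq_two_dvd_aux (M : ℕ) : 2 ∣ mrkqAux M := by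
  unfold mrkqAux
  by_cases h : 2 ∣ M
  · exact Dvd.dvd.mul_right (Dvd.dvd.mul_right h _) _
  · rw [if_neg h]
    exact Dvd.dvd.mul_right (Dvd.intro_left _ rfl) _

theorem mrkq_three_dvd_aux (M : ℕ) : 3 ∣ mrkqAux M := by
  unfold mrkqAux
  by_cases h : 3 ∣ M
  · exact Dvd.dvd.mul_right (Dvd.dvd.mul_right h _) _
  · rw [if_neg h]
    exact Dvd.intro_left _ rfl

theorem mrkq_aux_ne_zero (M : ℕ) [NeZero M] : mrkqAux M ≠ 0 := by
  unfold mrkqAux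
  have hM : M ≠ 0 := NeZero.ne M
  refine mul_ne_zero (mul_ne_zero hM ?_) ?_
  · split_ifs <;> norm_num
  · split_ifs <;> norm_num

instance mrkq_aux_neZero (M : ℕ) [NeZero M] : NeZero (mrkqAux M) := ⟨mrkq_aux_ne_zero M⟩

theorem mrkq_not_dvd_aux {M q : ℕ} (hq : q.Prime) (h5 : 5 ≤ q) (hqM : ¬ q ∣ M) :
    ¬ q ∣ mrkqAux M := by
  unfold mrkqAux
  intro hdvd
  have h2 : ¬ q ∣ 2 := fun h => by have := Nat.le_of_dvd (by norm_num) h; omega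
  have h3 : ¬ q ∣ 3 := fun h => by have := Nat.le_of_dvd (by norm_num) h; omega
  have h1 : ¬ q ∣ 1 := fun h => by have := Nat.le_of_dvd (by norm_num) h; omega
  rcases (Nat.Prime.dvd_mul hq).mp hdvd with h | h
  · rcases (Nat.Prime.dvd_mul hq).mp h with h | h
    · exact hqM h
    · split_ifs at h
      · exact h1 h
      · exact h2 h
  · split_ifs at h
    · exact h1 h
    · exact h3 h

/-- the level `M q` divides the level `M' q` -/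
theorem mrkq_mul_dvd_aux (M q : ℕ) : M * q ∣ mrkqAux M * q :=
  Nat.mul_dvd_mul_right (mrkq_dvd_aux M) q

/-- **`hT1` AT THE AUXILIARY LEVEL `mrkqAux M`**, for ANY `M` prime to `q ≥ 5`, at the inertia
fields of all big enough number fields. -/
theorem mrkq_T1_aux_big (M q : ℕ) [NeZero M] [Fact q.Prime] [NeZero q] (hqM : ¬ q ∣ M)
    (h5 : 5 ≤ q) (𝔸 : ValuationSubring Qb) (hA : 𝔸.LiesOverPrime q) :
    SqccBig 𝔸 (fun E₀ => MrkqT1 𝔸 E₀ (mrkqAux M) q) :=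
  mrkq_T1_big (mrkqAux M) q (mrkq_not_dvd_aux Fact.out h5 hqM) h5 (mrkq_two_dvd_aux M)
    (mrkq_three_dvd_aux M) 𝔸 hA

end Aux

end Fermat.Agent.MR
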