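import Mathlib
import Fermat.Agent.MR.Kron.TermLevelInst
import Fermat.Agent.MR.Kron.ExactAt
import Fermat.Agent.MR.Kron.TermT1
import Fermat.Agent.MR.Node.CrossSpec
import Fermat.Agent.TT.Red2.NodeGauss
import Fermat.Agent.TT.Red2.NodeHV4
import Fermat.Agent.TT.Red2.NodeInst
import Fermat.Agent.SQ.Conc.Field
import Fermat.Agent.SQ.Conc.WireSlot

/-!
# PROGRAM MR (S44), block `mrk` : THE `E`-LEVEL EXACT GERMS, FINAL ASSEMBLY (`MrnxGermSpec`)

Owner: helper4 (PM R76(d)).  Namespace `Fermat.Agent.MR`, prefix `mrkl`.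

The consumer's literal is helper3's `MrnxGermSpec M A hpM hA` (`MR/Node/CrossSpec.lean`) : at the
inertia field `E₀ = ssgfE0 𝔸 E'` of every big enough finite normal `E'`, every rational prime `𝔫`
of the `j`-chart of `F_{E₀}(M p)` lying on both components `W_j = V_j ∩ F_{E₀}(M p)` carries an exact
crossing pair `u w = p^e ε`, and `e = 1` when `2 ∣ M`, `3 ∣ M`.

CONVENTION of the output (= main's Program S, = helper3's `MrnxExactAt`) : `u ∈ 𝔪_{W₁}`,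
`w ∈ 𝔪_{W₂}`, `u` generates `𝔫` modulo `𝔪_{W₂}`, `w` modulo `𝔪_{W₁}`; `W₁ = ttrV1 ∩ F_{E₀}`,
`W₂ = ttraV2 ∩ F_{E₀}`; the SAME field `E₀` and the SAME witness `h` are used for the crossing germ,
the slot (T1) and the valuation rings.

* `mrkl_mrnx_of_mrk` : helper25's `MrkGermExactAt e` ⟹ helper3's `MrnxExactAt e` (abstract);
* `mrkl_W₁_eq`, `mrkl_W₂_eq` : `W_j = h.V_j` for every two-factor witness `h` (main's (ASC-TWO)
  `ttrt_eq_V₁/V₂` + `ttrt_gauss_V1/V2` + (HV4) `ttr_hv4₁/₂`);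
* `MrklCrossSpec A M p` : THE ONE INPUT LEFT = main's enriched crossing germ at one field
  (helper25, `MR/Kron/CrossConc.lean`, `mrkc_cross_plus`);
* `mrkl_exactAt_field` : the exact pair over one field `E ∋ ζ_{6 M'}`, `M' = mrkqAux M`
  (helper25's `mrko_exact_at_of_two` at `ι = mrklInclR`, (T1) upstairs = helper13's `mrkq_T1_at`);
* `mrkl_germSpec : 5 ≤ p → MrklCrossSpec A M p → MrnxGermSpec M A hpM hA`.
-/

set_option autoImplicit false
set_option linter.unusedSectionVars false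
set_option linter.unusedVariables false
set_option linter.style.haveILetI false
set_option synthInstance.maxHeartbeats 400000

noncomputable section

namespace Fermat.Agent.MR

open Polynomial ModularCurve AlgebraicCurve IntermediateField IsLocalRing Fermat.Agent.S18
  Fermat.Agent.S24 Fermat.Agent.SS Fermat.Agent.SQ Fermat.Agent.G Fermat.Agent.TT Fermat.Agent.FF

local notation "Qb" => AlgebraicClosure ℚ

universe u

/-! ### 1. from helper25's exact germ to helper3's literal -/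

section Abs

variable {A : Type*} [CommRing A] [IsDomain A] [IsDiscreteValuationRing A] [CharZero A]
variable {L : Type*} [Field L] [Algebra A L] [IsFractionRing A L]
variable {F : Type u} [Field F] [Algebra A F] [Algebra L F] [IsScalarTower A L F]
variable {ϖ : A} {t : F} {G : Subgroup (SemilinearAut L F)} {𝔫 : Ideal ↥(s18tInt A t)}
  {V₁ V₂ : ValuationSubring F}

/-- helper25's exact germ (exponent `e`) gives helper3's exact crossing pair (same `e`) : the unit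
is `ε = c (1 + ϖ ρ)`. -/
theorem mrkl_mrnx_of_mrk [h𝔫 : 𝔫.IsPrime] (hϖ𝔫 : sskPi ϖ t ∈ 𝔫) {e : ℕ}
    (h : MrkGermExactAt e ϖ t G 𝔫 V₁ V₂) : MrnxExactAt e ϖ t 𝔫 V₁ V₂ := by
  obtain ⟨u, w, hu, hw, -, -, -, hu₁, hw₂, -, -, hg₂, hg₁, c, ρ, hc, hρ, huw⟩ := h
  obtain ⟨hεL, hεinv, hε0⟩ := mrk_one_add_unit (ϖ := ϖ) hϖ𝔫 hρ
  obtain ⟨c', rfl⟩ := hc
  have hcL : ∀ a : A, algebraMap A F a ∈ ssLocRing t 𝔫 := fun a =>
    ssl_int_le_locRing t 𝔫 (s18tc_algebraMap_mem_int t a)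
  have hcc : algebraMap A F (c' : A) * algebraMap A F ((c'⁻¹ : Aˣ) : A) = 1 := by
    rw [← map_mul, Units.mul_inv, map_one]
  have hεL' : (1 + algebraMap A F ϖ * ρ) ∈ ssLocRing t 𝔫 := hεL
  have hεinv' : (1 + algebraMap A F ϖ * ρ)⁻¹ ∈ ssLocRing t 𝔫 := hεinv
  refine ⟨u, w, algebraMap A F (c' : A) * (1 + algebraMap A F ϖ * ρ), hu, hw, hu₁, hw₂, hg₂, hg₁,
    ?_, ?_, ?_⟩
  · exact Subring.mul_mem (ssLocRing t 𝔫) (hcL _) hεL'
  · have : (algebraMap A F (c' : A) * (1 + algebraMap A F ϖ * ρ))⁻¹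
        = algebraMap A F ((c'⁻¹ : Aˣ) : A) * (1 + algebraMap A F ϖ * ρ)⁻¹ := by
      rw [mul_inv]
      congr 1
      exact inv_eq_of_mul_eq_one_right hcc
    rw [this]
    exact Subring.mul_mem (ssLocRing t 𝔫) (hcL _) hεinv'
  · rw [huw, map_mul, map_pow]
    ring

end Abs

/-! ### 2. `W_j = h.V_j` -/

section Adapter

variable (M : ℕ) [NeZero M] {p : ℕ} [Fact p.Prime] [NeZero p]
variable (A : ValuationSubring Qb) (hpM : ¬ p ∣ M) (hA : A.LiesOverPrime p)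
variable (E : IntermediateField ℚ Qb) [FiniteDimensional ℚ E]
  [IsDiscreteValuationRing ↥(s18dVal A E)] [CharZero ↥(s18dVal A E)]

set_option maxHeartbeats 1000000 in
/-- `W₁ = ttrV1 ∩ F_E(M p)` is the first valuation ring of every two-factor witness. -/
theorem mrkl_W₁_eq (h5 : 5 ≤ p) {ϖ : ↥(s18dVal A E)} (hϖ : Irreducible ϖ)
    {Ξ G : (↥(ssvmmR A E M p))[X]}
    (h : SsvAmb (ssvmmR A E M p) (ssvmgRUnif (ssvmm_le E M p) ϖ) (ssvmmY E M p) Ξ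
      (X - C (ssvmmJ A E M p ^ p)) (X ^ p - C (ssvmmJ A E M p)) G) :
    mrnxW₁ M A hpM hA E = h.V₁ := by
  have htr : Transcendental (ResidueField ↥A) (grdK M A (grdi_mem_j M)) :=
    (grd_chart_j M A hpM hA h5).sepK.transcendental
  have hG := ttrt_gauss_V1 M A (grdi_mem_j M) (grdi_mem_j (M * p)) hpM hA htr
  have two : SsvTwo hϖ (ttrnTE (M * p) E (grdi_mem_j (M * p)))
      (ssvmmY E M p - ssvmdJ E (M * p) ^ p) (ssvmmY E M p ^ p - ssvmdJ E (M * p)) h.V₁ h.V₂ := by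
    rw [ttrn_TE_j]
    exact sqcau_two_j A E M hA hpM hϖ h
  exact ttrt_eq_V₁ (M * p) A E (grdi_mem_j (M * p)) (ttrV1 M A hpM hA) hG.const_mem hG.coord_mem
    hG.max_mem hG.unit hϖ two (ttr_hv4₁ M A hpM hA E)

set_option maxHeartbeats 1000000 in
/-- `W₂ = ttraV2 ∩ F_E(M p)` is the second valuation ring of every two-factor witness. -/
theorem mrkl_W₂_eq (h5 : 5 ≤ p) {ϖ : ↥(s18dVal A E)} (hϖ : Irreducible ϖ)
    {Ξ G : (↥(ssvmmR A E M p))[X]}
    (h : SsvAmb (ssvmmR A E M p) (ssvmgRUnif (ssvmm_le E M p) ϖ) (ssvmmY E M p) Ξ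
      (X - C (ssvmmJ A E M p ^ p)) (X ^ p - C (ssvmmJ A E M p)) G) :
    mrnxW₂ M A hpM hA E = h.V₂ := by
  have htr : Transcendental (ResidueField ↥A) (grdK M A (grdi_mem_j M)) :=
    (grd_chart_j M A hpM hA h5).sepK.transcendental
  have hG := ttrt_gauss_V2 M A (grdi_mem_j M) (grdi_mem_j (M * p)) hpM hA htr
    (ttraV2 M A hpM hA) (fun _ => Iff.rfl)
  have two : SsvTwo hϖ (ttrnTE (M * p) E (grdi_mem_j (M * p)))
      (ssvmmY E M p - ssvmdJ E (M * p) ^ p) (ssvmmY E M p ^ p - ssvmdJ E (M * p)) h.V₁ h.V₂ := by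
    rw [ttrn_TE_j]
    exact sqcau_two_j A E M hA hpM hϖ h
  exact ttrt_eq_V₂ (M * p) A E (grdi_mem_j (M * p)) (ttraV2 M A hpM hA) hG.const_mem hG.coord_mem
    hG.max_mem hG.unit hϖ two (ttr_hv4₂ M A hpM hA (ttraV2 M A hpM hA) (fun _ => Iff.rfl) E)

end Adapter

/-! ### 3. the crossing-germ input -/

/-- **THE CROSSING-GERM INPUT** (helper25, `MR/Kron/CrossConc.lean`, `mrkc_cross_plus` = main's
`ssgm_cross_plus` over ONE field `E ∋ ζ_{6M}`) : at every rational prime of the `j`-chart of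
`F_E(M p)` lying on both components of ANY two-factor witness `h`, main's enriched crossing germ. -/
def MrklCrossSpec (A : ValuationSubring Qb) (M p : ℕ) [NeZero M] [Fact p.Prime] [NeZero p] :
    Prop :=
  ∀ (E : IntermediateField ℚ Qb) [FiniteDimensional ℚ E]
    [IsDiscreteValuationRing ↥(s18dVal A E)] [CharZero ↥(s18dVal A E)] (ζ : E),
    IsPrimitiveRoot ζ (6 * M) →
    ∀ (hϖ : Irreducible ((p : ℕ) : ↥(s18dVal A E))) {Ξ G : (↥(ssvmmR A E M p))[X]}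
      (h : SqccAmb A E M p Ξ G)
      (𝔫 : Ideal ↥(s18tInt ↥(s18dVal A E) (ssdJ E (M * p)))), 𝔫.IsPrime →
      SqgaOn (ssdJ E (M * p)) 𝔫 h.V₁ → SqgaOn (ssdJ E (M * p)) 𝔫 h.V₂ →
      SsResRational (ssdJ E (M * p)) 𝔫 →
      ∃ Γ : Subgroup (SemilinearAut E (modularFunctionFieldFullC E (M * p))),
        SsGermCrossPlus ((p : ℕ) : ↥(s18dVal A E)) (ssdJ E (M * p)) Γ 𝔫 h.V₁ h.V₂

/-! ### 4. one field -/

section Field

variable (M : ℕ) [NeZero M] {p : ℕ} [Fact p.Prime] [NeZero p]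
variable (A : ValuationSubring Qb) (hpM : ¬ p ∣ M) (hA : A.LiesOverPrime p)
variable (E : IntermediateField ℚ Qb) [FiniteDimensional ℚ E]
  [IsDiscreteValuationRing ↥(s18dVal A E)] [CharZero ↥(s18dVal A E)]

set_option maxHeartbeats 2000000 in
/-- **THE EXACT CROSSING PAIR OVER ONE FIELD** `E ∋ ζ_{6 M'}` (`M' = mrkqAux M`) in which `p` is a
uniformiser : helper3's literal at every rational prime on both components, `e = 1` when `2 ∣ M`,
`3 ∣ M`. -/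
theorem mrkl_exactAt_field (h5 : 5 ≤ p) (hϖ : Irreducible ((p : ℕ) : ↥(s18dVal A E)))
    (ζ : E) (hζ : IsPrimitiveRoot ζ (6 * mrkqAux M)) (hcross : MrklCrossSpec A M p)
    (𝔫 : Ideal ↥(s18tInt ↥(s18dVal A E) (ssdJ E (M * p)))) (h𝔫 : 𝔫.IsPrime)
    (hon : MrnxOnBoth M A hpM hA E 𝔫) (hrat : SsResRational (ssdJ E (M * p)) 𝔫) :
    ∃ e : ℕ, (2 ∣ M → 3 ∣ M → e = 1) ∧
      MrnxExactAt e ((p : ℕ) : ↥(s18dVal A E)) (ssdJ E (M * p)) 𝔫
        (mrnxW₁ M A hpM hA E) (mrnxW₂ M A hpM hA E) := by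
  haveI := h𝔫
  have hq : p.Prime := Fact.out
  have hpM' : ¬ p ∣ mrkqAux M := mrkq_not_dvd_aux hq h5 hpM
  have hMM' : M ∣ mrkqAux M := mrkq_dvd_aux M
  -- the root of unity of order `6 M`
  obtain ⟨k, hk⟩ := mrkq_dvd_aux M
  have hζ' : IsPrimitiveRoot (ζ ^ k) (6 * M) :=
    hζ.pow (Nat.pos_of_ne_zero (NeZero.ne _)) (by rw [hk]; ring)
  -- the two witnesses
  obtain ⟨Ξ, G, h, two⟩ := ssgms_two_j A E M hA hpM _ hϖ
  obtain ⟨Ξ', G', h', two'⟩ := ssgms_two_j A E (mrkqAux M) hA hpM' _ hϖ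
  obtain ⟨hϖ𝔫, h1, h2⟩ := hon
  rw [mrkl_W₁_eq M A hpM hA E h5 hϖ h] at h1
  rw [mrkl_W₂_eq M A hpM hA E h5 hϖ h] at h2
  rw [mrkl_W₁_eq M A hpM hA E h5 hϖ h, mrkl_W₂_eq M A hpM hA E h5 hϖ h]
  have hon₁ : SqgaOn (ssdJ E (M * p)) 𝔫 h.V₁ := h1
  have hon₂ : SqgaOn (ssdJ E (M * p)) 𝔫 h.V₂ := h2
  obtain ⟨Γ, hplus⟩ := hcross E (ζ ^ k) hζ' hϖ h 𝔫 h𝔫 hon₁ hon₂ hrat
  have hT1 := mrkq_T1_at A E (mrkqAux M) p hA hpM' h5 (mrkq_two_dvd_aux M) (mrkq_three_dvd_aux M)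
    ζ hζ hϖ h'
  haveI := ssd_finiteDimensional_j E (M * p)
  haveI := ssd_finiteDimensional_j E (mrkqAux M * p)
  obtain ⟨e, -, hone, hat⟩ := mrko_exact_at_of_two (L := E) hϖ (ssd_transcendental_j E (M * p))
    (ssd_transcendental_j E (mrkqAux M * p))
    (mrklInclR (q := p) E M (mrkqAux M) hMM') (mrklInclR_compat A E M (mrkqAux M) hMM')
    (mrklInclR_ssdJ E M (mrkqAux M) hMM') (mrklInclR_u₁ E M (mrkqAux M) hMM')
    (mrklInclR_u₂ E M (mrkqAux M) hMM') two two' hon₁ hon₂ hT1 Γ hplus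
  exact ⟨e, fun h2M h3M => hone
    (mrkq_T1_at A E M p hA hpM h5 h2M h3M (ζ ^ k) hζ' hϖ h 𝔫 h𝔫 hon₁ hon₂),
    mrkl_mrnx_of_mrk hϖ𝔫 hat⟩

end Field

/-! ### 5. all big fields : helper3's `MrnxGermSpec` -/

section Big

variable (M : ℕ) [NeZero M] {p : ℕ} [Fact p.Prime] [NeZero p]
variable (A : ValuationSubring Qb) (hpM : ¬ p ∣ M) (hA : A.LiesOverPrime p)

set_option maxHeartbeats 1000000 in
/-- **`MrnxGermSpec`** (helper3's literal, `MR/Node/CrossSpec.lean`) from the crossing-germ input :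
`E₂ = ℚ(ζ_{6 M'})`, `M' = mrkqAux M`; at the inertia field `E₀` of every finite normal `E' ⊇ E₂`
the prime `p` is a uniformiser (`sqcf_irreducible`) and `ζ_{6 M'} ∈ E₀` (`sqccw_root_E0`). -/
theorem mrkl_germSpec (h5 : 5 ≤ p) (hcross : MrklCrossSpec A M p) : MrnxGermSpec M A hpM hA := by
  have hq : p.Prime := Fact.out
  have hpM' : ¬ p ∣ mrkqAux M := mrkq_not_dvd_aux hq h5 hpM
  obtain ⟨ζ, E₁, hE₁, hζ, hζE₁⟩ := sqccw_exists_cyclo (6 * mrkqAux M)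
  refine ⟨E₁, hE₁, ?_⟩
  intro E' _ _ _ _ hle 𝔫 h𝔫 hon hrat
  obtain ⟨ζ₀, hζ₀⟩ := sqccw_root_E0 A hq hA (sqct1_not_dvd_six hq h5 hpM') E' hζ (hle hζE₁)
  exact mrkl_exactAt_field M A hpM hA (ssgfE0 A E') h5 (sqcf_irreducible A E' hq hA) ζ₀ hζ₀ hcross
    𝔫 h𝔫 hon hrat

end Big

end Fermat.Agent.MR
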