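import Mathlib
import Fermat.Agent.MR.Kron.GermBig
import Fermat.Agent.SQ.Germ.CrossConc
import Fermat.Agent.SQ.Conc.T1Slot
import Fermat.Agent.SS.Germ.MainPlus
import Fermat.Agent.SS.Germ.ModSingle

/-!
# PROGRAM MR (S44), block `mrk` : THE CROSSING-GERM INPUT, AND `MrnxGermSpec` CLOSED

Owner: helper4.  Namespace `Fermat.Agent.MR`, prefix `mrkl`.

* `mrkl_cross_aux` : main's enriched crossing germ `ssgm_cross_plus` over ONE field `E ∋ ζ_{6M}`
  (`H₀ = H = sqgtc_hyp … h`, `ι = id`, `Γ = ⊥`) at a rational prime `𝔫` of the `j`-chart of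
  `F_E(M q)` lying on both components of a two-factor witness `h`;
* `mrkl_crossSpec : MrklCrossSpec A M p` (`5 ≤ p`, `p ∤ M`);
* **`mrkl_germSpec_closed M A hpM hA h5 : MrnxGermSpec M A hpM hA`** : helper3's literal,
  HYPOTHESIS-FREE.
-/

set_option autoImplicit false
set_option linter.unusedSectionVars false
set_option linter.unusedVariables false
set_option linter.style.haveILetI false
set_option synthInstance.maxHeartbeats 400000

noncomputable section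

namespace Fermat.Agent.MR

open Polynomial ModularCurve AlgebraicCurve IntermediateField IsLocalRing Fermat.Agent.S18
  Fermat.Agent.S24 Fermat.Agent.SS Fermat.Agent.SQ Fermat.Agent.G Fermat.Agent.TT Fermat.Agent.FF

local notation "Qb" => AlgebraicClosure ℚ

section Cross

variable {q : ℕ} [Fact q.Prime] [NeZero q] (𝔸 : ValuationSubring Qb)
  (E : IntermediateField ℚ Qb) [FiniteDimensional ℚ E] [IsDiscreteValuationRing ↥(s18dVal 𝔸 E)]
  [CharZero ↥(s18dVal 𝔸 E)] (M : ℕ) [NeZero M]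

set_option maxHeartbeats 4000000 in
/-- **main's enriched crossing germ over one field**, chart `t = α₁ j` (any spelling). -/
theorem mrkl_cross_aux (hA : 𝔸.LiesOverPrime q) (hqM : ¬ q ∣ M) (h5 : 5 ≤ q) (ζ : E)
    (hζ : IsPrimitiveRoot ζ (6 * M)) {ϖ : ↥(s18dVal 𝔸 E)} (hϖ : Irreducible ϖ)
    {Ξ G : (↥(ssvmmR 𝔸 E M q))[X]}
    (h : SsvAmb (ssvmmR 𝔸 E M q) (ssvmgRUnif (ssvmm_le E M q) ϖ) (ssvmmY E M q) Ξ
      (X - C (ssvmmJ 𝔸 E M q ^ q)) (X ^ q - C (ssvmmJ 𝔸 E M q)) G)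
    (t : ↥(modularFunctionFieldFullC E (M * q))) (e₀ : ssvmdIncl E M q (ssdJ E M) = t)
    (𝔫 : Ideal ↥(s18tInt ↥(s18dVal 𝔸 E) t)) [h𝔫 : 𝔫.IsPrime]
    (hon₁ : SqgaOn t 𝔫 h.V₁) (hon₂ : SqgaOn t 𝔫 h.V₂) (hrat : SsResRational t 𝔫) :
    SsGermCrossPlus ϖ t
      (⊥ : Subgroup (SemilinearAut E (modularFunctionFieldFullC E (M * q)))) 𝔫 h.V₁ h.V₂ := by
  subst e₀
  have hc : S18Coord hϖ (modularFunctionFieldFullC E M) (ssdJ E M) :=
    s18v_coord_j' hϖ (s18d_natCast_mem 𝔸 E hA) M hqM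
  have hgood : GrdfbHyp hϖ (ssdJ E M) := (ssgb_hyp_j M 𝔸 E hqM hA h5 _ hϖ ζ hζ).1
  have e₁ : ssvmdIncl E M q (ssdJ E M) = ssdJ E (M * q) := ssgms_incl_j E M
  have hTwo := sqcau_two_j 𝔸 E M hA hqM hϖ h
  rw [← e₁] at hTwo
  obtain ⟨Φ, MP⟩ := ssgcl_modPoly_over q 𝔸 hA E
  have hInt : ssvmfPhi E M q (ssdJ E M) ∈
      s18tInt ↥(s18dVal 𝔸 E) (ssvmdIncl E M q (ssdJ E M)) := by
    rw [e₁]
    exact ssgnp_phi_int_j 𝔸 E M q MP _ (s18tc_self_mem_int _)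
  have ht₁ : Transcendental E (ssvmdIncl E M q (ssdJ E M)) := by
    rw [e₁]
    exact ssd_transcendental_j _ _
  haveI : FiniteDimensional E⟮ssvmdIncl E M q (ssdJ E M)⟯
      (modularFunctionFieldFullC E (M * q)) := by
    rw [e₁]
    exact ssd_finiteDimensional_j _ _
  haveI := hc.fin
  have H := sqgtc_hyp 𝔸 E M h hA hqM hϖ (ssdJ E M) ht₁ (jqModC ℤ) (grdi_grdSer_j E).symm hc hgood
    hTwo
  have hφP := sqct1_phiP (q := q) 𝔸 E M (ssdJ E M) hInt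
  have H' : SsgiHyp hϖ (RingHom.id ↥(s18dVal 𝔸 E))
      ((RingHom.id ↥(modularFunctionFieldFullC E (M * q))).comp
        ((ssvmdIncl E M q : modularFunctionFieldFullC E M →ₐ[E]
          modularFunctionFieldFullC E (M * q)) : modularFunctionFieldFullC E M →+*
          modularFunctionFieldFullC E (M * q)))
      ((RingHom.id ↥(modularFunctionFieldFullC E (M * q))).comp (ssvmfPhi E M q)) ϖ (ssdJ E M)
      (ssvmdIncl E M q (ssdJ E M)) h.V₁ h.V₂ q := by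
    rw [RingHom.id_comp, RingHom.id_comp]
    exact H
  have hϖ𝔫 : sskPi ϖ (ssvmdIncl E M q (ssdJ E M)) ∈ 𝔫 := hon₁ _ H.two.unif₁
  refine ssgm_cross_plus (ι := RingHom.id ↥(modularFunctionFieldFullC E (M * q))) H H'
    ⟨fun a => rfl, rfl, ⟨1, by rw [RingHom.id_apply, mul_one]⟩⟩
    (fun x hx => hx) (fun x hx => hx) hφP hϖ hc.transc hϖ𝔫 ?_ hon₁ hon₂ ⊥ ?_
  · intro x
    obtain ⟨a, p', hp', hx⟩ := hrat x
    refine ⟨a, ?_⟩
    have e : x - ⟨algebraMap ↥(s18dVal 𝔸 E) ↥(modularFunctionFieldFullC E (M * q)) a,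
        s18tc_algebraMap_mem_int _ a⟩ = p' := by
      apply Subtype.ext
      show (x : ↥(modularFunctionFieldFullC E (M * q))) -
        algebraMap ↥(s18dVal 𝔸 E) ↥(modularFunctionFieldFullC E (M * q)) a = p'
      rw [hx]
      ring
    rw [e]
    exact hp'
  · intro γ hγ x
    rw [Subgroup.mem_bot.mp hγ, one_smul]

end Cross

section Closed

variable (M : ℕ) [NeZero M] {p : ℕ} [Fact p.Prime] [NeZero p]
variable (A : ValuationSubring Qb)

/-- **THE CROSSING-GERM INPUT**, discharged. -/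
theorem mrkl_crossSpec (hpM : ¬ p ∣ M) (hA : A.LiesOverPrime p) (h5 : 5 ≤ p) :
    MrklCrossSpec A M p := by
  intro E _ _ _ ζ hζ hϖ Ξ G h 𝔫 h𝔫 hon₁ hon₂ hrat
  haveI := h𝔫
  exact ⟨⊥, mrkl_cross_aux A E M hA hpM h5 ζ hζ hϖ h (ssdJ E (M * p)) (ssgms_incl_j E M) 𝔫
    hon₁ hon₂ hrat⟩

/-- **`MrnxGermSpec`, HYPOTHESIS-FREE** (helper3's literal, `MR/Node/CrossSpec.lean`). -/
theorem mrkl_germSpec_closed (hpM : ¬ p ∣ M) (hA : A.LiesOverPrime p) (h5 : 5 ≤ p) :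
    MrnxGermSpec M A hpM hA :=
  mrkl_germSpec M A hpM hA h5 (mrkl_crossSpec M A hpM hA h5)

end Closed

end Fermat.Agent.MR
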