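import Mathlib
import Fermat.Agent.MR.Node.ThickClosed
import Fermat.Agent.MR.Kron.GermClosed
import Fermat.Agent.MR.M.Leaf

/-!
# PROGRAM MR (S44), item 4a CLOSED : exact node coordinates and a thickness function at every level

Owner: helper4.  Namespace `Fermat.Agent.MR`, prefix `mrkl`.

helper19's `MR/Node/ThickClosed.lean` (`mrntc_*` : the ascent, from helper3 `mrnx_thick`, helper28
`mrnz_dictSpec`, helper27 `mrnci_ordSpec`) fed with `mrkl_germSpec_closed` (`MR/Kron/GermClosed.lean`).
Everything for EVERY level `M` prime to `p ≥ 5` and every `j`-atlas `hat`, HYPOTHESIS-FREE :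

* `mrkl_thick_closed : MrnxThick M A hpM hA hat`;
* `mrkl_coordSpec_closed : MrnCoordSpec M A hpM hA hat` (the input `MrnCoordSpec (M * ℓ)` of Balance);
* `mrkl_isThick_closed : ∃ E, MrmIsThick M A hpM hA hat E ∧ (2 ∣ M → 3 ∣ M → ∀ i, E (ν₁ i) = 1)`
  (the input `hE` of helper26's `mrm_leaf`);
* `mrkl_thickOne_closed` : (THICK-ONE), the binder `hthick` of helper17's `mrxw_thickLeaf_j`.
-/

set_option autoImplicit false
set_option linter.unusedSectionVars false
set_option linter.unusedVariables false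

noncomputable section

namespace Fermat.Agent.MR

open Polynomial ModularCurve AlgebraicCurve IsLocalRing IntermediateField
  Fermat.Agent.G Fermat.Agent.S18 Fermat.Agent.S24 Fermat.Agent.FF Fermat.Agent.TT Fermat.Agent.SS

local notation "Qb" => AlgebraicClosure ℚ

variable (M : ℕ) [NeZero M] {p : ℕ} [Fact p.Prime] [NeZero p]
variable (A : ValuationSubring Qb) (hpM : ¬ p ∣ M) (hA : A.LiesOverPrime p)
variable {σ' : LaurentSeries ℤ} (hat : GrdAtlas M A (jqModC ℤ) σ')

/-- **exact coordinates of integral thickness at every node** (thickness `1` when `2 ∣ M`,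
`3 ∣ M`). -/
theorem mrkl_thick_closed (h5 : 5 ≤ p) : MrnxThick M A hpM hA hat :=
  mrntc_thick M A hpM hA hat (mrkl_germSpec_closed M A hpM hA h5)

/-- **(COORD)** : exact node coordinates at every node. -/
theorem mrkl_coordSpec_closed (h5 : 5 ≤ p) : MrnCoordSpec M A hpM hA hat :=
  mrntc_coordSpec M A hpM hA hat (mrkl_germSpec_closed M A hpM hA h5)

/-- **a thickness function exists**, equal to `1` at the nodes when `2 ∣ M`, `3 ∣ M`. -/
theorem mrkl_isThick_closed (h5 : 5 ≤ p) :
    ∃ E : Place (ResidueField A) (MrmFk M A) → ℕ, MrmIsThick M A hpM hA hat E ∧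
      (2 ∣ M → 3 ∣ M → ∀ i : ttrkS M p A hpM hA hat, E (ttrkSν₁ M p A hpM hA hat i) = 1) :=
  mrntc_isThick M A hpM hA hat h5 (mrkl_germSpec_closed M A hpM hA h5)

/-- **(THICK-ONE)** : at a level with `2 ∣ M`, `3 ∣ M` every node has exact coordinates of
thickness prime to `p`. -/
theorem mrkl_thickOne_closed (h5 : 5 ≤ p) (h2 : 2 ∣ M) (h3 : 3 ∣ M)
    (i : ttrkS M p A hpM hA hat) :
    ∃ (u w ε : ↥(modularFunctionFieldBar (M * p))) (κ : Qb) (e : ℕ),
      MrnCoord M A hpM hA hat i u w ε κ ∧ A.valuation κ = A.valuation (p : Qb) ^ e ∧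
      ¬ p ∣ e :=
  mrntc_thickOne M A hpM hA hat (mrkl_germSpec_closed M A hpM hA h5) h2 h3 i

end Fermat.Agent.MR
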