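import Mathlib
import Fermat.Agent.TT.Red2.IntoNodeS
import Fermat.Agent.TT.Red2.IntoInst
import Fermat.Agent.TT.Red2.Red2All

/-!
# PROGRAM MR (S44), block `mrk` = KRONECKER / `κ_s` : LITERAL STATEMENTS (Spec)

Owner: helper25 (MR-PM R61).  Prefix `mrk` / `Mrk`.  Namespace `Fermat.Agent.MR`.
Only `Prop`-valued definitions here; the proofs live in `MR/Kron/*.lean`.

Setting (all LANDED, Program TT): `M` prime to `p`, `𝔸` a valuation ring of `ℚ̄` over `p`,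
`F = F_ℚ̄(M p)`, `J = ttrJ = α j`, `Y = ttrY = β j`, `V₁ = ttrV1`, `V₂ = ttraV2`,
`O2 = V₁ ⊓ V₂ = ttrglO2`, `red_j = ttrglRed_j`, nodes `ttrkS … hat` with branches `ttrkSν_j`,
centred places `ttruCenS … i`, inertia `ffI 𝔸` acting through `ffigRho (M p) 𝔸`.

* `MrkFrobSpec` (K-FROB) : `J = Y^p + p R₂`, `R₂ ∈ V₂`, and the twin `Y = J^p + p R₁`, `R₁ ∈ V₁`.
  (NOT `R₂ ∈ V₁` : `red₁ (J - Y^p) = j̄ - j̄^(p²) ≠ 0`.)  Consumer: `mrt` (field `kron`).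
* `MrkCoord`, `MrkCoordSpec` (K-COORD) : node coordinates `u w = p^e ε` with `κ = p^e` EXACTLY,
  `e ≥ 1`, `ε` a unit at the node, `u w` inertia-invariant.  Consumers: `mrn` (`MrnCoordSpec` with
  `κ := p^e`), `mrs`, `mrt` (field `hE : E = e • v p`).
* `MrkTermSpec` (K-TERM), `MrkExactSpec` (K-EXACT) : the abstract commutative algebra behind
  (K-COORD) : a ZERO-FREE PAIR `f f' = π^N ε` bounds the precision `n` of an approximate node
  equation `u w = π^n g`, hence the absorption process stops and gives `u w = π^e ε'`, `e ≤ N`.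
-/

set_option autoImplicit false
set_option linter.unusedSectionVars false
set_option linter.unusedVariables false
set_option linter.style.haveILetI false

noncomputable section

namespace Fermat.Agent.MR

open Polynomial ModularCurve AlgebraicCurve IsLocalRing IntermediateField
  Fermat.Agent.G Fermat.Agent.S18 Fermat.Agent.S24 Fermat.Agent.FF Fermat.Agent.TT

local notation "Qb" => AlgebraicClosure ℚ

section Concrete

variable (M : ℕ) [NeZero M] {p : ℕ} [Fact p.Prime] [NeZero p]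
variable (A : ValuationSubring Qb) (hpM : ¬ p ∣ M) (hA : A.LiesOverPrime p)
variable {τ τ' : LaurentSeries ℤ} (hat : GrdAtlas M A τ τ')

/-! ## 1. (K-FROB) -/

/-- **(K-FROB)** : `J = Y^p + p R₂` with `R₂ ∈ V₂`, and `Y = J^p + p R₁` with `R₁ ∈ V₁`. -/
def MrkFrobSpec : Prop :=
  (∃ R₂ : ↥(modularFunctionFieldBar (M * p)), R₂ ∈ ttraV2 M A hpM hA ∧
    ttrJ M A (p := p) = ttrY M A ^ p + (p : ↥(modularFunctionFieldBar (M * p))) * R₂) ∧
  (∃ R₁ : ↥(modularFunctionFieldBar (M * p)), R₁ ∈ ttrV1 M A hpM hA ∧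
    ttrY M A (p := p) = ttrJ M A ^ p + (p : ↥(modularFunctionFieldBar (M * p))) * R₁)

/-! ## 2. (K-COORD) : exact node coordinates with `κ = p^e` -/

/-- `x ∈ O_s` : `x ∈ V₁ ∩ V₂` without poles at the places centred at the node `i`
(= helper19's `MrnInOs`). -/
def MrkInOs (i : ttrkS M p A hpM hA hat) (x : ↥(modularFunctionFieldBar (M * p))) : Prop :=
  x ∈ ttrglO2 M A hpM hA ∧ ∀ v, ttruCenS M A hpM hA hat i v → x ∈ v.toValuationSubring

/-- **node coordinates with an exact equation** `u w = p^e ε` : the fields of helper19's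
`MrnCoord` with `κ := p^e`, `1 ≤ e`. -/
structure MrkCoord (i : ttrkS M p A hpM hA hat) (u w ε : ↥(modularFunctionFieldBar (M * p)))
    (e : ℕ) : Prop where
  hu : MrkInOs M A hpM hA hat i u
  hw : MrkInOs M A hpM hA hat i w
  hε : MrkInOs M A hpM hA hat i ε
  hεu : ¬ GrdVal (ttrkSν₁ M p A hpM hA hat i) (ttrglRed₁ M A hpM hA ⟨ε, hε.1⟩) 0
  e_pos : 1 ≤ e
  mul : u * w = algebraMap Qb ↥(modularFunctionFieldBar (M * p)) ((p : Qb) ^ e) * ε
  u_red₂ : ttrglRed₂ M A hpM hA ⟨u, hu.1⟩ = 0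
  w_red₁ : ttrglRed₁ M A hpM hA ⟨w, hw.1⟩ = 0
  u_ord : (ttrkSν₁ M p A hpM hA hat i).ord (ttrglRed₁ M A hpM hA ⟨u, hu.1⟩) = 1
  w_ord : (ttrkSν₂ M p A hpM hA hat i).ord (ttrglRed₂ M A hpM hA ⟨w, hw.1⟩) = 1
  u_inv : ∀ σ : ↥(ffI A), ffigRho (M * p) A σ • u = u
  w_inv : ∀ σ : ↥(ffI A), ffigRho (M * p) A σ • w = w

/-- **(K-COORD)** : exact coordinates exist at every node. -/
def MrkCoordSpec : Prop :=
  ∀ i : ttrkS M p A hpM hA hat, ∃ (u w ε : ↥(modularFunctionFieldBar (M * p))) (e : ℕ),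
    MrkCoord M A hpM hA hat i u w ε e

end Concrete

/-! ## 3. (K-TERM), (K-EXACT) : the abstract commutative algebra

`O ⊂ F` a subring with a character `ev : O → k` ("value at the node") whose kernel is generated
by `π, u, w` and outside of whose kernel elements are units; `V₁ V₂ ⊇ O` two valuation rings,
`π, u ∈ 𝔪_{V₁}`, `π, w ∈ 𝔪_{V₂}`, `u ∉ 𝔪_{V₂}`, `w ∉ 𝔪_{V₁}` (units there), and the saturation
`O ∩ 𝔪_{V₁} ∩ 𝔪_{V₂} = π O`. -/

/-- the node hypotheses on `(O, ev, V₁, V₂, π, u, w)`. -/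
structure MrkNodeHyp {F k : Type*} [Field F] [Field k] (O : Subring F) (ev : ↥O →+* k)
    (V₁ V₂ : ValuationSubring F) (π u w : F) : Prop where
  le₁ : ∀ x ∈ O, x ∈ V₁
  le₂ : ∀ x ∈ O, x ∈ V₂
  hπ : π ∈ O
  hu : u ∈ O
  hw : w ∈ O
  π_ne : π ≠ 0
  π₁ : π ∈ V₁.nonunits
  π₂ : π ∈ V₂.nonunits
  u₁ : u ∈ V₁.nonunits
  w₂ : w ∈ V₂.nonunits
  u₂ : u ∉ V₂.nonunits
  w₁ : w ∉ V₁.nonunits
  unit : ∀ x : ↥O, ev x ≠ 0 → (x : F)⁻¹ ∈ O
  gen : ∀ x : ↥O, ev x = 0 → ∃ a b c : ↥O, (x : F) = (a : F) * π + (b : F) * u + (c : F) * w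
  ev_π : ev ⟨π, hπ⟩ = 0
  ev_u : ev ⟨u, hu⟩ = 0
  ev_w : ev ⟨w, hw⟩ = 0
  sat : ∀ x ∈ O, x ∈ V₁.nonunits → x ∈ V₂.nonunits → ∃ y ∈ O, x = π * y

/-- **(K-TERM)** : a zero-free pair `f f' = π^N ε` (`ε` a unit at the node, `V₂(f) ≥ N`,
`V₁(f') ≥ N`, `N ≥ 1`) bounds the precision of an approximate node equation `u w = π^n g`. -/
def MrkTermSpec : Prop :=
  ∀ (F k : Type) [Field F] [Field k] (O : Subring F) (ev : ↥O →+* k)
    (V₁ V₂ : ValuationSubring F) (π u w : F), MrkNodeHyp O ev V₁ V₂ π u w →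
    ∀ (n N : ℕ) (g f f' : F) (ε : ↥O), g ∈ O → u * w = π ^ n * g →
      f ∈ O → f' ∈ O → 1 ≤ N → ev ε ≠ 0 → f * f' = π ^ N * (ε : F) →
      (∃ y ∈ V₂, f = π ^ N * y) → (∃ y ∈ V₁, f' = π ^ N * y) → n ≤ N

/-- **(K-EXACT)** : under the node hypotheses, `u w ∈ π O` and a zero-free pair, the absorption
process stops : there are `u' ≡ u`, `w' ≡ w` modulo `π O` with `u' w' = π^e ε'`, `1 ≤ e ≤ N`,
`ε'` a unit at the node; the node hypotheses persist for `(u', w')`. -/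
def MrkExactSpec : Prop :=
  ∀ (F k : Type) [Field F] [Field k] (O : Subring F) (ev : ↥O →+* k)
    (V₁ V₂ : ValuationSubring F) (π u w : F), MrkNodeHyp O ev V₁ V₂ π u w →
    ∀ (N : ℕ) (g f f' : F) (ε : ↥O), g ∈ O → u * w = π * g →
      f ∈ O → f' ∈ O → 1 ≤ N → ev ε ≠ 0 → f * f' = π ^ N * (ε : F) →
      (∃ y ∈ V₂, f = π ^ N * y) → (∃ y ∈ V₁, f' = π ^ N * y) →
      ∃ (e : ℕ) (u' w' : F) (ε' : ↥O), 1 ≤ e ∧ e ≤ N ∧ ev ε' ≠ 0 ∧
        u' * w' = π ^ e * (ε' : F) ∧ (∃ y ∈ O, u' - u = π * y) ∧ (∃ y ∈ O, w' - w = π * y) ∧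
        MrkNodeHyp O ev V₁ V₂ π u' w'

end Fermat.Agent.MR
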