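import Mathlib
import Fermat.Agent.MR.Kron.Spec
import Fermat.Agent.TT.Red2.CuspUnit
import Fermat.Agent.TT.Red2.Gauss1
import Fermat.Agent.G.Conj.Formal

/-!
# PROGRAM MR (S44), block `mrk` : (K-FROB)  `J = Y^p + p R₂`, `R₂ ∈ V₂`; `Y = J^p + p R₁`, `R₁ ∈ V₁`

Owner: helper25.  Prefix `mrk`.

* `mrk_exists_div` : an integral Laurent series whose reduction modulo `p` vanishes is `p • c`;
* `mrk_frob_int` : `j(q^p) - j(q)^p = p • c` in `ℤ((q))` (Frobenius on `(ℤ/p)((q))`);
* `mrk_R1_mem` : `(Y - J^p)/p ∈ V₁ = grdO (M p) 𝔸` (integral `q`-expansion + landed automatic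
  goodness `ttr_good_of_gen`);
* `mrk_frob` : `MrkFrobSpec`, closed.
-/

set_option autoImplicit false
set_option linter.unusedSectionVars false
set_option linter.unusedVariables false
set_option linter.style.haveILetI false
set_option synthInstance.maxHeartbeats 400000

noncomputable section

namespace Fermat.Agent.MR

open Polynomial ModularCurve AlgebraicCurve IsLocalRing IntermediateField
  Fermat.Agent.G Fermat.Agent.S18 Fermat.Agent.S24 Fermat.Agent.FF Fermat.Agent.TT

local notation "Qb" => AlgebraicClosure ℚ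

/-! ### integral series divisible by `p` -/

/-- an integral Laurent series all of whose coefficients are divisible by `n` is `n • c`. -/
theorem mrk_exists_div (n : ℤ) (d : LaurentSeries ℤ) (h : ∀ k, n ∣ d.coeff k) :
    ∃ c : LaurentSeries ℤ, d = n • c := by
  let φ : ZeroHom ℤ ℤ := ⟨fun a => a / n, by simp⟩
  refine ⟨d.map φ, ?_⟩
  ext k
  rw [HahnSeries.coeff_smul, HahnSeries.map_coeff]
  show d.coeff k = n • (d.coeff k / n)
  rw [smul_eq_mul, Int.mul_ediv_cancel' (h k)]

/-- `j(q^p) - j(q)^p ∈ p ℤ((q))`. -/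
theorem mrk_frob_int (p : ℕ) [Fact p.Prime] [NeZero p] :
    ∃ c : LaurentSeries ℤ, qExpand ℤ p (jqModC ℤ) - jqModC ℤ ^ p = (p : ℤ) • c := by
  apply mrk_exists_div
  intro k
  have h0 : coeffMap (Int.castRingHom (ZMod p)) (qExpand ℤ p (jqModC ℤ) - jqModC ℤ ^ p) = 0 := by
    rw [map_sub, map_pow, coeffMap_qExpand, coeffMap_jqModC, gcjf_pow_char (ZMod p) p,
      sub_eq_zero]
    congr 1
    ext m
    rw [coeffMap_coeff, frobenius_def, ZMod.pow_card]
  have h1 := congrArg (fun s => HahnSeries.coeff s k) h0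
  simp only [coeffMap_coeff, HahnSeries.coeff_zero] at h1
  exact (ZMod.intCast_zmod_eq_zero_iff_dvd _ p).mp h1

section Concrete

variable (M : ℕ) [NeZero M] {p : ℕ} [Fact p.Prime] [NeZero p]
variable (A : ValuationSubring Qb) (hpM : ¬ p ∣ M) (hA : A.LiesOverPrime p)

/-- the `q`-expansion of `J`. -/
theorem mrk_coe_J : ((ttrJ M A (p := p) : modularFunctionFieldBar (M * p)) : LaurentSeries Qb) =
    jqModC Qb := ttrcu_coe_J M

/-- the `q`-expansion of `Y`. -/
theorem mrk_coe_Y : ((ttrY M A (p := p) : modularFunctionFieldBar (M * p)) : LaurentSeries Qb) =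
    qExpand Qb p (jqModC Qb) := ttrcu_coe_Y M

include hpM hA in
/-- **`(Y - J^p) = p R₁` with `R₁ ∈ grdO (M p) 𝔸`.** -/
theorem mrk_R1_mem :
    ∃ R₁ : ↥(modularFunctionFieldBar (M * p)), R₁ ∈ grdO (M * p) A ∧
      ttrY M A (p := p) = ttrJ M A ^ p + (p : ↥(modularFunctionFieldBar (M * p))) * R₁ := by
  obtain ⟨c, hc⟩ := mrk_frob_int p
  have hp0 : (p : ↥(modularFunctionFieldBar (M * p))) ≠ 0 := by
    exact_mod_cast (Fact.out : p.Prime).ne_zero
  set R₁ : ↥(modularFunctionFieldBar (M * p)) :=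
    (ttrY M A (p := p) - ttrJ M A ^ p) / (p : ↥(modularFunctionFieldBar (M * p))) with hR₁
  have hmul : (p : ↥(modularFunctionFieldBar (M * p))) * R₁ = ttrY M A (p := p) - ttrJ M A ^ p := by
    rw [hR₁, mul_div_cancel₀ _ hp0]
  -- the `q`-expansion of `R₁` is the integral series `c`
  have hcoe : ((R₁ : modularFunctionFieldBar (M * p)) : LaurentSeries Qb) =
      coeffMap (Int.castRingHom Qb) c := by
    have h1 := congrArg (fun z : ↥(modularFunctionFieldBar (M * p)) => (z : LaurentSeries Qb)) hmul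
    simp only [MulMemClass.coe_mul, AddSubgroupClass.coe_sub, SubmonoidClass.coe_pow] at h1
    rw [mrk_coe_J, mrk_coe_Y] at h1
    have h2 : qExpand Qb p (jqModC Qb) - jqModC Qb ^ p =
        coeffMap (Int.castRingHom Qb) (qExpand ℤ p (jqModC ℤ) - jqModC ℤ ^ p) := by
      rw [map_sub, map_pow, coeffMap_qExpand, coeffMap_jqModC]
    rw [h2, hc, map_zsmul] at h1
    have h3 : (((p : ↥(modularFunctionFieldBar (M * p))) : modularFunctionFieldBar (M * p)) :
        LaurentSeries Qb) = ((p : ℤ) : LaurentSeries Qb) := by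
      norm_cast
    rw [h3, zsmul_eq_mul] at h1
    have hpz : (((p : ℤ) : LaurentSeries Qb)) ≠ 0 := by
      have : ((p : ℤ) : LaurentSeries Qb) = ((p : ℕ) : LaurentSeries Qb) := by norm_cast
      rw [this, ← map_natCast (algebraMap Qb (LaurentSeries Qb)) p]
      rw [Ne, map_eq_zero_iff _ (algebraMap Qb (LaurentSeries Qb)).injective]
      exact_mod_cast (Fact.out : p.Prime).ne_zero
    exact mul_left_cancel₀ hpz h1
  -- automatic goodness
  set U : LaurentSeries A := coeffMap (Int.castRingHom ↥A) c with hU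
  have hUQ : coeffMap A.subtype U = coeffMap (Int.castRingHom Qb) c := by
    rw [hU, coeffMap_coeffMap]
    congr 1
  have hUmem : coeffMap A.subtype U ∈ modularFunctionFieldBar (M * p) := by
    rw [hUQ, ← hcoe]
    exact R₁.2
  obtain ⟨hgood, -⟩ := ttr_good_of_gen M A hpM hA U hUmem
  refine ⟨R₁, ⟨U, 1, hgood, grd_good_one, ?_, ?_⟩, ?_⟩
  · rw [map_one]; exact one_ne_zero
  · rw [map_one, mul_one, hcoe, hUQ]
  · rw [hmul]; ring

/-- **(K-FROB), closed.** -/
theorem mrk_frob : MrkFrobSpec M A (p := p) hpM hA := by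
  obtain ⟨R₁, hR₁, hY⟩ := mrk_R1_mem M A hpM hA
  refine ⟨⟨(ttrW M hpM).symm R₁, ?_, ?_⟩, ⟨R₁, hR₁, hY⟩⟩
  · show ttrW M hpM ((ttrW M hpM).symm R₁) ∈ ttrV1 M A hpM hA
    rw [RingEquiv.apply_symm_apply]
    exact hR₁
  · apply (ttrW M hpM).injective
    rw [map_add, map_mul, map_pow, map_natCast, RingEquiv.apply_symm_apply, ttrW_J, ttrW_Y]
    exact hY

end Concrete

end Fermat.Agent.MR
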